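/-
Team S51 shared definitions (owner: helper51).  Everything lives in `namespace Fermat.Agent.S51`.
-/
import Mathlib
import Fermat.Prelude.Def_FLTPrelim_GaloisRep
import Fermat.Prelude.Def_FLTPrelim_Modularity
import Fermat.Prelude.Def_FLTPrelim_ModularRep

set_option autoImplicit false

namespace Fermat.Agent.S51

/-- The short Weierstrass curve `y² = x³ + A x + B` over `ℚ`. -/
def shortW (A B : ℚ) : WeierstrassCurve ℚ := ⟨0, 0, 0, A, B⟩

@[simp] lemma shortW_a₁ (A B : ℚ) : (shortW A B).a₁ = 0 := rfl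
@[simp] lemma shortW_a₂ (A B : ℚ) : (shortW A B).a₂ = 0 := rfl
@[simp] lemma shortW_a₃ (A B : ℚ) : (shortW A B).a₃ = 0 := rfl
@[simp] lemma shortW_a₄ (A B : ℚ) : (shortW A B).a₄ = A := rfl
@[simp] lemma shortW_a₆ (A B : ℚ) : (shortW A B).a₆ = B := rfl

/-- Irreducibility of the mod-`n` Galois representation of a Weierstrass curve over `ℚ`
(the prelude predicate, with `K = AlgebraicClosure ℚ`, `S = ℚ`). -/
abbrev Irr (W : WeierstrassCurve ℚ) (n : ℕ) : Prop :=
  WeierstrassCurve.Affine.Point.GaloisRepIsIrreducible (K := AlgebraicClosure ℚ) ℚ W n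

end Fermat.Agent.S51
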