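/-
Team S51, generic helpers (owner: helper60).
-/
import Fermat.Agent.S51.Defs

set_option autoImplicit false

namespace Fermat.Agent.S51

/-- `AlgebraicClosure ℚ` is an algebraic closure of `ℚ` for the `ℚ`-algebra structure that
instance resolution picks for the Galois group `AlgebraicClosure ℚ ≃ₐ[ℚ] AlgebraicClosure ℚ`
(namely `DivisionRing.toRatAlgebra`). -/
theorem isAlgClosure_rat_algebraicClosure : IsAlgClosure ℚ (AlgebraicClosure ℚ) := by
  have h : (DivisionRing.toRatAlgebra : Algebra ℚ (AlgebraicClosure ℚ))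
      = AlgebraicClosure.instAlgebra ℚ := Subsingleton.elim _ _
  rw [h]
  infer_instance

/-- `AlgebraicClosure ℚ / ℚ` is Galois (for the algebra structure used by the Galois group). -/
theorem isGalois_rat_algebraicClosure : IsGalois ℚ (AlgebraicClosure ℚ) :=
  have := isAlgClosure_rat_algebraicClosure
  inferInstance

/-- An element of `Qbar` fixed by every `ℚ`-automorphism is rational. -/
theorem rat_of_fixed (x : AlgebraicClosure ℚ)
    (h : ∀ σ : AlgebraicClosure ℚ ≃ₐ[ℚ] AlgebraicClosure ℚ, σ x = x) :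
    ∃ q : ℚ, algebraMap ℚ (AlgebraicClosure ℚ) q = x := by
  have := isGalois_rat_algebraicClosure
  exact (InfiniteGalois.mem_range_algebraMap_iff_fixed (k := ℚ) (K := AlgebraicClosure ℚ) x).mpr h

/-- A proper nonzero submodule of a `ZMod p`-module with at most `p²` elements is a line. -/
theorem exists_generator_of_card_le {p : ℕ} [Fact p.Prime] {M : Type*} [AddCommGroup M]
    [Module (ZMod p) M] [Finite M] (hcard : Nat.card M ≤ p ^ 2)
    (N : Submodule (ZMod p) M) (hbot : N ≠ ⊥) (htop : N ≠ ⊤) :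
    ∃ P : M, P ≠ 0 ∧ P ∈ N ∧ ∀ Q ∈ N, ∃ k : ℕ, Q = k • P := by
  have hp : p.Prime := Fact.out
  have hM : Nat.card M = p ^ Module.finrank (ZMod p) M := by
    have := Module.natCard_eq_pow_finrank (K := ZMod p) (V := M)
    rwa [Nat.card_zmod] at this
  have hfinM : Module.finrank (ZMod p) M ≤ 2 := by
    rw [hM] at hcard
    exact (Nat.pow_le_pow_iff_right hp.one_lt).mp hcard
  have hlt : Module.finrank (ZMod p) N < Module.finrank (ZMod p) M :=
    Submodule.finrank_lt htop
  have hpos : 0 < Module.finrank (ZMod p) N := by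
    have : Nontrivial N := (Submodule.nontrivial_iff_ne_bot).mpr hbot
    exact Module.finrank_pos
  have h1 : Module.finrank (ZMod p) N = 1 := by omega
  obtain ⟨v, hv0, hv⟩ := finrank_eq_one_iff'.mp h1
  refine ⟨v, ?_, v.2, ?_⟩
  · intro h
    exact hv0 (Subtype.ext h)
  · intro Q hQ
    obtain ⟨c, hc⟩ := hv ⟨Q, hQ⟩
    refine ⟨c.val, ?_⟩
    have h2 : c • (v : M) = Q := by
      have := congrArg Subtype.val hc
      simpa using this
    rw [← h2, ← Nat.cast_smul_eq_nsmul (ZMod p), ZMod.natCast_zmod_val]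

end Fermat.Agent.S51
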