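import Mathlib

set_option autoImplicit false

namespace Fermat.Agent.S51

/-- Plane model of `X_0(15)` in the coordinates `(n, z)`; cofactor certificate. -/
theorem bridge_plane_nz (n z : ℚ)
    (hF : (4 * n ^ 2 + 1) ^ 2 * z ^ 4 - 6 * (n ^ 2 - 3 * n + 1) * (4 * n ^ 2 + 1) * z ^ 2
      + (4 * n ^ 2 - 18 * n + 19) * (4 * n ^ 2 + 1) * z - 3 * (n ^ 2 - 3 * n + 1) ^ 2 = 0) :
    ((4 * n ^ 2 + 1) * z ^ 2 - (4 * n ^ 2 + 1) * z + n ^ 2 - 2) ^ 5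
        * (9 - ((4 * n ^ 2 + 1) * z ^ 2 - (4 * n ^ 2 + 1) * z + n ^ 2 - 2)) * (11 - 4 * n) ^ 2
      - 5 * ((4 * n ^ 2 + 1) * z ^ 2 - (4 * n ^ 2 + 1) * z + n ^ 2 - 2) ^ 3 * (11 - 4 * n)
        * (4 * n ^ 2 + 1)
        * (4 * (4 * n ^ 2 + 1) * z ^ 3 - 12 * (n ^ 2 - 3 * n + 1) * z + (4 * n ^ 2 - 18 * n + 19)) ^ 2
      + (((4 * n ^ 2 + 1) * z ^ 2 - (4 * n ^ 2 + 1) * z + n ^ 2 - 2) + 1) * (4 * n ^ 2 + 1) ^ 2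
        * (4 * (4 * n ^ 2 + 1) * z ^ 3 - 12 * (n ^ 2 - 3 * n + 1) * z + (4 * n ^ 2 - 18 * n + 19)) ^ 4
      = 0 := by
  linear_combination
    (262144*n^10*z^10 - 262144*n^10*z^9 - 331776*n^10*z^8 + 417792*n^10*z^7 + 172032*n^10*z^6 -
      387072*n^10*z^5 + 118272*n^10*z^4 + 66048*n^10*z^3 - 55296*n^10*z^2 + 14464*n^10*z - 1360*n^10
      + 1284096*n^9*z^8 - 1560576*n^9*z^7 - 1038336*n^9*z^6 + 2319360*n^9*z^5 - 695040*n^9*z^4 -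
      645888*n^9*z^3 + 547968*n^9*z^2 - 155712*n^9*z + 15960*n^9 + 327680*n^8*z^10 - 327680*n^8*z^9
      - 1046784*n^8*z^8 + 1672704*n^8*z^7 + 2409984*n^8*z^6 - 5159040*n^8*z^5 + 1336800*n^8*z^4 +
      2494752*n^8*z^3 - 2163072*n^8*z^2 + 671528*n^8*z - 75485*n^8 + 1284096*n^7*z^8 -
      1560576*n^7*z^7 - 3060096*n^7*z^6 + 6207360*n^7*z^5 - 811680*n^7*z^4 - 5078208*n^7*z^3 +
      4406808*n^7*z^2 - 1467912*n^7*z + 178770*n^7 + 163840*n^6*z^10 - 163840*n^6*z^9 -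
      839424*n^6*z^8 + 1411584*n^6*z^7 + 2354304*n^6*z^6 - 5318880*n^6*z^5 - 298800*n^6*z^4 +
      6334992*n^6*z^3 - 5154672*n^6*z^2 + 1674178*n^6*z - 199780*n^6 + 481536*n^5*z^8 -
      585216*n^5*z^7 - 1905696*n^5*z^6 + 3785760*n^5*z^5 + 454752*n^5*z^4 - 5370480*n^5*z^3 +
      3884022*n^5*z^2 - 875358*n^5*z + 23724*n^5 + 40960*n^4*z^10 - 40960*n^4*z^9 - 288864*n^4*z^8
      + 496704*n^4*z^7 + 888864*n^4*z^6 - 2115000*n^4*z^5 - 484818*n^4*z^4 + 3380370*n^4*z^3 -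
      2229516*n^4*z^2 + 67240*n^4*z + 181007*n^4 + 80256*n^3*z^8 - 97536*n^3*z^7 - 443976*n^3*z^6 +
      873960*n^3*z^5 + 336126*n^3*z^4 - 1773444*n^3*z^3 + 1006734*n^3*z^2 + 135096*n^3*z -
      187692*n^3 + 5120*n^2*z^10 - 5120*n^2*z^9 - 45984*n^2*z^8 + 80064*n^2*z^7 + 150264*n^2*z^6 -
      375090*n^2*z^5 - 105144*n^2*z^4 + 657006*n^2*z^3 - 332670*n^2*z^2 - 126790*n^2*z + 86092*n^2
      + 5016*n*z^8 - 6096*n*z^7 - 35646*n*z^6 + 69810*n*z^5 + 45642*n*z^4 - 184530*n*z^3 +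
      75648*n*z^2 + 66156*n*z - 27222*n + 256*z^10 - 256*z^9 - 2793*z^8 + 4902*z^7 + 9552*z^6 -
      24918*z^5 - 5760*z^4 + 42282*z^3 - 15969*z^2 - 12350*z + 4691) * hF

/-- `j`-invariant in terms of `τ = -Δ/φ²` for a rational 3-torsion abscissa; cofactor certificate. -/
theorem bridge_j_tau (A B x : ℚ) (h3 : 3 * x ^ 4 + 6 * A * x ^ 2 + 12 * B * x - A ^ 2 = 0) :
    -6912 * A ^ 3 * (x ^ 3 + A * x + B) ^ 6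
      = (27 * (x ^ 3 + A * x + B) ^ 2 - (4 * A ^ 3 + 27 * B ^ 2))
        * (3 * (x ^ 3 + A * x + B) ^ 2 - (4 * A ^ 3 + 27 * B ^ 2)) ^ 3 := by
  linear_combination
    (256*A^10 - 768*A^9*x^2 - 1536*A^8*B*x - 4128*A^8*x^4 + 4608*A^7*B^2 - 5760*A^7*B*x^3 -
      8208*A^7*x^6 - 11520*A^6*B^2*x^2 - 13536*A^6*B*x^5 - 11655*A^6*x^8 - 20736*A^5*B^3*x -
      49248*A^5*B^2*x^4 - 22680*A^5*B*x^7 - 13122*A^5*x^10 + 27648*A^4*B^4 - 27648*A^4*B^3*x^3 -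
      46656*A^4*B^2*x^6 - 25164*A^4*B*x^9 - 11205*A^4*x^12 + 10368*A^3*B^4*x^2 + 32400*A^3*B^3*x^5
      - 20736*A^3*B*x^11 - 7452*A^3*x^14 - 41472*A^2*B^5*x - 58320*A^2*B^4*x^4 + 76464*A^2*B^3*x^7
      + 24624*A^2*B^2*x^10 - 13608*A^2*B*x^13 - 3969*A^2*x^16 + 62208*A*B^6 - 77760*A*B^5*x^3 -
      69984*A*B^4*x^6 + 50544*A*B^3*x^9 + 15552*A*B^2*x^12 - 5832*A*B*x^15 - 1458*A*x^18 +
      62208*B^6*x^2 - 31104*B^5*x^5 - 27216*B^4*x^8 + 11664*B^3*x^11 + 3888*B^2*x^14 - 972*B*x^17 -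
      243*x^20) * h3

end Fermat.Agent.S51
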