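/-
Team S51, block B1 (owner: helper41).  From the torsion data to the plane model of X_0(15).

Data: `A B x u v : ℚ` with
  hΔ  : 4A³+27B² ≠ 0,
  h3  : 3x⁴+6Ax²+12Bx-A² = 0                (x = abscissa of a 3-torsion point),
  huv : u²-4v ≠ 0,
  hA  : A²+2(u²-v)A-u⁴+5u²v+5v² = 0,  hB : 4B = u(u²-6v-2A)   (u, v = sum/product of the abscissas of P, 2P, 5P = 0).

Math.
* `u ≠ 0`: if `u = 0` then `B = 0` and `(A - v)² + 4v² = 0`, so `A = v = 0`, contradicting hΔ.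
* PARAMETRISATION.  hA is equivalent to `(A+u²-v)² = (2u²+v)(u²-4v)`.  Put `n = (A+u²-v)/(u²-4v)`, `D = 4n²+1 (> 0)`.
  Then `n²(u²-4v) = 2u²+v`, i.e. `v D = (n²-2) u²`; hence `u²-4v = 9u²/D`, `A D = -3(n²-3n+1) u²`, and by hB
  `4 B D = (4n²-18n+19) u³`.
* With `z = x/u`, `P = n²-3n+1`, `R = 4n²-18n+19`:  h3 · D²/u⁴ reads `3 (D² z⁴ - 6 P D z² + R D z - 3 P²) = 0`.
  Moreover `4A³+27B² = 729 (11-4n) u⁶ / (16 D³)`,  `x³+Ax+B = u³ (4D z³ - 12 P z + R)/(4D)`,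
  `x²-ux+v = u² (D z² - D z + n² - 2)/D`.
* `φ := x³+Ax+B ≠ 0`: `ψ₃ = 12 x φ - (3x²+A)²`, and `4A³+27B² = (4A²+6Ax²-9Bx)(3x²+A) - (18Ax-27B) φ`.
* PLANE EQUATION.  With `ρ = (x²-ux+v)/(u²-4v) = (D z² - D z + n² - 2)/9` and
  `τ = -(4A³+27B²)/φ² = -729 (11-4n)/(D (4D z³-12 P z+R)²)`, the statement `bridge_plane_nz` of BridgeCert.lean
  (divide by `9⁶ D² (4Dz³-12Pz+R)⁴`) is exactly `ρ⁵(1-ρ)τ² + 5ρ³τ + 9ρ + 1 = 0`.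
-/
import Fermat.Agent.S51.BridgeCert

set_option autoImplicit false

namespace Fermat.Agent.S51

theorem bridge_u_ne (A B u v : ℚ) (hΔ : 4 * A ^ 3 + 27 * B ^ 2 ≠ 0)
    (hA : A ^ 2 + 2 * (u ^ 2 - v) * A - u ^ 4 + 5 * u ^ 2 * v + 5 * v ^ 2 = 0)
    (hB : 4 * B = u * (u ^ 2 - 6 * v - 2 * A)) : u ≠ 0 := by
  rintro rfl
  have hB0 : B = 0 := by linarith
  have hsq : (A - v) ^ 2 + 4 * v ^ 2 = 0 := by linear_combination hA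
  have hv : v = 0 := by nlinarith [sq_nonneg (A - v), sq_nonneg v]
  have hA0 : A = 0 := by
    rw [hv] at hsq
    have : A ^ 2 = 0 := by linear_combination hsq
    exact pow_eq_zero_iff (two_ne_zero) |>.mp this
  apply hΔ
  rw [hA0, hB0]; norm_num

theorem bridge_param (A B u v : ℚ) (huv : u ^ 2 - 4 * v ≠ 0)
    (hA : A ^ 2 + 2 * (u ^ 2 - v) * A - u ^ 4 + 5 * u ^ 2 * v + 5 * v ^ 2 = 0)
    (hB : 4 * B = u * (u ^ 2 - 6 * v - 2 * A)) :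
    ∃ n : ℚ, v * (4 * n ^ 2 + 1) = (n ^ 2 - 2) * u ^ 2 ∧
      A * (4 * n ^ 2 + 1) = -3 * (n ^ 2 - 3 * n + 1) * u ^ 2 ∧
      4 * B * (4 * n ^ 2 + 1) = (4 * n ^ 2 - 18 * n + 19) * u ^ 3 := by
  obtain ⟨n, hn⟩ : ∃ n : ℚ, A + u ^ 2 - v = n * (u ^ 2 - 4 * v) :=
    ⟨(A + u ^ 2 - v) / (u ^ 2 - 4 * v), (div_mul_cancel₀ _ huv).symm⟩
  -- `n² (u² - 4v) = 2u² + v`
  have hn2 : n ^ 2 * (u ^ 2 - 4 * v) = 2 * u ^ 2 + v := by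
    apply mul_right_cancel₀ huv
    linear_combination hA - (A + u ^ 2 - v + n * (u ^ 2 - 4 * v)) * hn
  have hv : v * (4 * n ^ 2 + 1) = (n ^ 2 - 2) * u ^ 2 := by linear_combination -hn2
  have hAn : A * (4 * n ^ 2 + 1) = -3 * (n ^ 2 - 3 * n + 1) * u ^ 2 := by
    linear_combination (4 * n ^ 2 + 1) * hn + (1 - 4 * n) * hv
  refine ⟨n, hv, hAn, ?_⟩
  linear_combination (4 * n ^ 2 + 1) * hB - 6 * u * hv - 2 * u * hAn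

theorem bridge_phi_ne (A B x : ℚ) (hΔ : 4 * A ^ 3 + 27 * B ^ 2 ≠ 0)
    (h3 : 3 * x ^ 4 + 6 * A * x ^ 2 + 12 * B * x - A ^ 2 = 0) : x ^ 3 + A * x + B ≠ 0 := by
  intro hφ
  have hsq : (3 * x ^ 2 + A) ^ 2 = 0 := by linear_combination 12 * x * hφ - h3
  have h1 : 3 * x ^ 2 + A = 0 := pow_eq_zero_iff (two_ne_zero) |>.mp hsq
  apply hΔ
  linear_combination (4 * A ^ 2 + 6 * A * x ^ 2 - 9 * B * x) * h1 - (18 * A * x - 27 * B) * hφ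

/-- Division step: the polynomial identity of `bridge_plane_nz` in the abstract variables
`r = 9ρ`, `c = 11 - 4n`, `D`, `G` gives the plane equation for `ρ = r/9`, `τ = -729 c/(D G²)`. -/
theorem bridge_plane_div (r c D G : ℚ) (hD : D ≠ 0) (hG : G ≠ 0)
    (h : r ^ 5 * (9 - r) * c ^ 2 - 5 * r ^ 3 * c * D * G ^ 2 + (r + 1) * D ^ 2 * G ^ 4 = 0) :
    (r / 9) ^ 5 * (1 - r / 9) * (-(729 * c) / (D * G ^ 2)) ^ 2
      + 5 * (r / 9) ^ 3 * (-(729 * c) / (D * G ^ 2)) + 9 * (r / 9) + 1 = 0 := by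
  have key : (r / 9) ^ 5 * (1 - r / 9) * (-(729 * c) / (D * G ^ 2)) ^ 2
      + 5 * (r / 9) ^ 3 * (-(729 * c) / (D * G ^ 2)) + 9 * (r / 9) + 1
      = (r ^ 5 * (9 - r) * c ^ 2 - 5 * r ^ 3 * c * D * G ^ 2 + (r + 1) * D ^ 2 * G ^ 4)
        / (D ^ 2 * G ^ 4) := by
    field_simp
    ring
  rw [key, h, zero_div]

/-- The plane model of `X_0(15)` satisfied by `ρ = (x²-ux+v)/(u²-4v)` and `τ = -Δ/φ²`. -/
theorem bridge_plane (A B x u v : ℚ) (hΔ : 4 * A ^ 3 + 27 * B ^ 2 ≠ 0)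
    (h3 : 3 * x ^ 4 + 6 * A * x ^ 2 + 12 * B * x - A ^ 2 = 0)
    (huv : u ^ 2 - 4 * v ≠ 0)
    (hA : A ^ 2 + 2 * (u ^ 2 - v) * A - u ^ 4 + 5 * u ^ 2 * v + 5 * v ^ 2 = 0)
    (hB : 4 * B = u * (u ^ 2 - 6 * v - 2 * A)) :
    ((x ^ 2 - u * x + v) / (u ^ 2 - 4 * v)) ^ 5 * (1 - (x ^ 2 - u * x + v) / (u ^ 2 - 4 * v))
        * (-(4 * A ^ 3 + 27 * B ^ 2) / (x ^ 3 + A * x + B) ^ 2) ^ 2
      + 5 * ((x ^ 2 - u * x + v) / (u ^ 2 - 4 * v)) ^ 3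
        * (-(4 * A ^ 3 + 27 * B ^ 2) / (x ^ 3 + A * x + B) ^ 2)
      + 9 * ((x ^ 2 - u * x + v) / (u ^ 2 - 4 * v)) + 1 = 0 := by
  have hu : u ≠ 0 := bridge_u_ne A B u v hΔ hA hB
  have hφ : x ^ 3 + A * x + B ≠ 0 := bridge_phi_ne A B x hΔ h3
  obtain ⟨n, hv, hAn, hBn⟩ := bridge_param A B u v huv hA hB
  obtain ⟨z, rfl⟩ : ∃ z : ℚ, x = z * u := ⟨x / u, by field_simp⟩
  have hD : (4 * n ^ 2 + 1 : ℚ) ≠ 0 := by positivity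
  have hu2 : u ^ 2 ≠ 0 := pow_ne_zero 2 hu
  have hu3 : u ^ 3 ≠ 0 := pow_ne_zero 3 hu
  have hu4 : u ^ 4 ≠ 0 := pow_ne_zero 4 hu
  have hu6 : u ^ 6 ≠ 0 := pow_ne_zero 6 hu
  -- the equation `F(n, z) = 0`
  have hF : (4 * n ^ 2 + 1) ^ 2 * z ^ 4 - 6 * (n ^ 2 - 3 * n + 1) * (4 * n ^ 2 + 1) * z ^ 2
      + (4 * n ^ 2 - 18 * n + 19) * (4 * n ^ 2 + 1) * z - 3 * (n ^ 2 - 3 * n + 1) ^ 2 = 0 := by
    have h3' : 3 * u ^ 4 * ((4 * n ^ 2 + 1) ^ 2 * z ^ 4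
        - 6 * (n ^ 2 - 3 * n + 1) * (4 * n ^ 2 + 1) * z ^ 2
        + (4 * n ^ 2 - 18 * n + 19) * (4 * n ^ 2 + 1) * z - 3 * (n ^ 2 - 3 * n + 1) ^ 2) = 0 := by
      linear_combination (4 * n ^ 2 + 1) ^ 2 * h3
        + (-(6 * (4 * n ^ 2 + 1) * (z * u) ^ 2) + A * (4 * n ^ 2 + 1)
            + -3 * (n ^ 2 - 3 * n + 1) * u ^ 2) * hAn
        - 3 * (4 * n ^ 2 + 1) * (z * u) * hBn
    rcases mul_eq_zero.mp h3' with h | h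
    · exact absurd h (mul_ne_zero (by norm_num) hu4)
    · exact h
  have hnz := bridge_plane_nz n z hF
  -- `ρ`
  have hρ : ((z * u) ^ 2 - u * (z * u) + v) / (u ^ 2 - 4 * v)
      = ((4 * n ^ 2 + 1) * z ^ 2 - (4 * n ^ 2 + 1) * z + n ^ 2 - 2) / 9 := by
    rw [div_eq_div_iff huv (by norm_num)]
    apply mul_right_cancel₀ hD
    linear_combination
      (9 + 4 * ((4 * n ^ 2 + 1) * z ^ 2 - (4 * n ^ 2 + 1) * z + n ^ 2 - 2)) * hv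
  -- `φ`
  have hφG : ((z * u) ^ 3 + A * (z * u) + B) * (4 * (4 * n ^ 2 + 1))
      = u ^ 3 * (4 * (4 * n ^ 2 + 1) * z ^ 3 - 12 * (n ^ 2 - 3 * n + 1) * z
        + (4 * n ^ 2 - 18 * n + 19)) := by
    linear_combination 4 * (z * u) * hAn + hBn
  have hG : 4 * (4 * n ^ 2 + 1) * z ^ 3 - 12 * (n ^ 2 - 3 * n + 1) * z
      + (4 * n ^ 2 - 18 * n + 19) ≠ 0 := by
    intro h0
    rw [h0, mul_zero] at hφG
    rcases mul_eq_zero.mp hφG with h | h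
    · exact hφ h
    · exact absurd h (mul_ne_zero (by norm_num) hD)
  -- `Δ`
  have hΔn : (4 * A ^ 3 + 27 * B ^ 2) * (16 * (4 * n ^ 2 + 1) ^ 3)
      = 729 * (11 - 4 * n) * u ^ 6 := by
    linear_combination
      (64 * ((A * (4 * n ^ 2 + 1)) ^ 2 + A * (4 * n ^ 2 + 1) * (-3 * (n ^ 2 - 3 * n + 1) * u ^ 2)
          + (-3 * (n ^ 2 - 3 * n + 1) * u ^ 2) ^ 2)) * hAn
      + (27 * (4 * n ^ 2 + 1) * (4 * B * (4 * n ^ 2 + 1) + (4 * n ^ 2 - 18 * n + 19) * u ^ 3)) * hBn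
  -- `τ`
  have hτ : -(4 * A ^ 3 + 27 * B ^ 2) / ((z * u) ^ 3 + A * (z * u) + B) ^ 2
      = -(729 * (11 - 4 * n)) / ((4 * n ^ 2 + 1)
        * (4 * (4 * n ^ 2 + 1) * z ^ 3 - 12 * (n ^ 2 - 3 * n + 1) * z
          + (4 * n ^ 2 - 18 * n + 19)) ^ 2) := by
    rw [div_eq_div_iff (pow_ne_zero 2 hφ) (mul_ne_zero hD (pow_ne_zero 2 hG))]
    have h16 : (16 * (4 * n ^ 2 + 1) ^ 2 * u ^ 6 : ℚ) ≠ 0 :=
      mul_ne_zero (mul_ne_zero (by norm_num) (pow_ne_zero 2 hD)) hu6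
    apply mul_right_cancel₀ h16
    linear_combination
      (-(u ^ 6 * (4 * (4 * n ^ 2 + 1) * z ^ 3 - 12 * (n ^ 2 - 3 * n + 1) * z
          + (4 * n ^ 2 - 18 * n + 19)) ^ 2)) * hΔn
      + (729 * (11 - 4 * n) * u ^ 6 * (((z * u) ^ 3 + A * (z * u) + B) * (4 * (4 * n ^ 2 + 1))
          + u ^ 3 * (4 * (4 * n ^ 2 + 1) * z ^ 3 - 12 * (n ^ 2 - 3 * n + 1) * z
            + (4 * n ^ 2 - 18 * n + 19)))) * hφG
  rw [hρ, hτ]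
  apply bridge_plane_div _ _ _ _ hD hG
  linear_combination hnz

end Fermat.Agent.S51
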