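/-
Team S51, block D1 (owner: helper99).  The Fermat-style infinite descent.

THEOREM `no_XWST`.  There are no integers `X, W, S, T` with `W ≠ 0`, `gcd(X, W) = 1`,
`X² = S² + W²`, `X² = T² + 81 W²`.
(These are the rational points of a 2-covering of 15a2 : y² = x(x-1)(x-81).)

PROOF (strong induction on `|W|`; WLOG all four positive; `S = 0` or `T = 0` is impossible).
1. `3 ∤ X` (else `S² + W² ≡ 0 mod 3` forces `3 ∣ W`), so `gcd(X, 9W) = 1`.
2. `d1_param`: from `(X+S)(X-S) = W²` get `g ∈ {1, 2}` (`g = 2` iff `W` even) and coprime `a > b > 0` with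
   `2X = g(a² + b²)`, `W = g a b`.  Same for `(X+T)(X-T) = (9W)²`: `2X = g(c² + d²)`, `9W = g c d` (same `g`).
   So `a² + b² = c² + d²`, `9ab = cd`, and `9` divides exactly one of `c, d`; say `{c, d} = {β, 9β'}`:
   `a b = β β'`, `a² + b² = β² + 81 β'²`.
3. `d1_four` (four-number lemma): `a = x y`, `b = z w`, `β = x z`, `β' = y w` with `x, y, z, w > 0`
   suitably coprime and `x²y² + z²w² = x²z² + 81 y²w²`.
4. `d1_kk`: `y²(x² - 81w²) = z²(x² - w²)` and `x²(y² - z²) = w²(81y² - z²)` give integers `k, k'` with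
   `x² - w² = k y²`, `x² - 81w² = k z²`, `y² - z² = k' w²`, `81y² - z² = k' x²`, `k k' = 80`, `k > 0`.
5. `d1_step`: `k ∈ {2, 10}` and `k' ∈ {2, 10}` are impossible mod 8 (`d1_bad`).  If `k ∈ {1, 4, 16}` then
   `(x, w, √k y, √k z)` is a new solution; if `k' ∈ {1, 4, 16}` then `(9y, z, √k' x, 9√k' w)` is one
   (`3 ∤ z` because `gcd(x, z) = 1`).  In both cases the new `W' ∈ {w, z}` divides `b < W`.
-/
import Mathlib

set_option autoImplicit false

namespace Fermat.Agent.S51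

lemma d1_zmod8 : ∀ a b c d : ZMod 8, (a ^ 2 = 1 ∨ b ^ 2 = 1) → (c ^ 2 = 1 ∨ d ^ 2 = 1) →
    a ^ 2 - b ^ 2 = 2 * c ^ 2 → a ^ 2 - b ^ 2 = 2 * d ^ 2 → False := by decide

lemma d1_odd_sq8 : ∀ m : ZMod 8, (2 * m + 1) ^ 2 = 1 := by decide

lemma d1_zmod3 : ∀ s w : ZMod 3, s ^ 2 + w ^ 2 = 0 → w = 0 := by decide

lemma d1_odd_cast (n : ℤ) (h : Odd n) : ((n : ℤ) : ZMod 8) ^ 2 = 1 := by
  obtain ⟨m, rfl⟩ := h
  push_cast
  exact d1_odd_sq8 _

lemma d1_odd_or_odd {a b : ℤ} (h : IsCoprime a b) : Odd a ∨ Odd b := by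
  by_contra hcon
  push Not at hcon
  obtain ⟨ha, hb⟩ := hcon
  rw [Int.not_odd_iff_even] at ha hb
  have h2 : IsUnit (2 : ℤ) := h.isUnit_of_dvd' ha.two_dvd hb.two_dvd
  rw [Int.isUnit_iff] at h2
  omega

/-- The mod 8 obstruction. -/
lemma d1_bad (a b c d k : ℤ) (hab : IsCoprime a b) (hcd : IsCoprime c d)
    (hk : (8 : ℤ) ∣ k - 2) (h1 : a ^ 2 - b ^ 2 = k * c ^ 2)
    (h2 : (8 : ℤ) ∣ a ^ 2 - b ^ 2 - k * d ^ 2) : False := by
  have hk' : ((k : ℤ) : ZMod 8) = 2 := by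
    have := (ZMod.intCast_zmod_eq_zero_iff_dvd (k - 2) 8).mpr (by exact_mod_cast hk)
    push_cast at this
    exact sub_eq_zero.mp this
  have e1 : ((a : ℤ) : ZMod 8) ^ 2 - (b : ZMod 8) ^ 2 = 2 * (c : ZMod 8) ^ 2 := by
    have := congrArg (Int.cast : ℤ → ZMod 8) h1
    push_cast at this
    rw [hk'] at this
    exact this
  have e2 : ((a : ℤ) : ZMod 8) ^ 2 - (b : ZMod 8) ^ 2 = 2 * (d : ZMod 8) ^ 2 := by
    have := (ZMod.intCast_zmod_eq_zero_iff_dvd (a ^ 2 - b ^ 2 - k * d ^ 2) 8).mpr (by exact_mod_cast h2)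
    push_cast at this
    rw [hk'] at this
    exact sub_eq_zero.mp this
  have o1 : ((a : ℤ) : ZMod 8) ^ 2 = 1 ∨ ((b : ℤ) : ZMod 8) ^ 2 = 1 :=
    (d1_odd_or_odd hab).imp (d1_odd_cast a) (d1_odd_cast b)
  have o2 : ((c : ℤ) : ZMod 8) ^ 2 = 1 ∨ ((d : ℤ) : ZMod 8) ^ 2 = 1 :=
    (d1_odd_or_odd hcd).imp (d1_odd_cast c) (d1_odd_cast d)
  exact d1_zmod8 _ _ _ _ o1 o2 e1 e2


/-- Coprime positive factors of a square are squares. -/
lemma d1_sq_factor (u v w : ℤ) (hu : 0 < u) (hv : 0 < v) (hw : 0 < w)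
    (huv : IsCoprime u v) (h : u * v = w ^ 2) :
    ∃ a b : ℤ, 0 < a ∧ 0 < b ∧ IsCoprime a b ∧ u = a ^ 2 ∧ v = b ^ 2 ∧ w = a * b := by
  obtain ⟨a0, ha0⟩ := Int.sq_of_isCoprime huv h
  obtain ⟨b0, hb0⟩ := Int.sq_of_isCoprime huv.symm (by rw [mul_comm]; exact h)
  have hua : u = a0 ^ 2 := by
    rcases ha0 with h1 | h1
    · exact h1
    · nlinarith [sq_nonneg a0]
  have hvb : v = b0 ^ 2 := by
    rcases hb0 with h1 | h1
    · exact h1
    · nlinarith [sq_nonneg b0]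
  have ha0ne : a0 ≠ 0 := by rintro rfl; simp at hua; omega
  have hb0ne : b0 ≠ 0 := by rintro rfl; simp at hvb; omega
  refine ⟨|a0|, |b0|, abs_pos.mpr ha0ne, abs_pos.mpr hb0ne, ?_, by rw [sq_abs]; exact hua,
    by rw [sq_abs]; exact hvb, ?_⟩
  · apply IsCoprime.abs_abs
    rw [hua, hvb] at huv
    exact (IsCoprime.pow_iff (by norm_num) (by norm_num)).mp huv
  · have h3 : w ^ 2 = (|a0| * |b0|) ^ 2 := by
      rw [mul_pow, sq_abs, sq_abs, ← hua, ← hvb, h]
    have h4 : 0 < |a0| * |b0| := mul_pos (abs_pos.mpr ha0ne) (abs_pos.mpr hb0ne)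
    nlinarith

lemma d1_param (X S W : ℤ) (hX : 0 < X) (hS : 0 < S) (hW : 0 < W) (hc : IsCoprime X W)
    (h : X ^ 2 = S ^ 2 + W ^ 2) :
    ∃ g a b : ℤ, (g = 1 ∧ Odd W ∨ g = 2 ∧ Even W) ∧ 0 < b ∧ b < a ∧ IsCoprime a b ∧
      2 * X = g * (a ^ 2 + b ^ 2) ∧ W = g * a * b := by
  have hSX : S < X := by nlinarith
  have hXS : IsCoprime X S := by
    have h1 : IsCoprime X (W ^ 2) := hc.pow_right
    have h2 : IsCoprime X (S ^ 2) := by
      have : S ^ 2 = -(W ^ 2) + X * X := by linarith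
      rw [this]
      exact (h1.neg_right).add_mul_left_right X
    exact (IsCoprime.pow_right_iff (by norm_num)).mp h2
  have hprod : (X + S) * (X - S) = W ^ 2 := by linarith
  rcases Int.even_or_odd W with hWe | hWo
  · -- `W` even: `X`, `S` odd
    have hXo : Odd X := by
      rcases d1_odd_or_odd hc with h1 | h1
      · exact h1
      · exact absurd hWe (Int.not_even_iff_odd.mpr h1)
    have hSo : Odd S := by
      have h1 : Odd (S ^ 2) := by
        have : S ^ 2 = X ^ 2 - W ^ 2 := by linarith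
        rw [this]
        exact (hXo.pow).sub_even ((Int.even_pow' (by norm_num)).mpr hWe)
      exact (Int.odd_pow' (by norm_num)).mp h1
    obtain ⟨u1, hu1⟩ := hXo.add_odd hSo
    obtain ⟨v1, hv1⟩ := hXo.sub_odd hSo
    obtain ⟨W1, hW1⟩ := hWe
    have hu1pos : 0 < u1 := by omega
    have hv1pos : 0 < v1 := by omega
    have hW1pos : 0 < W1 := by omega
    have hcop : IsCoprime u1 v1 := by
      obtain ⟨p, q, hpq⟩ := hXS
      refine ⟨p + q, p - q, ?_⟩
      have e1 : X = u1 + v1 := by omega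
      have e2 : S = u1 - v1 := by omega
      rw [e1, e2] at hpq
      linear_combination hpq
    have hprod1 : u1 * v1 = W1 ^ 2 := by
      have e1 : X + S = 2 * u1 := by omega
      have e2 : X - S = 2 * v1 := by omega
      have e3 : W = 2 * W1 := by omega
      rw [e1, e2, e3] at hprod
      nlinarith
    obtain ⟨a, b, ha, hb, hab, hua, hvb, hwab⟩ := d1_sq_factor u1 v1 W1 hu1pos hv1pos hW1pos hcop hprod1
    refine ⟨2, a, b, Or.inr ⟨rfl, ⟨W1, hW1⟩⟩, hb, ?_, hab, ?_, ?_⟩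
    · have : b ^ 2 < a ^ 2 := by rw [← hua, ← hvb]; omega
      nlinarith
    · rw [← hua, ← hvb]; omega
    · rw [mul_assoc, ← hwab]; omega
  · -- `W` odd
    have hodd : Odd ((X + S) * (X - S)) := by rw [hprod]; exact hWo.pow
    rw [Int.odd_mul] at hodd
    obtain ⟨ho1, ho2⟩ := hodd
    have hcop : IsCoprime (X + S) (X - S) := by
      have h2 : IsCoprime (X + S) 2 := by
        obtain ⟨m, hm⟩ := ho1
        exact ⟨1, -m, by rw [hm]; ring⟩
      have h3 : IsCoprime (X + S) X := by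
        have := hXS.symm.add_mul_left_left 1
        simpa [add_comm] using this
      have h4 : IsCoprime (X + S) (2 * X) := h2.mul_right h3
      have : X - S = 2 * X + (X + S) * (-1) := by ring
      rw [this]
      exact h4.add_mul_left_right (-1)
    obtain ⟨a, b, ha, hb, hab, hua, hvb, hwab⟩ :=
      d1_sq_factor (X + S) (X - S) W (by omega) (by omega) hW hcop hprod
    refine ⟨1, a, b, Or.inl ⟨rfl, hWo⟩, hb, ?_, hab, ?_, ?_⟩
    · have : b ^ 2 < a ^ 2 := by rw [← hua, ← hvb]; omega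
      nlinarith
    · rw [← hua, ← hvb]; ring
    · rw [one_mul, ← hwab]

lemma d1_div80 (k k' : ℤ) (hk : 0 < k) (h : k * k' = 80) :
    (k = 1 ∧ k' = 80) ∨ (k = 2 ∧ k' = 40) ∨ (k = 4 ∧ k' = 20) ∨ (k = 5 ∧ k' = 16) ∨
    (k = 8 ∧ k' = 10) ∨ (k = 10 ∧ k' = 8) ∨ (k = 16 ∧ k' = 5) ∨ (k = 20 ∧ k' = 4) ∨
    (k = 40 ∧ k' = 2) ∨ (k = 80 ∧ k' = 1) := by
  have hk'pos : 0 < k' := by
    by_contra hcon
    push Not at hcon
    nlinarith [mul_nonneg hk.le (neg_nonneg.mpr hcon)]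
  have hk80 : k ≤ 80 := by
    nlinarith [mul_le_mul_of_nonneg_left (show (1 : ℤ) ≤ k' by omega) hk.le]
  interval_cases k <;> omega

/-- Four-number lemma in the shape we need. -/
lemma d1_four (a b β β' : ℤ) (hb : 0 < b) (hba : b < a) (hβ : 0 < β) (hβ' : 0 < β')
    (hab : IsCoprime a b) (h1 : a * b = β * β')
    (h2 : a ^ 2 + b ^ 2 = β ^ 2 + 81 * β' ^ 2) :
    ∃ x y z w : ℤ, 0 < x ∧ 0 < y ∧ 0 < z ∧ 0 < w ∧ z * w < x * y ∧ b = z * w ∧
      IsCoprime x w ∧ IsCoprime y z ∧ IsCoprime x z ∧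
      x ^ 2 * y ^ 2 + z ^ 2 * w ^ 2 = x ^ 2 * z ^ 2 + 81 * y ^ 2 * w ^ 2 := by
  have ha : 0 < a := by omega
  have key : ∃ x y z w : ℤ, 0 ≤ x ∧ 0 ≤ y ∧ a = x * y ∧ β = x * z ∧ β' = y * w := by
    obtain ⟨x0, y0, hx0, hy0, hxy0⟩ :=
      exists_dvd_and_dvd_of_dvd_mul (Dvd.intro b h1 : a ∣ β * β')
    obtain ⟨z, hz⟩ := (abs_dvd x0 β).mpr hx0
    obtain ⟨w, hw⟩ := (abs_dvd y0 β').mpr hy0
    exact ⟨|x0|, |y0|, z, w, abs_nonneg _, abs_nonneg _,
      by rw [← abs_mul, ← hxy0, abs_of_pos ha], hz, hw⟩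
  obtain ⟨x, y, z, w, hx0, hy0, haxy, hz, hw⟩ := key
  have hxpos : 0 < x := lt_of_le_of_ne hx0 (by rintro rfl; simp at haxy; omega)
  have hypos : 0 < y := lt_of_le_of_ne hy0 (by rintro rfl; simp at haxy; omega)
  have hzpos : 0 < z := by rw [hz] at hβ; exact (mul_pos_iff_of_pos_left hxpos).mp hβ
  have hwpos : 0 < w := by rw [hw] at hβ'; exact (mul_pos_iff_of_pos_left hypos).mp hβ'
  have hbzw : b = z * w := by
    have : x * y * b = x * y * (z * w) := by
      calc x * y * b = a * b := by rw [haxy]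
        _ = β * β' := h1
        _ = x * y * (z * w) := by rw [hz, hw]; ring
    exact mul_left_cancel₀ (mul_pos hxpos hypos).ne' this
  have hcop : IsCoprime (x * y) (z * w) := by rw [← haxy, ← hbzw]; exact hab
  refine ⟨x, y, z, w, hxpos, hypos, hzpos, hwpos, by rw [← haxy, ← hbzw]; exact hba, hbzw,
    hcop.of_mul_left_left.of_mul_right_right, hcop.of_mul_left_right.of_mul_right_left,
    hcop.of_mul_left_left.of_mul_right_left, ?_⟩
  rw [haxy, hbzw, hz, hw] at h2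
  linear_combination h2

/-- The integers `k`, `k'`. -/
lemma d1_kk (x y z w : ℤ) (hxpos : 0 < x) (hypos : 0 < y) (hzpos : 0 < z) (hwpos : 0 < w)
    (hlt : z * w < x * y) (cxw : IsCoprime x w) (cyz : IsCoprime y z)
    (hE : x ^ 2 * y ^ 2 + z ^ 2 * w ^ 2 = x ^ 2 * z ^ 2 + 81 * y ^ 2 * w ^ 2) :
    ∃ k k' : ℤ, 0 < k ∧ k * k' = 80 ∧ x ^ 2 - w ^ 2 = y ^ 2 * k ∧ x ^ 2 - 81 * w ^ 2 = z ^ 2 * k ∧
      y ^ 2 - z ^ 2 = w ^ 2 * k' ∧ 81 * y ^ 2 - z ^ 2 = x ^ 2 * k' := by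
  obtain ⟨k, hk⟩ : y ^ 2 ∣ x ^ 2 - w ^ 2 := by
    have h3 : y ^ 2 ∣ z ^ 2 * (x ^ 2 - w ^ 2) :=
      ⟨x ^ 2 - 81 * w ^ 2, by linear_combination (-1 : ℤ) * hE⟩
    exact (cyz.pow (m := 2) (n := 2)).dvd_of_dvd_mul_left h3
  have hk2 : x ^ 2 - 81 * w ^ 2 = z ^ 2 * k := by
    apply mul_left_cancel₀ (pow_pos hypos 2).ne'
    linear_combination hE + z ^ 2 * hk
  obtain ⟨k', hk'⟩ : w ^ 2 ∣ y ^ 2 - z ^ 2 := by
    have h3 : w ^ 2 ∣ x ^ 2 * (y ^ 2 - z ^ 2) :=
      ⟨81 * y ^ 2 - z ^ 2, by linear_combination hE⟩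
    exact (cxw.symm.pow (m := 2) (n := 2)).dvd_of_dvd_mul_left h3
  have hk'2 : 81 * y ^ 2 - z ^ 2 = x ^ 2 * k' := by
    apply mul_left_cancel₀ (pow_pos hwpos 2).ne'
    linear_combination (-1 : ℤ) * hE + x ^ 2 * hk'
  have hkk : k * k' = 80 := by
    apply mul_left_cancel₀ (pow_pos hwpos 2).ne'
    linear_combination (-k) * hk' - hk + hk2
  refine ⟨k, k', ?_, hkk, hk, hk2, hk', hk'2⟩
  by_contra hcon
  push Not at hcon
  have hkneg : k < 0 := by
    rcases hcon.lt_or_eq with h | h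
    · exact h
    · rw [h] at hkk; simp at hkk
  have hk'neg : k' < 0 := by
    by_contra hc2
    push Not at hc2
    nlinarith [mul_nonneg (neg_nonneg.mpr hkneg.le) hc2]
  have hxw : x < w := by
    by_contra hc2
    push Not at hc2
    nlinarith [mul_pos (pow_pos hypos 2) (neg_pos.mpr hkneg),
      mul_nonneg (sub_nonneg.mpr hc2) (add_pos hxpos hwpos).le]
  have hyz : y < z := by
    by_contra hc2
    push Not at hc2
    nlinarith [mul_pos (pow_pos hwpos 2) (neg_pos.mpr hk'neg),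
      mul_nonneg (sub_nonneg.mpr hc2) (add_pos hypos hzpos).le]
  have : x * y < w * z := mul_lt_mul'' hxw hyz hxpos.le hypos.le
  linarith [mul_comm z w]

/-- The descent step on the parametrised system. -/
lemma d1_step (a b β β' : ℤ) (hb : 0 < b) (hba : b < a) (hβ : 0 < β) (hβ' : 0 < β')
    (hab : IsCoprime a b) (h1 : a * b = β * β')
    (h2 : a ^ 2 + b ^ 2 = β ^ 2 + 81 * β' ^ 2) :
    ∃ X' W' S' T' : ℤ, 0 < X' ∧ 0 < W' ∧ 0 < S' ∧ 0 < T' ∧ W' ≤ b ∧ IsCoprime X' W' ∧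
      X' ^ 2 = S' ^ 2 + W' ^ 2 ∧ X' ^ 2 = T' ^ 2 + 81 * W' ^ 2 := by
  obtain ⟨x, y, z, w, hxpos, hypos, hzpos, hwpos, hlt, hbzw, cxw, cyz, cxz, hE⟩ :=
    d1_four a b β β' hb hba hβ hβ' hab h1 h2
  obtain ⟨k, k', hkpos, hkk, hk, hk2, hk', hk'2⟩ :=
    d1_kk x y z w hxpos hypos hzpos hwpos hlt cxw cyz hE
  have hwb : w ≤ b := by rw [hbzw]; nlinarith
  have hzb : z ≤ b := by rw [hbzw]; nlinarith
  have key3 : (k' = 1 ∨ k' = 4 ∨ k' = 16) → IsCoprime (9 * y) z := by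
    intro hm
    have h3z : ¬ (3 : ℤ) ∣ z := by
      intro h3
      have h3x2 : (3 : ℤ) ∣ x ^ 2 * k' := by
        rw [← hk'2]
        exact dvd_sub (Dvd.intro (27 * y ^ 2) (by ring)) (dvd_pow h3 (by norm_num))
      rcases Int.prime_three.dvd_or_dvd h3x2 with h | h
      · have h3x : (3 : ℤ) ∣ x := Int.prime_three.dvd_of_dvd_pow h
        have := cxz.isUnit_of_dvd' h3x h3
        rw [Int.isUnit_iff] at this
        omega
      · rcases hm with hm | hm | hm <;> rw [hm] at h <;> omega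
    have c3 : IsCoprime (3 : ℤ) z := (Int.prime_three.coprime_iff_not_dvd).mpr h3z
    have c9 : IsCoprime (9 : ℤ) z := by
      have := c3.pow_left (m := 2)
      norm_num at this
      exact this
    exact c9.mul_left cyz
  rcases d1_div80 k k' hkpos hkk with ⟨rfl, rfl⟩ | ⟨rfl, rfl⟩ | ⟨rfl, rfl⟩ | ⟨rfl, rfl⟩ |
    ⟨rfl, rfl⟩ | ⟨rfl, rfl⟩ | ⟨rfl, rfl⟩ | ⟨rfl, rfl⟩ | ⟨rfl, rfl⟩ | ⟨rfl, rfl⟩
  · -- k = 1
    exact ⟨x, w, y, z, hxpos, hwpos, hypos, hzpos, hwb, cxw, by linear_combination hk,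
      by linear_combination hk2⟩
  · -- k = 2
    exact absurd (d1_bad x w y z 2 cxw cyz (by norm_num) (by linear_combination hk)
      ⟨10 * w ^ 2, by linear_combination hk2⟩) id
  · -- k = 4
    exact ⟨x, w, 2 * y, 2 * z, hxpos, hwpos, by positivity, by positivity, hwb, cxw,
      by linear_combination hk, by linear_combination hk2⟩
  · -- k = 5, k' = 16
    exact ⟨9 * y, z, 4 * x, 36 * w, by positivity, hzpos, by positivity, by positivity, hzb,
      key3 (by norm_num), by linear_combination hk'2, by linear_combination 81 * hk'⟩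
  · -- k = 8, k' = 10
    exact absurd (d1_bad y z w x 10 cyz cxw.symm (by norm_num) (by linear_combination hk')
      ⟨-10 * y ^ 2, by linear_combination hk'2⟩) id
  · -- k = 10
    exact absurd (d1_bad x w y z 10 cxw cyz (by norm_num) (by linear_combination hk)
      ⟨10 * w ^ 2, by linear_combination hk2⟩) id
  · -- k = 16
    exact ⟨x, w, 4 * y, 4 * z, hxpos, hwpos, by positivity, by positivity, hwb, cxw,
      by linear_combination hk, by linear_combination hk2⟩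
  · -- k = 20, k' = 4
    exact ⟨9 * y, z, 2 * x, 18 * w, by positivity, hzpos, by positivity, by positivity, hzb,
      key3 (by norm_num), by linear_combination hk'2, by linear_combination 81 * hk'⟩
  · -- k = 40, k' = 2
    exact absurd (d1_bad y z w x 2 cyz cxw.symm (by norm_num) (by linear_combination hk')
      ⟨-10 * y ^ 2, by linear_combination hk'2⟩) id
  · -- k = 80, k' = 1
    exact ⟨9 * y, z, x, 9 * w, by positivity, hzpos, hxpos, by positivity, hzb,
      key3 (by norm_num), by linear_combination hk'2, by linear_combination 81 * hk'⟩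


lemma d1_core : ∀ n : ℕ, ∀ X W S T : ℤ, W.natAbs = n → 0 < X → 0 < W → 0 < S → 0 < T →
    IsCoprime X W → X ^ 2 = S ^ 2 + W ^ 2 → X ^ 2 = T ^ 2 + 81 * W ^ 2 → False := by
  intro n
  induction n using Nat.strong_induction_on with
  | _ n ih =>
    intro X W S T hn hX hW hS hT hc h1 h2
    have h3X : ¬ (3 : ℤ) ∣ X := by
      intro h3
      have hX0 : ((X : ℤ) : ZMod 3) = 0 :=
        (ZMod.intCast_zmod_eq_zero_iff_dvd X 3).mpr (by exact_mod_cast h3)
      have e : ((S : ℤ) : ZMod 3) ^ 2 + ((W : ℤ) : ZMod 3) ^ 2 = 0 := by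
        have := congrArg (Int.cast : ℤ → ZMod 3) h1
        push_cast at this
        rw [← this, hX0]
        ring
      have hW0 := d1_zmod3 _ _ e
      have h3W : (3 : ℤ) ∣ W := by
        exact_mod_cast (ZMod.intCast_zmod_eq_zero_iff_dvd W 3).mp hW0
      have := hc.isUnit_of_dvd' h3 h3W
      rw [Int.isUnit_iff] at this
      omega
    have hc9 : IsCoprime X (9 * W) := by
      have h3 : IsCoprime (3 : ℤ) X := (Int.prime_three.coprime_iff_not_dvd).mpr h3X
      have h9 : IsCoprime (9 : ℤ) X := by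
        have := h3.pow_left (m := 2)
        norm_num at this
        exact this
      exact h9.symm.mul_right hc
    obtain ⟨g, a, b, hg, hb, hba, hab, e1, e2⟩ := d1_param X S W hX hS hW hc h1
    obtain ⟨g', c, d, hg', hd, hdc, hcd, e3, e4⟩ :=
      d1_param X T (9 * W) hX hT (by omega) hc9 (by linear_combination h2)
    have hgg : g' = g := by
      rcases hg with ⟨rfl, ho⟩ | ⟨rfl, he⟩ <;> rcases hg' with ⟨rfl, ho'⟩ | ⟨rfl, he'⟩
      · rfl
      · exfalso
        rcases Int.even_mul.mp he' with h | h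
        · exact absurd h (by decide)
        · exact (Int.not_even_iff_odd.mpr ho) h
      · exfalso
        exact (Int.not_even_iff_odd.mpr (Int.odd_mul.mp ho').2) he
      · rfl
    subst hgg
    have hgpos : 0 < g' := by rcases hg with ⟨rfl, _⟩ | ⟨rfl, _⟩ <;> norm_num
    have e5 : a ^ 2 + b ^ 2 = c ^ 2 + d ^ 2 := by
      apply mul_left_cancel₀ hgpos.ne'
      rw [← e1, ← e3]
    have e6 : 9 * (a * b) = c * d := by
      apply mul_left_cancel₀ hgpos.ne'
      linear_combination (-9 : ℤ) * e2 + e4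
    have hbW : b < W := by
      rw [e2]
      have ha2 : 2 ≤ a := by omega
      have hg1 : 1 ≤ g' := by omega
      nlinarith [mul_le_mul hg1 ha2 (by norm_num) hgpos.le, mul_pos hgpos (by omega : (0 : ℤ) < a)]
    have h3cd : (3 : ℤ) ∣ c * d := ⟨3 * (a * b), by linear_combination (-1 : ℤ) * e6⟩
    have h9cd : (9 : ℤ) ∣ c * d := ⟨a * b, by linear_combination (-1 : ℤ) * e6⟩
    have hunit3 : ¬ IsUnit (3 : ℤ) := by
      rw [Int.isUnit_iff]
      omega
    rcases Int.prime_three.dvd_or_dvd h3cd with h3c | h3d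
    · -- `3 ∣ c`, hence `9 ∣ c`
      have c3d : IsCoprime (3 : ℤ) d :=
        (Int.prime_three.coprime_iff_not_dvd).mpr fun h => hunit3 (hcd.isUnit_of_dvd' h3c h)
      have c9d : IsCoprime (9 : ℤ) d := by
        have := c3d.pow_left (m := 2)
        norm_num at this
        exact this
      obtain ⟨c', rfl⟩ := c9d.dvd_of_dvd_mul_right h9cd
      obtain ⟨X', W', S', T', hX', hW', hS', hT', hle, hc', f1, f2⟩ :=
        d1_step a b d c' hb hba hd (by omega) hab
          (mul_left_cancel₀ (show (9 : ℤ) ≠ 0 by norm_num) (by linear_combination e6))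
          (by linear_combination e5)
      exact ih W'.natAbs (by omega) X' W' S' T' rfl hX' hW' hS' hT' hc' f1 f2
    · -- `3 ∣ d`, hence `9 ∣ d`
      have c3c : IsCoprime (3 : ℤ) c :=
        (Int.prime_three.coprime_iff_not_dvd).mpr fun h => hunit3 (hcd.isUnit_of_dvd' h h3d)
      have c9c : IsCoprime (9 : ℤ) c := by
        have := c3c.pow_left (m := 2)
        norm_num at this
        exact this
      obtain ⟨d', rfl⟩ := c9c.dvd_of_dvd_mul_left h9cd
      obtain ⟨X', W', S', T', hX', hW', hS', hT', hle, hc', f1, f2⟩ :=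
        d1_step a b c d' hb hba (by omega) (by omega) hab
          (mul_left_cancel₀ (show (9 : ℤ) ≠ 0 by norm_num) (by linear_combination e6))
          (by linear_combination e5)
      exact ih W'.natAbs (by omega) X' W' S' T' rfl hX' hW' hS' hT' hc' f1 f2

theorem no_XWST (X W S T : ℤ) (hW : W ≠ 0) (hXW : IsCoprime X W)
    (h1 : X ^ 2 = S ^ 2 + W ^ 2) (h2 : X ^ 2 = T ^ 2 + 81 * W ^ 2) : False := by
  have hW2pos : 0 < W ^ 2 := by positivity
  have hX : X ≠ 0 := by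
    rintro rfl
    nlinarith [sq_nonneg S]
  have hunit : W ∣ X ^ 2 → W ^ 2 = 1 := by
    intro hWd
    have hu : IsUnit W := (hXW.symm.pow_right (n := 2)).isUnit_of_dvd' dvd_rfl hWd
    rcases Int.isUnit_iff.mp hu with rfl | rfl <;> norm_num
  have hS : S ≠ 0 := by
    rintro rfl
    have hW2 : W ^ 2 = 1 := hunit ⟨W, by rw [h1]; ring⟩
    nlinarith [sq_nonneg T]
  have hT : T ≠ 0 := by
    rintro rfl
    have hW2 : W ^ 2 = 1 := hunit ⟨81 * W, by rw [h2]; ring⟩
    have hS2 : S ^ 2 = 80 := by nlinarith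
    have h9a : -9 < S := by nlinarith
    have h9b : S < 9 := by nlinarith
    interval_cases S <;> omega
  exact d1_core W.natAbs |X| |W| |S| |T| (Int.natAbs_abs W) (abs_pos.mpr hX) (abs_pos.mpr hW)
    (abs_pos.mpr hS) (abs_pos.mpr hT) hXW.abs_abs (by simpa only [sq_abs] using h1)
    (by simpa only [sq_abs] using h2)

end Fermat.Agent.S51
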