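/-
Team S51, block D1r (owner: helper64).  Rational form of the descent theorem.

`no_rst`: there are no rationals `r, s, t` with `r² - s² = 1`, `r² - t² = 81`.
Proof: write `r = X/W` in lowest terms; `s W` and `t W` are rationals with integral squares, hence integers
`S, T`, and `(X, W, S, T)` contradicts `no_XWST`.
-/
import Fermat.Agent.S51.DescentCore

set_option autoImplicit false

namespace Fermat.Agent.S51

/-- A rational number whose square is an integer is an integer. -/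
lemma d1r_int_of_sq_int (q : ℚ) (n : ℤ) (h : q ^ 2 = (n : ℚ)) : ∃ m : ℤ, q = (m : ℚ) := by
  have hden : (q ^ 2).den = 1 := by rw [h]; exact Rat.den_intCast n
  rw [Rat.den_pow] at hden
  have hd : q.den = 1 := by
    have := Nat.pow_eq_one.mp hden
    rcases this with h | h
    · exact h
    · exact absurd h (by norm_num)
  exact ⟨q.num, ((Rat.den_eq_one_iff q).mp hd).symm⟩

/-- Rational form of the descent: derived from the integral statement. -/
theorem d1r_no_rst_of
    (hX : ∀ X W S T : ℤ, W ≠ 0 → IsCoprime X W → X ^ 2 = S ^ 2 + W ^ 2 →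
      X ^ 2 = T ^ 2 + 81 * W ^ 2 → False)
    (r s t : ℚ) (h1 : r ^ 2 - s ^ 2 = 1) (h2 : r ^ 2 - t ^ 2 = 81) : False := by
  have hden : (r.den : ℚ) ≠ 0 := by exact_mod_cast r.den_nz
  have hr : r * (r.den : ℚ) = (r.num : ℚ) := Rat.mul_den_eq_num r
  obtain ⟨S, hS⟩ := d1r_int_of_sq_int (s * r.den) (r.num ^ 2 - (r.den : ℤ) ^ 2) (by
    push_cast
    rw [← hr]
    linear_combination (-(r.den : ℚ) ^ 2) * h1)
  obtain ⟨T, hT⟩ := d1r_int_of_sq_int (t * r.den) (r.num ^ 2 - 81 * (r.den : ℤ) ^ 2) (by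
    push_cast
    rw [← hr]
    linear_combination (-(r.den : ℚ) ^ 2) * h2)
  refine hX r.num (r.den : ℤ) S T (by exact_mod_cast r.den_nz) ?_ ?_ ?_
  · rw [Int.isCoprime_iff_gcd_eq_one]
    exact r.reduced
  · have : ((r.num : ℤ) : ℚ) ^ 2 = (S : ℚ) ^ 2 + ((r.den : ℤ) : ℚ) ^ 2 := by
      rw [← hS, ← hr]
      push_cast
      linear_combination ((r.den : ℚ) ^ 2) * h1
    exact_mod_cast this
  · have : ((r.num : ℤ) : ℚ) ^ 2 = (T : ℚ) ^ 2 + 81 * ((r.den : ℤ) : ℚ) ^ 2 := by
      rw [← hT, ← hr]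
      push_cast
      linear_combination ((r.den : ℚ) ^ 2) * h2
    exact_mod_cast this

/-- There are no rationals `r, s, t` with `r² - s² = 1` and `r² - t² = 81`. -/
theorem no_rst (r s t : ℚ) (h1 : r ^ 2 - s ^ 2 = 1) (h2 : r ^ 2 - t ^ 2 = 81) : False :=
  d1r_no_rst_of no_XWST r s t h1 h2

end Fermat.Agent.S51
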