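/-
Team S51, block D2 (owner: helper64).  Rational points of E₁ : y² = x (x+16) (x+25)  (= 15a1 = X_0(15)).

Math (shortcut due to helper64; only `no_rst` is used, no square-class analysis):
* `E2_points`: on `E₂ : Y² = X (X-1) (X-81)` every rational point has `Y = 0`.  Indeed for `Y ≠ 0` the
  duplication formulas give `x(2P) = r²`, `x(2P) - 1 = s²`, `x(2P) - 81 = t²` with
  `r = (X²-81)/(2Y)`, `s = (X²-2X+81)/(2Y)`, `t = (X²-162X+81)/(2Y)`, contradicting `no_rst`.
* `E1_points`: for `x ≠ 0` the 2-isogeny `(x, y) ↦ (y²/x², y (x²-400)/x²)` maps `E₁` to `E₂`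
  (`y²/x² - 1 = (x+20)²/x`, `y²/x² - 81 = (x-20)²/x`), so `y (x² - 400) = 0`.
-/
import Fermat.Agent.S51.DescentRat

set_option autoImplicit false

namespace Fermat.Agent.S51

/-- Rational points of `E₂ : Y² = X (X-1) (X-81)` (= 15a2): only the 2-torsion. -/
theorem E2_points (X Y : ℚ) (h : Y ^ 2 = X * (X - 1) * (X - 81)) : Y = 0 := by
  by_contra hY
  refine no_rst ((X ^ 2 - 81) / (2 * Y)) ((X ^ 2 - 2 * X + 81) / (2 * Y))
    ((X ^ 2 - 162 * X + 81) / (2 * Y)) ?_ ?_
  · field_simp
    linear_combination (-4 : ℚ) * h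
  · field_simp
    linear_combination (-324 : ℚ) * h

theorem E1_points (x y : ℚ) (h : y ^ 2 = x * (x + 16) * (x + 25)) :
    x = 0 ∨ x = -16 ∨ x = -25 ∨ x = 20 ∨ x = -20 := by
  by_cases hx : x = 0
  · exact Or.inl hx
  have hY : y * (x ^ 2 - 400) / x ^ 2 = 0 := by
    apply E2_points (y ^ 2 / x ^ 2) (y * (x ^ 2 - 400) / x ^ 2)
    have hX1 : y ^ 2 / x ^ 2 - 1 = (x + 20) ^ 2 / x := by
      field_simp
      linear_combination h
    have hX81 : y ^ 2 / x ^ 2 - 81 = (x - 20) ^ 2 / x := by
      field_simp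
      linear_combination h
    rw [hX1, hX81]
    field_simp
    ring
  have hx2 : x ^ 2 ≠ 0 := pow_ne_zero 2 hx
  rw [div_eq_zero_iff] at hY
  rcases hY with hY | hY
  · rcases mul_eq_zero.mp hY with hy | hx400
    · rw [hy] at h
      have h0 : x * (x + 16) * (x + 25) = 0 := by rw [← h]; ring
      rcases mul_eq_zero.mp h0 with h1 | h1
      · rcases mul_eq_zero.mp h1 with h2 | h2
        · exact absurd h2 hx
        · right; left; linarith
      · right; right; left; linarith
    · have h1 : (x - 20) * (x + 20) = 0 := by ring_nf; ring_nf at hx400; linarith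
      rcases mul_eq_zero.mp h1 with h2 | h2
      · right; right; right; left; linarith
      · right; right; right; right; linarith
  · exact absurd hY hx2

end Fermat.Agent.S51
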