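/-
Team S51, block D3 (owner: helper52).  Rational points of the quartic model of X_0(15).

Math: `y² = (x²+x-1)(x²-11x-1) = (x²-5x-19)² - 180 (x+2)`.  Put `X = 2 (x² - 5x - 9 + y)`,
`Y = 2 (x² - 5x - 19 + y) (2x - 5) - 180`; then `Y² = X (X+16) (X+25)`, so `X ∈ {0,-16,-25,20,-20}` by `E1_points`.
With `u = (X - 20)/2 = x² - 5x - 19 + y` one has `u (2 (x²-5x-19) - u) = 180 (x+2)`; for the five values of `u`
this reads `-20 (x+2)² = 0`, `-36 x² = 0`, `-45 (x - 1/2)² = 0`, `180 (x+2) = 0`, `-20 x (2x - 1) = 0`.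
-/
import Fermat.Agent.S51.E1Points

set_option autoImplicit false

namespace Fermat.Agent.S51

theorem quartic_rat_points (x y : ℚ) (h : y ^ 2 = (x ^ 2 + x - 1) * (x ^ 2 - 11 * x - 1)) :
    x = 0 ∨ x = -2 ∨ x = 1 / 2 := by
  -- the point of `Y² = X (X+16) (X+25)` attached to `(x, y)`
  have hE : (2 * (x ^ 2 - 5 * x - 19 + y) * (2 * x - 5) - 180) ^ 2
      = (2 * (x ^ 2 - 5 * x - 9 + y)) * (2 * (x ^ 2 - 5 * x - 9 + y) + 16)
          * (2 * (x ^ 2 - 5 * x - 9 + y) + 25) := by
    linear_combination (-8 * x ^ 2 + 40 * x - 8 * y + 152) * h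
  -- the key relation `(P + y) (P - y) = 180 (x + 2)` with `P = x² - 5x - 19`
  have hrel : (x ^ 2 - 5 * x - 19 + y) * (x ^ 2 - 5 * x - 19 - y) = 180 * (x + 2) := by
    linear_combination (-1 : ℚ) * h
  rcases E1_points _ _ hE with h0 | h16 | h25 | h20 | hm20
  · -- X = 0, i.e. y = -(x² - 5x - 9)
    have hy : y = -(x ^ 2 - 5 * x - 9) := by linear_combination h0 / 2
    have hx : (x + 2) ^ 2 = 0 := by
      rw [hy] at hrel
      linear_combination (-1 / 20 : ℚ) * hrel
    right; left
    have := pow_eq_zero_iff (two_ne_zero) |>.mp hx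
    linarith
  · -- X = -16
    have hy : y = -(x ^ 2 - 5 * x - 1) := by linear_combination h16 / 2
    have hx : x ^ 2 = 0 := by
      rw [hy] at hrel
      linear_combination (-1 / 36 : ℚ) * hrel
    left
    exact pow_eq_zero_iff (two_ne_zero) |>.mp hx
  · -- X = -25
    have hy : y = -(x ^ 2 - 5 * x - 9) - 25 / 2 := by linear_combination h25 / 2
    have hx : (x - 1 / 2) ^ 2 = 0 := by
      rw [hy] at hrel
      linear_combination (-1 / 45 : ℚ) * hrel
    right; right
    have := pow_eq_zero_iff (two_ne_zero) |>.mp hx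
    linarith
  · -- X = 20, i.e. x² - 5x - 19 + y = 0
    have hy : x ^ 2 - 5 * x - 19 + y = 0 := by linear_combination h20 / 2
    right; left
    rw [hy, zero_mul] at hrel
    linarith
  · -- X = -20
    have hy : y = -(x ^ 2 - 5 * x - 9) - 10 := by linear_combination hm20 / 2
    have hx : x * (2 * x - 1) = 0 := by
      rw [hy] at hrel
      linear_combination (-1 / 20 : ℚ) * hrel
    rcases mul_eq_zero.mp hx with hx0 | hx1
    · left; exact hx0
    · right; right; linarith

end Fermat.Agent.S51
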