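/-
Team S51, block B (owner: helper51).  The algebraic/arithmetic core:
torsion data `(A, B, x, u, v)` over `ℚ` forces one of the four non-cuspidal `j`-invariants of `X_0(15)`.

Math: with `ρ, τ` as in BridgeParam.lean, `F = -ρ³τ` and `Y = F² + 5F - 1 - 18ρ` satisfy
`Y² = (F²-F-1)(F²+11F-1)` (this is `36 ρ ·` the plane equation), so `-F ∈ {0, -2, 1/2}` by `quartic_rat_points`;
this gives `(ρ, τ) ∈ {(1,-2), (4/9,-729/32), (-1/4,-32), (-1/9,-729/2)}` and `j = (τ+27)(τ+3)³/τ` (`bridge_j_tau`).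
-/
import Fermat.Agent.S51.BridgeParam
import Fermat.Agent.S51.QuarticDescent

set_option autoImplicit false

namespace Fermat.Agent.S51

theorem bridge_rho_tau (ρ τ : ℚ) (hτ : τ ≠ 0)
    (h : ρ ^ 5 * (1 - ρ) * τ ^ 2 + 5 * ρ ^ 3 * τ + 9 * ρ + 1 = 0) :
    τ = -2 ∨ τ = -729 / 32 ∨ τ = -32 ∨ τ = -729 / 2 := by
  have hρ : ρ ≠ 0 := by
    rintro rfl
    norm_num at h
  set F : ℚ := -ρ ^ 3 * τ with hF
  have hq : (F ^ 2 + 5 * F - 1 - 18 * ρ) ^ 2 = ((-F) ^ 2 + (-F) - 1) * ((-F) ^ 2 - 11 * (-F) - 1) := by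
    rw [hF]; linear_combination 36 * ρ * h
  have hFne : F ≠ 0 := by
    rw [hF]; exact mul_ne_zero (neg_ne_zero.mpr (pow_ne_zero 3 hρ)) hτ
  have hτF : τ * ρ ^ 3 = -F := by rw [hF]; ring
  rcases quartic_rat_points (-F) (F ^ 2 + 5 * F - 1 - 18 * ρ) hq with h0 | h2 | h12
  · exact absurd (neg_eq_zero.mp h0) hFne
  · -- F = 2
    have hF2 : F = 2 := by linarith
    rw [hF2] at hq hτF
    have hy : (13 - 18 * ρ - 5) * (13 - 18 * ρ + 5) = 0 := by linear_combination hq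
    rcases mul_eq_zero.mp hy with h1 | h1
    · -- ρ = 4/9
      have hρv : ρ = 4 / 9 := by linarith
      rw [hρv] at hτF
      right; left; linarith
    · have hρv : ρ = 1 := by linarith
      rw [hρv] at hτF
      left; linarith
  · -- F = -1/2
    have hF2 : F = -1 / 2 := by linarith
    rw [hF2] at hq hτF
    have hy : (-13 / 4 - 18 * ρ - 5 / 4) * (-13 / 4 - 18 * ρ + 5 / 4) = 0 := by linear_combination hq
    rcases mul_eq_zero.mp hy with h1 | h1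
    · have hρv : ρ = -1 / 4 := by linarith
      rw [hρv] at hτF
      right; right; left; linarith
    · have hρv : ρ = -1 / 9 := by linarith
      rw [hρv] at hτF
      right; right; right; linarith

theorem core (A B x u v : ℚ) (hΔ : 4 * A ^ 3 + 27 * B ^ 2 ≠ 0)
    (h3 : 3 * x ^ 4 + 6 * A * x ^ 2 + 12 * B * x - A ^ 2 = 0)
    (huv : u ^ 2 - 4 * v ≠ 0)
    (hA : A ^ 2 + 2 * (u ^ 2 - v) * A - u ^ 4 + 5 * u ^ 2 * v + 5 * v ^ 2 = 0)
    (hB : 4 * B = u * (u ^ 2 - 6 * v - 2 * A)) :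
    2 * (6912 * A ^ 3) = -25 * (4 * A ^ 3 + 27 * B ^ 2) ∨
    8 * (6912 * A ^ 3) = -349938025 * (4 * A ^ 3 + 27 * B ^ 2) ∨
    32 * (6912 * A ^ 3) = -121945 * (4 * A ^ 3 + 27 * B ^ 2) ∨
    32768 * (6912 * A ^ 3) = 46969655 * (4 * A ^ 3 + 27 * B ^ 2) := by
  have hφ := bridge_phi_ne A B x hΔ h3
  have hφ2 : (x ^ 3 + A * x + B) ^ 2 ≠ 0 := pow_ne_zero 2 hφ
  have hplane := bridge_plane A B x u v hΔ h3 huv hA hB
  obtain ⟨τ, hτdef⟩ : ∃ τ : ℚ, τ = -(4 * A ^ 3 + 27 * B ^ 2) / (x ^ 3 + A * x + B) ^ 2 := ⟨_, rfl⟩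
  rw [← hτdef] at hplane
  have hτ : τ ≠ 0 := by
    rw [hτdef]; exact div_ne_zero (neg_ne_zero.mpr hΔ) hφ2
  have hΔτ : 4 * A ^ 3 + 27 * B ^ 2 = -τ * (x ^ 3 + A * x + B) ^ 2 := by
    rw [hτdef, neg_div, neg_neg, div_mul_cancel₀ _ hφ2]
  have hj := bridge_j_tau A B x h3
  have hj' : -6912 * A ^ 3 = (27 + τ) * (3 + τ) ^ 3 * (x ^ 3 + A * x + B) ^ 2 := by
    have h6 : (x ^ 3 + A * x + B) ^ 6 ≠ 0 := pow_ne_zero 6 hφ
    apply mul_right_cancel₀ h6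
    rw [hj, hΔτ]; ring
  rcases bridge_rho_tau _ τ hτ hplane with h1 | h1 | h1 | h1
  · left
    rw [h1] at hΔτ hj'
    linear_combination (-2 : ℚ) * hj' + (25 : ℚ) * hΔτ
  · right; right; right
    rw [h1] at hΔτ hj'
    linear_combination (-32768 : ℚ) * hj' - (46969655 : ℚ) * hΔτ
  · right; right; left
    rw [h1] at hΔτ hj'
    linear_combination (-32 : ℚ) * hj' + (121945 : ℚ) * hΔτ
  · right; left
    rw [h1] at hΔτ hj'
    linear_combination (-8 : ℚ) * hj' + (349938025 : ℚ) * hΔτ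

end Fermat.Agent.S51
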