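/-
Team S51, shared doubling API (owner: helper58).
Points of `E = (shortW A B)⁄K`, i.e. `y² = x³ + a x + b` with `a = algebraMap ℚ K A`, `b = algebraMap ℚ K B`,
over any field `K` with `[Algebra ℚ K] [DecidableEq K]`.
All names are prefixed `dbl_`.
-/
import Fermat.Agent.S51.Defs

set_option autoImplicit false

open WeierstrassCurve WeierstrassCurve.Affine

namespace Fermat.Agent.S51

section
variable {K : Type*} [Field K] [Algebra ℚ K] (A B : ℚ)

lemma dbl_two_ne_zero : (2 : K) ≠ 0 := by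
  have : CharZero K := algebraRat.charZero K
  exact two_ne_zero

@[simp] lemma dbl_a₁ : ((shortW A B)⁄K).a₁ = 0 := by simp [shortW]
@[simp] lemma dbl_a₂ : ((shortW A B)⁄K).a₂ = 0 := by simp [shortW]
@[simp] lemma dbl_a₃ : ((shortW A B)⁄K).a₃ = 0 := by simp [shortW]
@[simp] lemma dbl_a₄ : ((shortW A B)⁄K).a₄ = algebraMap ℚ K A := by simp [shortW]
@[simp] lemma dbl_a₆ : ((shortW A B)⁄K).a₆ = algebraMap ℚ K B := by simp [shortW]

lemma dbl_equation_iff (x y : K) :
    ((shortW A B)⁄K).Equation x y ↔ y ^ 2 = x ^ 3 + algebraMap ℚ K A * x + algebraMap ℚ K B := by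
  rw [equation_iff]
  simp only [dbl_a₁, dbl_a₂, dbl_a₃, dbl_a₄, dbl_a₆]
  constructor <;> intro h <;> linear_combination h

lemma dbl_negY (x y : K) : ((shortW A B)⁄K).negY x y = -y := by
  simp [negY]

lemma dbl_nonsingular_iff (x y : K) :
    ((shortW A B)⁄K).Nonsingular x y ↔
      y ^ 2 = x ^ 3 + algebraMap ℚ K A * x + algebraMap ℚ K B ∧
        (y ≠ 0 ∨ 3 * x ^ 2 + algebraMap ℚ K A ≠ 0) := by
  rw [nonsingular_iff, dbl_equation_iff]
  simp only [dbl_a₁, dbl_a₂, dbl_a₃, dbl_a₄]
  have h2 : (2 : K) ≠ 0 := dbl_two_ne_zero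
  constructor
  · rintro ⟨h1, h | h⟩
    · refine ⟨h1, Or.inr fun h0 => h ?_⟩
      linear_combination -h0
    · refine ⟨h1, Or.inl fun h0 => h ?_⟩
      rw [h0]; ring
  · rintro ⟨h1, h | h⟩
    · refine ⟨h1, Or.inr fun h0 => h ?_⟩
      have : (2 : K) * y = 0 := by linear_combination h0
      rcases mul_eq_zero.mp this with h' | h'
      · exact absurd h' h2
      · exact h'
    · refine ⟨h1, Or.inl fun h0 => h ?_⟩
      linear_combination -h0

/-- On a nonsingular point the equation holds. -/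
lemma dbl_eq_of_nonsingular {x y : K} (h : ((shortW A B)⁄K).Nonsingular x y) :
    y ^ 2 = x ^ 3 + algebraMap ℚ K A * x + algebraMap ℚ K B :=
  ((dbl_nonsingular_iff A B x y).1 h).1

lemma dbl_neg_some {x y : K} (h : ((shortW A B)⁄K).Nonsingular x y) :
    ∃ h' : ((shortW A B)⁄K).Nonsingular x (-y),
      -(Point.some x y h : ((shortW A B)⁄K).Point) = Point.some x (-y) h' := by
  have key := Point.neg_some h
  simp only [dbl_negY] at key
  exact ⟨_, key⟩

variable [DecidableEq K]

/-- `P + P = 0` iff `y = 0`. -/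
lemma dbl_add_self_eq_zero_iff {x y : K} (h : ((shortW A B)⁄K).Nonsingular x y) :
    (Point.some x y h : ((shortW A B)⁄K).Point) + Point.some x y h = 0 ↔ y = 0 := by
  have h2 : (2 : K) ≠ 0 := dbl_two_ne_zero
  constructor
  · intro hd
    by_contra hy
    have hy' : y ≠ ((shortW A B)⁄K).negY x y := by
      rw [dbl_negY]
      intro h0
      have : (2 : K) * y = 0 := by linear_combination h0
      rcases mul_eq_zero.mp this with h' | h'
      · exact h2 h'
      · exact hy h'
    rw [Point.add_self_of_Y_ne hy'] at hd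
    exact Point.some_ne_zero _ hd
  · intro hy
    apply Point.add_self_of_Y_eq
    rw [dbl_negY, hy, neg_zero]

/-- Explicit duplication formula for `y ≠ 0`. -/
lemma dbl_add_self {x y : K} (h : ((shortW A B)⁄K).Nonsingular x y) (hy : y ≠ 0) :
    ∃ h' : ((shortW A B)⁄K).Nonsingular
        (((3 * x ^ 2 + algebraMap ℚ K A) / (2 * y)) ^ 2 - 2 * x)
        (-y - (3 * x ^ 2 + algebraMap ℚ K A) / (2 * y) *
          ((((3 * x ^ 2 + algebraMap ℚ K A) / (2 * y)) ^ 2 - 2 * x) - x)),
      (Point.some x y h : ((shortW A B)⁄K).Point) + Point.some x y h =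
        Point.some (((3 * x ^ 2 + algebraMap ℚ K A) / (2 * y)) ^ 2 - 2 * x)
          (-y - (3 * x ^ 2 + algebraMap ℚ K A) / (2 * y) *
            ((((3 * x ^ 2 + algebraMap ℚ K A) / (2 * y)) ^ 2 - 2 * x) - x)) h' := by
  have h2 : (2 : K) ≠ 0 := dbl_two_ne_zero
  have hy' : y ≠ ((shortW A B)⁄K).negY x y := by
    rw [dbl_negY]
    intro h0
    have : (2 : K) * y = 0 := by linear_combination h0
    rcases mul_eq_zero.mp this with h' | h'
    · exact h2 h'
    · exact hy h'
  have key := Point.add_self_of_Y_ne (h₁ := h) hy'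
  have hs : ((shortW A B)⁄K).slope x x y y = (3 * x ^ 2 + algebraMap ℚ K A) / (2 * y) := by
    rw [slope_of_Y_ne rfl hy', dbl_negY]
    simp only [dbl_a₁, dbl_a₂, dbl_a₄]
    congr 1 <;> ring
  have hX : ((shortW A B)⁄K).addX x x (((shortW A B)⁄K).slope x x y y) =
      ((3 * x ^ 2 + algebraMap ℚ K A) / (2 * y)) ^ 2 - 2 * x := by
    rw [hs]
    simp only [addX, dbl_a₁, dbl_a₂]
    ring
  have hY : ((shortW A B)⁄K).addY x x y (((shortW A B)⁄K).slope x x y y) =
      -y - (3 * x ^ 2 + algebraMap ℚ K A) / (2 * y) *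
          ((((3 * x ^ 2 + algebraMap ℚ K A) / (2 * y)) ^ 2 - 2 * x) - x) := by
    rw [hs]
    simp only [addY, negAddY, addX, negY, dbl_a₁, dbl_a₂, dbl_a₃]
    ring
  simp only [hX, hY] at key
  exact ⟨_, key⟩

/-- If `P + P = (x', y')` then `y ≠ 0` and `x' = D(x)` (duplication map, cleared of denominators). -/
lemma dbl_x_of_add_self {x y x' y' : K} {h : ((shortW A B)⁄K).Nonsingular x y}
    {h' : ((shortW A B)⁄K).Nonsingular x' y'}
    (hd : (Point.some x y h : ((shortW A B)⁄K).Point) + Point.some x y h = Point.some x' y' h') :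
    y ≠ 0 ∧
      4 * x' * (x ^ 3 + algebraMap ℚ K A * x + algebraMap ℚ K B) =
        x ^ 4 - 2 * algebraMap ℚ K A * x ^ 2 - 8 * algebraMap ℚ K B * x + algebraMap ℚ K A ^ 2 := by
  have h2 : (2 : K) ≠ 0 := dbl_two_ne_zero
  have hy : y ≠ 0 := by
    intro hy
    rw [(dbl_add_self_eq_zero_iff A B h).2 hy] at hd
    exact Point.some_ne_zero _ hd.symm
  refine ⟨hy, ?_⟩
  obtain ⟨h'', hd'⟩ := dbl_add_self A B h hy
  rw [hd'] at hd
  have hx : ((3 * x ^ 2 + algebraMap ℚ K A) / (2 * y)) ^ 2 - 2 * x = x' := by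
    injection hd
  have heq := dbl_eq_of_nonsingular A B h
  rw [← hx, ← heq]
  field_simp
  rw [heq]
  ring

omit [DecidableEq K] in
/-- Two affine points with the same `x` are equal or opposite. -/
lemma dbl_some_eq_or_neg {x y y' : K} (h : ((shortW A B)⁄K).Nonsingular x y)
    (h' : ((shortW A B)⁄K).Nonsingular x y') :
    (Point.some x y' h' : ((shortW A B)⁄K).Point) = Point.some x y h ∨
      (Point.some x y' h' : ((shortW A B)⁄K).Point) = -Point.some x y h := by
  have e1 := dbl_eq_of_nonsingular A B h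
  have e2 := dbl_eq_of_nonsingular A B h'
  have : (y' - y) * (y' + y) = 0 := by linear_combination e2 - e1
  rcases mul_eq_zero.mp this with h0 | h0
  · left
    have : y' = y := by linear_combination h0
    subst this
    rfl
  · right
    have hy : y' = -y := by linear_combination h0
    subst hy
    obtain ⟨h'', hn⟩ := dbl_neg_some A B h
    rw [hn]

/-- The Galois action (prelude instance) on an affine point is coordinatewise. -/
lemma dbl_map_some (σ : K ≃ₐ[ℚ] K) {x y : K} (h : ((shortW A B)⁄K).Nonsingular x y) :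
    ∃ h' : ((shortW A B)⁄K).Nonsingular (σ x) (σ y),
      σ • (Point.some x y h : ((shortW A B)⁄K).Point) = Point.some (σ x) (σ y) h' :=
  ⟨_, rfl⟩

lemma dbl_map_zero (σ : K ≃ₐ[ℚ] K) : σ • (0 : ((shortW A B)⁄K).Point) = 0 := rfl

end

end Fermat.Agent.S51
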