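/-
Team S51, block E3Points (owner: helper68).
Existence of a nonzero 3-torsion point on `y² = x³ + A x + B` over `AlgebraicClosure ℚ`.
-/
import Fermat.Agent.S51.Defs

set_option autoImplicit false

open WeierstrassCurve WeierstrassCurve.Affine Polynomial

namespace Fermat.Agent.S51

/-- There is a root of `ψ₃ = 3X⁴ + 6aX² + 12bX - a²` in an algebraically closed field of
characteristic zero. -/
theorem e3p_exists_root {K : Type*} [Field K] [IsAlgClosed K] [CharZero K] (a b : K) :
    ∃ x : K, 3 * x ^ 4 + 6 * a * x ^ 2 + 12 * b * x - a ^ 2 = 0 := by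
  let p : K[X] := C 3 * X ^ 4 + C (6 * a) * X ^ 2 + C (12 * b) * X - C (a ^ 2)
  have hdeg : p.degree = 4 := by
    have h3 : (3 : K) ≠ 0 := by norm_num
    have h1 : (C (3 : K) * X ^ 4).degree = 4 := by
      rw [degree_C_mul_X_pow 4 h3]; rfl
    have h2 : (C (6 * a) * X ^ 2 + C (12 * b) * X - C (a ^ 2) : K[X]).degree < 4 := by
      refine lt_of_le_of_lt (degree_sub_le _ _) ?_
      refine max_lt (lt_of_le_of_lt (degree_add_le _ _) (max_lt ?_ ?_)) ?_
      · exact lt_of_le_of_lt (degree_C_mul_X_pow_le 2 _) (by decide)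
      · exact lt_of_le_of_lt (degree_C_mul_X_le _) (by decide)
      · exact lt_of_le_of_lt degree_C_le (by decide)
    have : p = C 3 * X ^ 4 + (C (6 * a) * X ^ 2 + C (12 * b) * X - C (a ^ 2)) := by
      simp only [p]; ring
    rw [this, degree_add_eq_left_of_degree_lt (by rw [h1]; exact h2), h1]
  obtain ⟨x, hx⟩ := IsAlgClosed.exists_root p (by rw [hdeg]; decide)
  refine ⟨x, ?_⟩
  simpa [p] using hx

theorem three_torsion_nontrivial (A B : ℚ) (hΔ : 4 * A ^ 3 + 27 * B ^ 2 ≠ 0) :
    Nontrivial (Submodule.torsionBy ℤ ((shortW A B)⁄(AlgebraicClosure ℚ)).Point (3 : ℕ)) := by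
  set a : AlgebraicClosure ℚ := algebraMap ℚ (AlgebraicClosure ℚ) A with ha
  set b : AlgebraicClosure ℚ := algebraMap ℚ (AlgebraicClosure ℚ) B with hb
  have ha1 : ((shortW A B)⁄(AlgebraicClosure ℚ)).a₁ = 0 := by simp [shortW]
  have ha2 : ((shortW A B)⁄(AlgebraicClosure ℚ)).a₂ = 0 := by simp [shortW]
  have ha3 : ((shortW A B)⁄(AlgebraicClosure ℚ)).a₃ = 0 := by simp [shortW]
  have ha4 : ((shortW A B)⁄(AlgebraicClosure ℚ)).a₄ = a := by simp [shortW, ha]
  have ha6 : ((shortW A B)⁄(AlgebraicClosure ℚ)).a₆ = b := by simp [shortW, hb]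
  have hdisc : 4 * a ^ 3 + 27 * b ^ 2 ≠ 0 := by
    intro h
    apply hΔ
    apply (algebraMap ℚ (AlgebraicClosure ℚ)).injective
    simpa [ha, hb] using h
  obtain ⟨x, hx⟩ := e3p_exists_root a b
  obtain ⟨y, hy⟩ := IsAlgClosed.exists_pow_nat_eq (x ^ 3 + a * x + b) (n := 2) (by norm_num)
  have hy0 : y ≠ 0 := by
    rintro rfl
    have hf : x ^ 3 + a * x + b = 0 := by rw [← hy]; ring
    have hf' : (3 * x ^ 2 + a) ^ 2 = 0 := by linear_combination 12 * x * hf - hx
    have hf'' : 3 * x ^ 2 + a = 0 := by simpa using hf'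
    apply hdisc
    linear_combination (-27 * x ^ 3 - 27 * a * x + 27 * b) * hf +
      (9 * x ^ 4 + 15 * a * x ^ 2 + 4 * a ^ 2) * hf''
  have heq : ((shortW A B)⁄(AlgebraicClosure ℚ)).Equation x y := by
    rw [Affine.equation_iff, ha1, ha2, ha3, ha4, ha6]
    linear_combination hy
  have hne : y ≠ ((shortW A B)⁄(AlgebraicClosure ℚ)).negY x y := by
    rw [Affine.negY, ha1, ha3]
    intro h
    apply hy0
    have h2 : 2 * y = 0 := by linear_combination h
    simpa using h2
  have hns : ((shortW A B)⁄(AlgebraicClosure ℚ)).Nonsingular x y := by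
    rw [Affine.nonsingular_iff]
    refine ⟨heq, Or.inr ?_⟩
    simpa [Affine.negY] using hne
  set P : ((shortW A B)⁄(AlgebraicClosure ℚ)).Point := Point.some x y hns with hP
  have h2P : P + P = -P := by
    have hadd := Point.add_self_of_Y_ne (h₁ := hns) hne
    have hX : ((shortW A B)⁄(AlgebraicClosure ℚ)).addX x x
        (((shortW A B)⁄(AlgebraicClosure ℚ)).slope x x y y) = x := by
      rw [Affine.slope_of_Y_ne rfl hne, Affine.addX, Affine.negY, ha1, ha2, ha3, ha4]
      have hy2 : y - (-y - 0 * x - 0) = 2 * y := by ring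
      rw [hy2]
      field_simp
      linear_combination -hx - 12 * x * hy
    rcases Point.X_eq_iff.mp hX with h | h
    · exfalso
      rw [← hadd] at h
      have : P = 0 := by
        have h' : P + P = P := h
        exact add_eq_right.mp h'
      exact Point.some_ne_zero hns this
    · rw [← hadd] at h
      exact h
  have h3P : ((3 : ℕ) : ℤ) • P = 0 := by
    have : ((3 : ℕ) : ℤ) • P = P + P + P := by
      rw [natCast_zsmul, succ_nsmul, succ_nsmul, one_nsmul]
    rw [this, h2P]
    simp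
  refine ⟨⟨⟨P, (Submodule.mem_torsionBy_iff _ _).mpr h3P⟩, 0, ?_⟩⟩
  intro h
  exact Point.some_ne_zero hns (congrArg Subtype.val h)

/-- A nonzero point killed by `3` has `x`-coordinate a root of `ψ₃`. -/
theorem psi3_of_three_torsion (A B : ℚ) (x y : AlgebraicClosure ℚ)
    (h : ((shortW A B)⁄(AlgebraicClosure ℚ)).Nonsingular x y)
    (h3 : (3 : ℤ) • (WeierstrassCurve.Affine.Point.some x y h) = 0) :
    3 * x ^ 4 + 6 * (algebraMap ℚ _ A) * x ^ 2 + 12 * (algebraMap ℚ _ B) * x
      - (algebraMap ℚ _ A) ^ 2 = 0 := by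
  set a : AlgebraicClosure ℚ := algebraMap ℚ (AlgebraicClosure ℚ) A with ha
  set b : AlgebraicClosure ℚ := algebraMap ℚ (AlgebraicClosure ℚ) B with hb
  have ha1 : ((shortW A B)⁄(AlgebraicClosure ℚ)).a₁ = 0 := by simp [shortW]
  have ha2 : ((shortW A B)⁄(AlgebraicClosure ℚ)).a₂ = 0 := by simp [shortW]
  have ha3 : ((shortW A B)⁄(AlgebraicClosure ℚ)).a₃ = 0 := by simp [shortW]
  have ha4 : ((shortW A B)⁄(AlgebraicClosure ℚ)).a₄ = a := by simp [shortW, ha]
  have ha6 : ((shortW A B)⁄(AlgebraicClosure ℚ)).a₆ = b := by simp [shortW, hb]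
  have heq : y ^ 2 = x ^ 3 + a * x + b := by
    have := (Affine.nonsingular_iff x y).mp h |>.1
    rw [Affine.equation_iff, ha1, ha2, ha3, ha4, ha6] at this
    linear_combination this
  set P : ((shortW A B)⁄(AlgebraicClosure ℚ)).Point := Point.some x y h with hP
  have h2P : P + P = -P := by
    have h3' : P + P + P = 0 := by
      have : (3 : ℤ) • P = P + P + P := by
        have : (3 : ℤ) = ((3 : ℕ) : ℤ) := by norm_num
        rw [this, natCast_zsmul, succ_nsmul, succ_nsmul, one_nsmul]
      rw [← this]; exact h3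
    exact eq_neg_of_add_eq_zero_left h3'
  by_cases hy : y = ((shortW A B)⁄(AlgebraicClosure ℚ)).negY x y
  · exfalso
    have h0 : P + P = 0 := Point.add_self_of_Y_eq hy
    rw [h0] at h2P
    have : P = 0 := by
      have := congrArg Neg.neg h2P
      simpa using this.symm
    exact Point.some_ne_zero h this
  · have hadd := Point.add_self_of_Y_ne (h₁ := h) hy
    have hy0 : y ≠ 0 := by
      rintro rfl
      apply hy
      rw [Affine.negY, ha1, ha3]
      ring
    have hneg : -P = Point.some x (((shortW A B)⁄(AlgebraicClosure ℚ)).negY x y)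
        ((Affine.nonsingular_neg x y).mpr h) := Point.neg_some h
    rw [hP] at h2P
    rw [hadd, ← hP, hneg] at h2P
    have hX : ((shortW A B)⁄(AlgebraicClosure ℚ)).addX x x
        (((shortW A B)⁄(AlgebraicClosure ℚ)).slope x x y y) = x := by
      injection h2P
    rw [Affine.slope_of_Y_ne rfl hy, Affine.addX, Affine.negY, ha1, ha2, ha3, ha4] at hX
    have hy2 : y - (-y - 0 * x - 0) = 2 * y := by ring
    rw [hy2] at hX
    field_simp at hX
    linear_combination -hX - 12 * x * heq

end Fermat.Agent.S51
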