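/-
Team S51, block E3 (owner: helper6).  3-torsion of a short Weierstrass curve over `ℚ`.

Math (K = Qbar, E : y² = x³ + A x + B, f = x³ + A x + B, ψ₃ = 3x⁴ + 6A x² + 12 B x - A² = 12 x f - f'²):
* nonzero `P = (x, y)` with `3 • P = 0` has `ψ₃(x) = 0` (`E3Points.lean`, helper68);
* `E[3]` is nontrivial (`E3Points.lean`, helper68);
* `P ↦ x(P)` is at most 2-to-1 on `E[3] \ 0` and `ψ₃` has at most 4 roots, so `#E[3] ≤ 9`;
* hence a Galois-stable submodule `N ≠ ⊥, ⊤` is `{0, P, -P}`; stability gives `σ x(P) = x(P)` for all `σ`,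
  so `x(P) ∈ ℚ` (fixed field of `Gal(Qbar/ℚ)` is `ℚ`; see `GaloisBasics.lean`).
-/
import Fermat.Agent.S51.Defs
import Fermat.Agent.S51.GaloisBasics
import Fermat.Agent.S51.Dbl
import Fermat.Agent.S51.E3Points

set_option autoImplicit false

open WeierstrassCurve WeierstrassCurve.Affine Polynomial

namespace Fermat.Agent.S51

/-- The 3-division polynomial of `y² = x³ + A x + B`, over `Qbar`. -/
noncomputable def e3_psi (A B : ℚ) : (AlgebraicClosure ℚ)[X] :=
  C 3 * X ^ 4 + C (6 * algebraMap ℚ (AlgebraicClosure ℚ) A) * X ^ 2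
    + C (12 * algebraMap ℚ (AlgebraicClosure ℚ) B) * X
    - C ((algebraMap ℚ (AlgebraicClosure ℚ) A) ^ 2)

lemma e3_psi_eval (A B : ℚ) (x : AlgebraicClosure ℚ) : (e3_psi A B).eval x =
    3 * x ^ 4 + 6 * (algebraMap ℚ (AlgebraicClosure ℚ) A) * x ^ 2
      + 12 * (algebraMap ℚ (AlgebraicClosure ℚ) B) * x
      - (algebraMap ℚ (AlgebraicClosure ℚ) A) ^ 2 := by
  simp [e3_psi]

lemma e3_psi_ne_zero (A B : ℚ) : e3_psi A B ≠ 0 := by
  intro h
  have h0 := e3_psi_eval A B 0
  have h1 := e3_psi_eval A B 1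
  have h2 := e3_psi_eval A B (-1)
  rw [h] at h0 h1 h2
  simp only [eval_zero] at h0 h1 h2
  have h6 : (6 : AlgebraicClosure ℚ) + 12 * (algebraMap ℚ (AlgebraicClosure ℚ) A) = 0 := by
    linear_combination 2 * h0 - h1 - h2
  have ha : (algebraMap ℚ (AlgebraicClosure ℚ) A) ^ 2 = 0 := by
    linear_combination h0
  have ha' : algebraMap ℚ (AlgebraicClosure ℚ) A = 0 := by
    simpa using ha
  rw [ha'] at h6
  norm_num at h6

lemma e3_psi_natDegree_le (A B : ℚ) : (e3_psi A B).natDegree ≤ 4 := by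
  unfold e3_psi
  compute_degree

lemma e3_card_roots (A B : ℚ) : (e3_psi A B).roots.toFinset.card ≤ 4 :=
  (Multiset.toFinset_card_le _).trans ((card_roots' _).trans (e3_psi_natDegree_le A B))

/-- A chosen square root of `x³ + a x + b` in `Qbar`. -/
noncomputable def e3_sqrt (A B : ℚ) (x : AlgebraicClosure ℚ) : AlgebraicClosure ℚ :=
  Classical.choose (IsAlgClosed.exists_pow_nat_eq
    (x ^ 3 + algebraMap ℚ (AlgebraicClosure ℚ) A * x + algebraMap ℚ (AlgebraicClosure ℚ) B)
    (show 0 < 2 by norm_num))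

lemma e3_sqrt_sq (A B : ℚ) (x : AlgebraicClosure ℚ) :
    e3_sqrt A B x ^ 2 =
      x ^ 3 + algebraMap ℚ (AlgebraicClosure ℚ) A * x + algebraMap ℚ (AlgebraicClosure ℚ) B :=
  Classical.choose_spec (IsAlgClosed.exists_pow_nat_eq
    (x ^ 3 + algebraMap ℚ (AlgebraicClosure ℚ) A * x + algebraMap ℚ (AlgebraicClosure ℚ) B)
    (show 0 < 2 by norm_num))

/-- Coding of a point by its `x`-coordinate and one bit for the sign of `y`. -/
noncomputable def e3_code (A B : ℚ) :
    ((shortW A B)⁄(AlgebraicClosure ℚ)).Point → Option (AlgebraicClosure ℚ × Bool)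
  | .zero => none
  | .some x y _ => some (x, decide (y = e3_sqrt A B x))

lemma e3_code_injective (A B : ℚ) : Function.Injective (e3_code A B) := by
  rintro (_ | ⟨x, y, h⟩) (_ | ⟨x', y', h'⟩) hc
  · rfl
  · simp [e3_code] at hc
  · simp [e3_code] at hc
  · simp only [e3_code, Option.some.injEq, Prod.mk.injEq, decide_eq_decide] at hc
    obtain ⟨rfl, hy⟩ := hc
    have e := dbl_eq_of_nonsingular A B h
    have e' := dbl_eq_of_nonsingular A B h'
    have es := e3_sqrt_sq A B x
    have hyy : y' = y := by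
      have h1 : (y - e3_sqrt A B x) * (y + e3_sqrt A B x) = 0 := by
        linear_combination e - es
      have h2 : (y' - e3_sqrt A B x) * (y' + e3_sqrt A B x) = 0 := by
        linear_combination e' - es
      rcases mul_eq_zero.mp h1 with h1 | h1
      · have hy1 : y = e3_sqrt A B x := by linear_combination h1
        rw [hy.mp hy1, hy1]
      · rcases mul_eq_zero.mp h2 with h2 | h2
        · have hy2 : y' = e3_sqrt A B x := by linear_combination h2
          rw [hy.mpr hy2, hy2]
        · linear_combination h2 - h1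
    subst hyy
    rfl

/-- The finite set containing the codes of all 3-torsion points. -/
noncomputable def e3_codes (A B : ℚ) : Finset (Option (AlgebraicClosure ℚ × Bool)) :=
  insert none (((e3_psi A B).roots.toFinset ×ˢ (Finset.univ : Finset Bool)).image some)

lemma e3_codes_card (A B : ℚ) : (e3_codes A B).card ≤ 9 := by
  unfold e3_codes
  refine (Finset.card_insert_le _ _).trans ?_
  have h1 : (((e3_psi A B).roots.toFinset ×ˢ (Finset.univ : Finset Bool)).image some).card
      ≤ 4 * 2 := by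
    refine Finset.card_image_le.trans ?_
    rw [Finset.card_product]
    exact Nat.mul_le_mul (e3_card_roots A B) (by simp)
  omega

lemma e3_code_mem (A B : ℚ)
    (P : Submodule.torsionBy ℤ ((shortW A B)⁄(AlgebraicClosure ℚ)).Point (3 : ℕ)) :
    e3_code A B P.1 ∈ e3_codes A B := by
  obtain ⟨P, hP⟩ := P
  rcases P with _ | ⟨x, y, h⟩
  · simp [e3_code, e3_codes]
  · have h3 : (3 : ℤ) • (Point.some x y h : ((shortW A B)⁄(AlgebraicClosure ℚ)).Point) = 0 := by
      have := (Submodule.mem_torsionBy_iff _ _).mp hP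
      simpa using this
    have hroot := psi3_of_three_torsion A B x y h h3
    simp only [e3_code, e3_codes, Finset.mem_insert, Finset.mem_image, Finset.mem_product,
      Finset.mem_univ, and_true, reduceCtorEq, false_or]
    refine ⟨(x, decide (y = e3_sqrt A B x)), ?_, rfl⟩
    rw [Multiset.mem_toFinset, mem_roots (e3_psi_ne_zero A B), IsRoot.def, e3_psi_eval]
    exact hroot

theorem three_torsion_card_le (A B : ℚ) :
    Finite (Submodule.torsionBy ℤ ((shortW A B)⁄(AlgebraicClosure ℚ)).Point (3 : ℕ)) ∧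
    Nat.card (Submodule.torsionBy ℤ ((shortW A B)⁄(AlgebraicClosure ℚ)).Point (3 : ℕ)) ≤ 9 := by
  let g : Submodule.torsionBy ℤ ((shortW A B)⁄(AlgebraicClosure ℚ)).Point (3 : ℕ) →
      ↥(e3_codes A B) := fun P => ⟨e3_code A B P.1, e3_code_mem A B P⟩
  have hg : Function.Injective g := by
    intro P Q hPQ
    have h1 : e3_code A B P.1 = e3_code A B Q.1 := congrArg Subtype.val hPQ
    exact Subtype.ext (e3_code_injective A B h1)
  refine ⟨Finite.of_injective g hg, ?_⟩
  calc Nat.card _ ≤ Nat.card ↥(e3_codes A B) := Nat.card_le_card_of_injective g hg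
    _ = (e3_codes A B).card := Nat.card_eq_finsetCard _
    _ ≤ 9 := e3_codes_card A B

theorem exists_rat_root_psi3 (A B : ℚ) (hΔ : 4 * A ^ 3 + 27 * B ^ 2 ≠ 0)
    (h : ¬ Irr (shortW A B) 3) :
    ∃ x : ℚ, 3 * x ^ 4 + 6 * A * x ^ 2 + 12 * B * x - A ^ 2 = 0 := by
  have hnt := three_torsion_nontrivial A B hΔ
  obtain ⟨hfin, hcard⟩ := three_torsion_card_le A B
  have h' : ∃ N : Submodule (ZMod 3)
      (Submodule.torsionBy ℤ ((shortW A B)⁄(AlgebraicClosure ℚ)).Point (3 : ℕ)),
      Point.IsGaloisStable ℚ N ∧ N ≠ ⊥ ∧ N ≠ ⊤ := by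
    by_contra hcon
    apply h
    refine ⟨hnt, fun N hN => ?_⟩
    by_contra hN'
    push Not at hN'
    exact hcon ⟨N, hN, hN'.1, hN'.2⟩
  obtain ⟨N, hstab, hbot, htop⟩ := h'
  have : Fact (Nat.Prime 3) := ⟨by norm_num⟩
  obtain ⟨P, hP0, hPN, hgen⟩ := exists_generator_of_card_le (p := 3) hcard N hbot htop
  obtain ⟨P, hP⟩ := P
  rcases P with _ | ⟨x, y, hxy⟩
  · exact absurd rfl hP0
  · have h3 : (3 : ℤ) • (Point.some x y hxy : ((shortW A B)⁄(AlgebraicClosure ℚ)).Point) = 0 := by
      have := (Submodule.mem_torsionBy_iff _ _).mp hP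
      simpa using this
    have h3n : (3 : ℕ) • (Point.some x y hxy : ((shortW A B)⁄(AlgebraicClosure ℚ)).Point) = 0 := by
      have := h3
      rwa [← Nat.cast_smul_eq_nsmul ℤ]
    have hfix : ∀ σ : AlgebraicClosure ℚ ≃ₐ[ℚ] AlgebraicClosure ℚ, σ x = x := by
      intro σ
      obtain ⟨k, hk⟩ := hgen _ (hstab σ _ hPN)
      have hk' : σ • (Point.some x y hxy : ((shortW A B)⁄(AlgebraicClosure ℚ)).Point)
          = k • (Point.some x y hxy : ((shortW A B)⁄(AlgebraicClosure ℚ)).Point) := by
        have e := congrArg Subtype.val hk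
        change σ • (Point.some x y hxy : ((shortW A B)⁄(AlgebraicClosure ℚ)).Point) = _ at e
        rw [e]
        simp
      obtain ⟨h', hσ⟩ := dbl_map_some A B σ hxy
      rw [hσ] at hk'
      obtain ⟨r, hr, hrk⟩ : ∃ r : ℕ, r < 3 ∧
          k • (Point.some x y hxy : ((shortW A B)⁄(AlgebraicClosure ℚ)).Point)
            = r • (Point.some x y hxy : ((shortW A B)⁄(AlgebraicClosure ℚ)).Point) := by
        refine ⟨k % 3, Nat.mod_lt _ (by norm_num), ?_⟩
        conv_lhs => rw [← Nat.div_add_mod k 3, add_nsmul, mul_nsmul, h3n, nsmul_zero, zero_add]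
      rw [hrk] at hk'
      interval_cases r
      · rw [zero_nsmul] at hk'
        exact absurd hk' (Point.some_ne_zero _)
      · rw [one_nsmul] at hk'
        injection hk'
      · have h2 : (2 : ℕ) • (Point.some x y hxy : ((shortW A B)⁄(AlgebraicClosure ℚ)).Point)
            = -(Point.some x y hxy) := by
          have h32 : (3 : ℕ) • (Point.some x y hxy : ((shortW A B)⁄(AlgebraicClosure ℚ)).Point)
              = (2 : ℕ) • (Point.some x y hxy) + Point.some x y hxy := by
            rw [succ_nsmul]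
          rw [h3n] at h32
          exact eq_neg_of_add_eq_zero_left h32.symm
        obtain ⟨h'', hneg⟩ := dbl_neg_some A B hxy
        rw [h2, hneg] at hk'
        injection hk'
    obtain ⟨q, hq⟩ := rat_of_fixed x hfix
    refine ⟨q, ?_⟩
    have hroot := psi3_of_three_torsion A B x y hxy h3
    apply (algebraMap ℚ (AlgebraicClosure ℚ)).injective
    rw [← hq] at hroot
    simpa using hroot

end Fermat.Agent.S51
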