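/-
Team S51, block M6 (owner: helper60).  The four non-cuspidal j-invariants of X_0(15) are not semistable at 5.

Math: `j = c₄³/Δ`.  For `j ∈ {-25/2, -349938025/8, -121945/32, 46969655/32768}` one has `v₅(j) ∈ {1, 2}`
(`349938025 = 5²·241³`, `121945 = 5·29³`, `46969655 = 5·211³`).  From `d·c₄³ = n·Δ` with `5 ∤ d`, `5 ∣ n`:
`5 ∣ c₄`, so by semistability `5 ∤ Δ`; but then `v₅(n) = 3 v₅(c₄) ≥ 3`, contradiction with `v₅(n) ≤ 2`.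
-/
import Fermat.Agent.S51.Defs

set_option autoImplicit false

namespace Fermat.Agent.S51

theorem jinv_prime_five : Prime (5 : ℤ) := by
  have := Nat.prime_iff_prime_int.mp Nat.prime_five
  simpa using this

/-- semistability at `5`, in the form used below -/
theorem jinv_aux (W : WeierstrassCurve ℤ) (hW : W.IsSemistableModel)
    (h5 : (5 : ℤ) ∣ W.c₄) (c : ℤ) (hc : ¬ (5 : ℤ) ∣ c) (h : (5 : ℤ) ∣ c * W.Δ) : False := by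
  have hΔ : (5 : ℤ) ∣ W.Δ := (jinv_prime_five.dvd_or_dvd h).resolve_left hc
  have := hW 5 Nat.prime_five (by simpa using hΔ)
  exact this (by simpa using h5)

/-- `5 ∣ d * c₄³` with `5 ∤ d` forces `5 ∣ c₄`. -/
theorem jinv_dvd_c4 (c₄ d : ℤ) (hd : ¬ (5 : ℤ) ∣ d) (h : (5 : ℤ) ∣ d * c₄ ^ 3) :
    (5 : ℤ) ∣ c₄ :=
  jinv_prime_five.dvd_of_dvd_pow ((jinv_prime_five.dvd_or_dvd h).resolve_left hd)

theorem semistable_j_ne (W : WeierstrassCurve ℤ) (hΔ : W.Δ ≠ 0) (hW : W.IsSemistableModel) :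
    2 * W.c₄ ^ 3 ≠ -25 * W.Δ ∧ 8 * W.c₄ ^ 3 ≠ -349938025 * W.Δ ∧
    32 * W.c₄ ^ 3 ≠ -121945 * W.Δ ∧ 32768 * W.c₄ ^ 3 ≠ 46969655 * W.Δ := by
  refine ⟨?_, ?_, ?_, ?_⟩
  · intro h
    have h5 : (5 : ℤ) ∣ W.c₄ :=
      jinv_dvd_c4 W.c₄ 2 (by norm_num) ⟨-5 * W.Δ, by rw [h]; ring⟩
    obtain ⟨k, hk⟩ := h5
    refine jinv_aux W hW ⟨k, hk⟩ 1 (by norm_num) ⟨-2 * k ^ 3, ?_⟩
    rw [hk] at h
    linarith
  · intro h
    have h5 : (5 : ℤ) ∣ W.c₄ :=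
      jinv_dvd_c4 W.c₄ 8 (by norm_num) ⟨-69987605 * W.Δ, by rw [h]; ring⟩
    obtain ⟨k, hk⟩ := h5
    refine jinv_aux W hW ⟨k, hk⟩ 13997521 (by norm_num) ⟨-8 * k ^ 3, ?_⟩
    rw [hk] at h
    linarith
  · intro h
    have h5 : (5 : ℤ) ∣ W.c₄ :=
      jinv_dvd_c4 W.c₄ 32 (by norm_num) ⟨-24389 * W.Δ, by rw [h]; ring⟩
    obtain ⟨k, hk⟩ := h5
    refine jinv_aux W hW ⟨k, hk⟩ 24389 (by norm_num) ⟨-160 * k ^ 3, ?_⟩
    rw [hk] at h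
    linarith
  · intro h
    have h5 : (5 : ℤ) ∣ W.c₄ :=
      jinv_dvd_c4 W.c₄ 32768 (by norm_num) ⟨9393931 * W.Δ, by rw [h]; ring⟩
    obtain ⟨k, hk⟩ := h5
    refine jinv_aux W hW ⟨k, hk⟩ 9393931 (by norm_num) ⟨163840 * k ^ 3, ?_⟩
    rw [hk] at h
    linarith

end Fermat.Agent.S51
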