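/-
Team S51, block T-abs (owner: helper66).  Abstract transport of irreducibility of the mod-`n`
Galois representation along a Galois-equivariant additive bijection of the groups of `Qbar`-points.

Math: an additive equivalence `e : E(Qbar) ≃+ E'(Qbar)` commuting with the Galois action restricts to
an additive equivalence of the `n`-torsion subgroups, which is automatically `ZMod n`-linear and
Galois-equivariant.  Nontriviality and Galois-stable submodules are transported along it.
No hypothesis on the discriminants is needed.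
-/
import Fermat.Agent.S51.Defs

set_option autoImplicit false

open scoped WeierstrassCurve.Affine

namespace Fermat.Agent.S51

section TransportAbs

variable {W W' : WeierstrassCurve ℚ}

/-- The restriction of an additive equivalence of point groups to the `n`-torsion subgroups. -/
noncomputable def tabsTorsionEquiv
    (e : (W⁄(AlgebraicClosure ℚ)).Point ≃+ (W'⁄(AlgebraicClosure ℚ)).Point) (n : ℕ) :
    Submodule.torsionBy ℤ (W⁄(AlgebraicClosure ℚ)).Point n ≃+
      Submodule.torsionBy ℤ (W'⁄(AlgebraicClosure ℚ)).Point n where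
  toFun x := ⟨e x.1, by
    have hx := x.2
    rw [Submodule.mem_torsionBy_iff] at hx ⊢
    rw [← map_zsmul, hx, map_zero]⟩
  invFun y := ⟨e.symm y.1, by
    have hy := y.2
    rw [Submodule.mem_torsionBy_iff] at hy ⊢
    rw [← map_zsmul, hy, map_zero]⟩
  left_inv x := Subtype.ext (e.symm_apply_apply x.1)
  right_inv y := Subtype.ext (e.apply_symm_apply y.1)
  map_add' x y := Subtype.ext (map_add e x.1 y.1)

@[simp] lemma tabsTorsionEquiv_coe
    (e : (W⁄(AlgebraicClosure ℚ)).Point ≃+ (W'⁄(AlgebraicClosure ℚ)).Point) (n : ℕ)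
    (x : Submodule.torsionBy ℤ (W⁄(AlgebraicClosure ℚ)).Point n) :
    ((tabsTorsionEquiv e n x : Submodule.torsionBy ℤ (W'⁄(AlgebraicClosure ℚ)).Point n) :
      (W'⁄(AlgebraicClosure ℚ)).Point) = e x.1 := rfl

/-- The restricted equivalence commutes with the Galois action on torsion points. -/
lemma tabsTorsionEquiv_smul
    (e : (W⁄(AlgebraicClosure ℚ)).Point ≃+ (W'⁄(AlgebraicClosure ℚ)).Point)
    (he : ∀ (σ : AlgebraicClosure ℚ ≃ₐ[ℚ] AlgebraicClosure ℚ)
      (P : (W⁄(AlgebraicClosure ℚ)).Point), e (σ • P) = σ • e P)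
    (n : ℕ) (σ : AlgebraicClosure ℚ ≃ₐ[ℚ] AlgebraicClosure ℚ)
    (x : Submodule.torsionBy ℤ (W⁄(AlgebraicClosure ℚ)).Point n) :
    tabsTorsionEquiv e n (σ • x) = σ • tabsTorsionEquiv e n x :=
  Subtype.ext (he σ x.1)

/-- The restricted equivalence as a `ZMod n`-linear equivalence. -/
noncomputable def tabsTorsionLinearEquiv
    (e : (W⁄(AlgebraicClosure ℚ)).Point ≃+ (W'⁄(AlgebraicClosure ℚ)).Point) (n : ℕ) :
    Submodule.torsionBy ℤ (W⁄(AlgebraicClosure ℚ)).Point n ≃ₗ[ZMod n]
      Submodule.torsionBy ℤ (W'⁄(AlgebraicClosure ℚ)).Point n :=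
  { tabsTorsionEquiv e n with
    map_smul' := fun c x => ZMod.map_smul (tabsTorsionEquiv e n).toAddMonoidHom c x }

@[simp] lemma tabsTorsionLinearEquiv_apply
    (e : (W⁄(AlgebraicClosure ℚ)).Point ≃+ (W'⁄(AlgebraicClosure ℚ)).Point) (n : ℕ)
    (x : Submodule.torsionBy ℤ (W⁄(AlgebraicClosure ℚ)).Point n) :
    tabsTorsionLinearEquiv e n x = tabsTorsionEquiv e n x := rfl

/-- **Abstract transport.**  A Galois-equivariant additive equivalence between the groups of
`Qbar`-points transports irreducibility of the mod-`n` representation. -/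
theorem irr_of_addEquiv (W W' : WeierstrassCurve ℚ)
    (e : (W⁄(AlgebraicClosure ℚ)).Point ≃+ (W'⁄(AlgebraicClosure ℚ)).Point)
    (he : ∀ (σ : AlgebraicClosure ℚ ≃ₐ[ℚ] AlgebraicClosure ℚ)
      (P : (W⁄(AlgebraicClosure ℚ)).Point), e (σ • P) = σ • e P)
    (n : ℕ) : Irr W' n → Irr W n := by
  rintro ⟨hnt, hirr⟩
  refine ⟨(tabsTorsionEquiv e n).symm.injective.nontrivial, fun N hN => ?_⟩
  have hstab : WeierstrassCurve.Affine.Point.IsGaloisStable ℚ
      (N.map (tabsTorsionLinearEquiv e n).toLinearMap) := by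
    rintro σ _ ⟨x, hx, rfl⟩
    refine ⟨σ • x, hN σ x hx, ?_⟩
    exact tabsTorsionEquiv_smul e he n σ x
  rcases hirr _ hstab with h | h
  · exact Or.inl (Submodule.map_eq_bot_iff.mp h)
  · exact Or.inr (Submodule.map_eq_top_iff.mp h)

/-- Variant of `irr_of_addEquiv` taking a bijective additive map. -/
theorem irr_of_addMonoidHom_bijective (W W' : WeierstrassCurve ℚ)
    (f : (W⁄(AlgebraicClosure ℚ)).Point →+ (W'⁄(AlgebraicClosure ℚ)).Point)
    (hf : Function.Bijective f)
    (he : ∀ (σ : AlgebraicClosure ℚ ≃ₐ[ℚ] AlgebraicClosure ℚ)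
      (P : (W⁄(AlgebraicClosure ℚ)).Point), f (σ • P) = σ • f P)
    (n : ℕ) : Irr W' n → Irr W n :=
  irr_of_addEquiv W W' (AddEquiv.ofBijective f hf) he n

end TransportAbs

end Fermat.Agent.S51
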