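/-
Team S51, block T (owner: helper4).  Transport of irreducibility to the short Weierstrass model.

Math: for `W` over `ℚ` put `A = -27 c₄`, `B = -54 c₆`.  The map on `Qbar`-points
  `(x, y) ↦ (36 x + 3 b₂, 108 (2 y + a₁ x + a₃))`, `0 ↦ 0`
is an additive bijection `(W⁄Qbar).Point ≃ ((shortW A B)⁄Qbar).Point` commuting with the Galois action
(slopes transform as `ℓ' = 6 ℓ + 3 a₁`).
-/
import Fermat.Agent.S51.Defs
import Fermat.Agent.S51.TransportAbs

set_option autoImplicit false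

open scoped WeierstrassCurve.Affine

namespace Fermat.Agent.S51

section General

variable {K : Type*} [Field K] [CharZero K]

/-- `V'` is the short model `y² = x³ - 27 c₄ x - 54 c₆` of `V`. -/
structure tr_IsShort (V V' : WeierstrassCurve K) : Prop where
  a₁ : V'.a₁ = 0
  a₂ : V'.a₂ = 0
  a₃ : V'.a₃ = 0
  a₄ : V'.a₄ = -27 * V.c₄
  a₆ : V'.a₆ = -54 * V.c₆

variable {V V' : WeierstrassCurve K}

/-- The `x`-coordinate map. -/
def tr_X (V : WeierstrassCurve K) (x : K) : K := 36 * x + 3 * V.b₂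

/-- The `y`-coordinate map. -/
def tr_Y (V : WeierstrassCurve K) (x y : K) : K := 108 * (2 * y + V.a₁ * x + V.a₃)

lemma tr_equation_iff (hV : tr_IsShort V V') (x y : K) :
    V'.toAffine.Equation (tr_X V x) (tr_Y V x y) ↔ V.toAffine.Equation x y := by
  rw [WeierstrassCurve.Affine.equation_iff', WeierstrassCurve.Affine.equation_iff',
    hV.a₁, hV.a₂, hV.a₃, hV.a₄, hV.a₆]
  have key : tr_Y V x y ^ 2 + 0 * tr_X V x * tr_Y V x y + 0 * tr_Y V x y -
      (tr_X V x ^ 3 + 0 * tr_X V x ^ 2 + -27 * V.c₄ * tr_X V x + -54 * V.c₆) =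
      46656 * (y ^ 2 + V.a₁ * x * y + V.a₃ * y - (x ^ 3 + V.a₂ * x ^ 2 + V.a₄ * x + V.a₆)) := by
    simp only [tr_X, tr_Y, WeierstrassCurve.c₄, WeierstrassCurve.c₆, WeierstrassCurve.b₂,
      WeierstrassCurve.b₄, WeierstrassCurve.b₆]
    ring
  rw [key]
  constructor
  · intro h
    rcases mul_eq_zero.mp h with h | h
    · exact absurd h (by norm_num)
    · exact h
  · intro h
    rw [h, mul_zero]

lemma tr_nonsingular_iff (hV : tr_IsShort V V') (x y : K) :
    V'.toAffine.Nonsingular (tr_X V x) (tr_Y V x y) ↔ V.toAffine.Nonsingular x y := by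
  rw [WeierstrassCurve.Affine.nonsingular_iff', WeierstrassCurve.Affine.nonsingular_iff',
    tr_equation_iff hV, hV.a₁, hV.a₂, hV.a₃, hV.a₄]
  refine and_congr_right fun _ => ?_
  have k1 : 0 * tr_Y V x y - (3 * tr_X V x ^ 2 + 2 * 0 * tr_X V x + -27 * V.c₄) =
      1296 * (V.a₁ * y - (3 * x ^ 2 + 2 * V.a₂ * x + V.a₄)) -
        648 * V.a₁ * (2 * y + V.a₁ * x + V.a₃) := by
    simp only [tr_X, tr_Y, WeierstrassCurve.c₄, WeierstrassCurve.b₂, WeierstrassCurve.b₄]
    ring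
  have k2 : 2 * tr_Y V x y + 0 * tr_X V x + 0 = 216 * (2 * y + V.a₁ * x + V.a₃) := by
    simp only [tr_Y]
    ring
  rw [k1, k2]
  by_cases hη : 2 * y + V.a₁ * x + V.a₃ = 0
  · rw [hη]
    simp
  · constructor
    · intro _
      exact Or.inr hη
    · intro _
      exact Or.inr (mul_ne_zero (by norm_num) hη)

lemma tr_X_injective (V : WeierstrassCurve K) {x x' : K} (h : tr_X V x = tr_X V x') : x = x' := by
  simp only [tr_X] at h
  have h36 : (36 : K) ≠ 0 := by norm_num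
  exact mul_left_cancel₀ h36 (add_right_cancel h)

lemma tr_Y_injective (V : WeierstrassCurve K) {x y y' : K} (h : tr_Y V x y = tr_Y V x y') :
    y = y' := by
  simp only [tr_Y] at h
  have h108 : (108 : K) ≠ 0 := by norm_num
  have h2 : (2 : K) ≠ 0 := by norm_num
  have := mul_left_cancel₀ h108 h
  have := add_right_cancel (add_right_cancel this)
  exact mul_left_cancel₀ h2 this

/-- The point map `(x, y) ↦ (36 x + 3 b₂, 108 (2 y + a₁ x + a₃))`. -/
def tr_fun (hV : tr_IsShort V V') : V.toAffine.Point → V'.toAffine.Point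
  | .zero => .zero
  | .some x y h => .some (tr_X V x) (tr_Y V x y) ((tr_nonsingular_iff hV x y).mpr h)

lemma tr_fun_zero (hV : tr_IsShort V V') : tr_fun hV (0 : V.toAffine.Point) = 0 := rfl

lemma tr_fun_some (hV : tr_IsShort V V') {x y : K} (h : V.toAffine.Nonsingular x y) :
    tr_fun hV (.some x y h) = .some (tr_X V x) (tr_Y V x y) ((tr_nonsingular_iff hV x y).mpr h) :=
  rfl

omit [CharZero K] in
lemma tr_some_congr {W : WeierstrassCurve K} {x x' y y' : K} (h : W.toAffine.Nonsingular x y)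
    (h' : W.toAffine.Nonsingular x' y') (hx : x = x') (hy : y = y') :
    (WeierstrassCurve.Affine.Point.some x y h : W.toAffine.Point) =
      WeierstrassCurve.Affine.Point.some x' y' h' := by
  subst hx hy
  rfl

lemma tr_fun_injective (hV : tr_IsShort V V') : Function.Injective (tr_fun hV) := by
  rintro (_ | ⟨x, y, h⟩) (_ | ⟨x', y', h'⟩) hPQ
  · rfl
  · exact absurd hPQ (by simp [tr_fun])
  · exact absurd hPQ (by simp [tr_fun])
  · simp only [tr_fun, WeierstrassCurve.Affine.Point.some.injEq] at hPQ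
    obtain ⟨hx, hy⟩ := hPQ
    have hx' := tr_X_injective V hx
    subst hx'
    have hy' := tr_Y_injective V hy
    subst hy'
    rfl

lemma tr_fun_surjective (hV : tr_IsShort V V') : Function.Surjective (tr_fun hV) := by
  rintro (_ | ⟨X, Y, h⟩)
  · exact ⟨.zero, rfl⟩
  · have hX : tr_X V ((X - 3 * V.b₂) / 36) = X := by
      simp only [tr_X]
      field_simp
      ring
    have hY : tr_Y V ((X - 3 * V.b₂) / 36)
        ((Y / 108 - V.a₁ * ((X - 3 * V.b₂) / 36) - V.a₃) / 2) = Y := by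
      simp only [tr_Y]
      field_simp
      ring
    have h' : V.toAffine.Nonsingular ((X - 3 * V.b₂) / 36)
        ((Y / 108 - V.a₁ * ((X - 3 * V.b₂) / 36) - V.a₃) / 2) := by
      rw [← tr_nonsingular_iff hV, hX, hY]
      exact h
    exact ⟨.some _ _ h', tr_some_congr _ _ hX hY⟩

variable [DecidableEq K]

omit [DecidableEq K] in
lemma tr_not_hxy (hV : tr_IsShort V V') {x₁ x₂ y₁ y₂ : K}
    (hxy : ¬(x₁ = x₂ ∧ y₁ = V.toAffine.negY x₂ y₂)) :
    ¬(tr_X V x₁ = tr_X V x₂ ∧ tr_Y V x₁ y₁ = V'.toAffine.negY (tr_X V x₂) (tr_Y V x₂ y₂)) := by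
  rintro ⟨hX, hY⟩
  have hx := tr_X_injective V hX
  subst hx
  apply hxy
  refine ⟨rfl, ?_⟩
  simp only [WeierstrassCurve.Affine.negY, hV.a₁, hV.a₃, tr_Y] at hY ⊢
  have h108 : (108 : K) ≠ 0 := by norm_num
  have h2 : (2 : K) ≠ 0 := by norm_num
  have h3 : 108 * (2 * y₁ + V.a₁ * x₁ + V.a₃) = 108 * (-(2 * y₂ + V.a₁ * x₁ + V.a₃)) := by
    rw [hY]; ring
  have h4 := mul_left_cancel₀ h108 h3
  have h5 : 2 * y₁ = 2 * (-y₂ - V.a₁ * x₁ - V.a₃) := by linear_combination h4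
  exact mul_left_cancel₀ h2 h5

lemma tr_slope (hV : tr_IsShort V V') {x₁ x₂ y₁ y₂ : K}
    (h₁ : V.toAffine.Equation x₁ y₁) (h₂ : V.toAffine.Equation x₂ y₂)
    (hxy : ¬(x₁ = x₂ ∧ y₁ = V.toAffine.negY x₂ y₂)) :
    V'.toAffine.slope (tr_X V x₁) (tr_X V x₂) (tr_Y V x₁ y₁) (tr_Y V x₂ y₂) =
      6 * V.toAffine.slope x₁ x₂ y₁ y₂ + 3 * V.a₁ := by
  have hxy' := tr_not_hxy hV hxy
  by_cases hx : x₁ = x₂
  · have hy : y₁ ≠ V.toAffine.negY x₂ y₂ := fun hy => hxy ⟨hx, hy⟩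
    have hX : tr_X V x₁ = tr_X V x₂ := by rw [hx]
    have hY : tr_Y V x₁ y₁ ≠ V'.toAffine.negY (tr_X V x₂) (tr_Y V x₂ y₂) := fun hY => hxy' ⟨hX, hY⟩
    have hyy : y₁ = y₂ := WeierstrassCurve.Affine.Y_eq_of_Y_ne h₁ h₂ hx hy
    subst hx hyy
    rw [WeierstrassCurve.Affine.slope_of_Y_ne rfl hy, WeierstrassCurve.Affine.slope_of_Y_ne rfl hY]
    simp only [WeierstrassCurve.Affine.negY, hV.a₁, hV.a₂, hV.a₃, hV.a₄] at hy hY ⊢
    have hη : 2 * y₁ + V.a₁ * x₁ + V.a₃ ≠ 0 := by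
      intro h0
      apply hy
      linear_combination h0
    have hden : y₁ - (-y₁ - V.a₁ * x₁ - V.a₃) ≠ 0 := by
      intro h0
      apply hη
      linear_combination h0
    have hden' : tr_Y V x₁ y₁ - (-tr_Y V x₁ y₁ - 0 * tr_X V x₁ - 0) ≠ 0 := by
      simp only [tr_Y]
      intro h0
      apply hη
      have h216 : (216 : K) ≠ 0 := by norm_num
      have : 216 * (2 * y₁ + V.a₁ * x₁ + V.a₃) = 216 * 0 := by linear_combination h0
      exact mul_left_cancel₀ h216 this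
    rw [div_eq_iff hden']
    obtain ⟨t, ht⟩ : ∃ t, t = (3 * x₁ ^ 2 + 2 * V.a₂ * x₁ + V.a₄ - V.a₁ * y₁) /
        (y₁ - (-y₁ - V.a₁ * x₁ - V.a₃)) := ⟨_, rfl⟩
    have ht' : t * (y₁ - (-y₁ - V.a₁ * x₁ - V.a₃)) =
        3 * x₁ ^ 2 + 2 * V.a₂ * x₁ + V.a₄ - V.a₁ * y₁ := by
      rw [ht, div_mul_cancel₀ _ hden]
    rw [← ht]
    simp only [tr_X, tr_Y, WeierstrassCurve.c₄, WeierstrassCurve.b₂, WeierstrassCurve.b₄]
    linear_combination (-1296 : K) * ht'
  · have hX : tr_X V x₁ ≠ tr_X V x₂ := fun hX => hx (tr_X_injective V hX)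
    rw [WeierstrassCurve.Affine.slope_of_X_ne hx, WeierstrassCurve.Affine.slope_of_X_ne hX]
    have hd : x₁ - x₂ ≠ 0 := sub_ne_zero.mpr hx
    have hD : tr_X V x₁ - tr_X V x₂ ≠ 0 := sub_ne_zero.mpr hX
    rw [div_eq_iff hD]
    simp only [tr_X, tr_Y]
    field_simp
    ring

lemma tr_fun_add (hV : tr_IsShort V V') (P Q : V.toAffine.Point) :
    tr_fun hV (P + Q) = tr_fun hV P + tr_fun hV Q := by
  rcases P with _ | ⟨x₁, y₁, h₁⟩
  · rfl
  rcases Q with _ | ⟨x₂, y₂, h₂⟩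
  · rfl
  by_cases hxy : x₁ = x₂ ∧ y₁ = V.toAffine.negY x₂ y₂
  · rw [WeierstrassCurve.Affine.Point.add_of_Y_eq hxy.1 hxy.2, tr_fun_some, tr_fun_some,
      WeierstrassCurve.Affine.Point.add_of_Y_eq (by rw [hxy.1])]
    · rfl
    · obtain ⟨hx, hy⟩ := hxy
      subst hx
      rw [hy]
      simp only [WeierstrassCurve.Affine.negY, hV.a₁, hV.a₃, tr_Y]
      ring
  · rw [WeierstrassCurve.Affine.Point.add_some hxy, tr_fun_some, tr_fun_some, tr_fun_some,
      WeierstrassCurve.Affine.Point.add_some (tr_not_hxy hV hxy)]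
    have hs := tr_slope hV h₁.1 h₂.1 hxy
    apply tr_some_congr
    · rw [hs]
      simp only [WeierstrassCurve.Affine.addX, hV.a₁, hV.a₂, tr_X, WeierstrassCurve.b₂]
      ring
    · rw [hs]
      simp only [WeierstrassCurve.Affine.addY, WeierstrassCurve.Affine.negAddY,
        WeierstrassCurve.Affine.addX, WeierstrassCurve.Affine.negY, hV.a₁, hV.a₂, hV.a₃, tr_X,
        tr_Y, WeierstrassCurve.b₂]
      ring

/-- The additive equivalence on points induced by passing to the short model. -/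
noncomputable def tr_addEquiv (hV : tr_IsShort V V') : V.toAffine.Point ≃+ V'.toAffine.Point :=
  AddEquiv.ofBijective
    (AddMonoidHom.mk' (tr_fun hV) (tr_fun_add hV) : V.toAffine.Point →+ V'.toAffine.Point)
    ⟨tr_fun_injective hV, tr_fun_surjective hV⟩

lemma tr_addEquiv_apply (hV : tr_IsShort V V') (P : V.toAffine.Point) :
    tr_addEquiv hV P = tr_fun hV P := rfl

end General

section Rat

open WeierstrassCurve.Affine.Point

lemma tr_isShort_rat (W : WeierstrassCurve ℚ) :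
    tr_IsShort (W⁄(AlgebraicClosure ℚ))
      ((shortW (-27 * W.c₄) (-54 * W.c₆))⁄(AlgebraicClosure ℚ)) where
  a₁ := by simp [shortW]
  a₂ := by simp [shortW]
  a₃ := by simp [shortW]
  a₄ := by
    have h : (W⁄(AlgebraicClosure ℚ)).c₄ = algebraMap ℚ (AlgebraicClosure ℚ) W.c₄ :=
      WeierstrassCurve.map_c₄ W _
    rw [h]
    simp [shortW]
  a₆ := by
    have h : (W⁄(AlgebraicClosure ℚ)).c₆ = algebraMap ℚ (AlgebraicClosure ℚ) W.c₆ :=
      WeierstrassCurve.map_c₆ W _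
    rw [h]
    simp [shortW]

lemma tr_equivariant (W : WeierstrassCurve ℚ)
    (σ : AlgebraicClosure ℚ ≃ₐ[ℚ] AlgebraicClosure ℚ)
    (P : (W⁄(AlgebraicClosure ℚ)).Point) :
    tr_addEquiv (tr_isShort_rat W) (σ • P) = σ • tr_addEquiv (tr_isShort_rat W) P := by
  rw [tr_addEquiv_apply, tr_addEquiv_apply, algEquiv_smul_def, algEquiv_smul_def]
  rcases P with _ | ⟨x, y, h⟩
  · rfl
  · rw [tr_fun_some]
    erw [WeierstrassCurve.Affine.Point.map_some, WeierstrassCurve.Affine.Point.map_some]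
    rw [tr_fun_some]
    apply tr_some_congr
    · have hb : (W⁄(AlgebraicClosure ℚ)).b₂ = algebraMap ℚ (AlgebraicClosure ℚ) W.b₂ :=
        WeierstrassCurve.map_b₂ W _
      simp only [tr_X, hb, map_add, map_mul, map_ofNat, AlgEquiv.coe_toAlgHom,
        AlgEquiv.commutes]
    · have ha₁ : (W⁄(AlgebraicClosure ℚ)).a₁ = algebraMap ℚ (AlgebraicClosure ℚ) W.a₁ := rfl
      have ha₃ : (W⁄(AlgebraicClosure ℚ)).a₃ = algebraMap ℚ (AlgebraicClosure ℚ) W.a₃ := rfl
      simp only [tr_Y, ha₁, ha₃, map_add, map_mul, map_ofNat, AlgEquiv.coe_toAlgHom,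
        AlgEquiv.commutes]

theorem irr_of_irr_short (W : WeierstrassCurve ℚ) (n : ℕ)
    (h : Irr (shortW (-27 * W.c₄) (-54 * W.c₆)) n) : Irr W n :=
  irr_of_addEquiv W (shortW (-27 * W.c₄) (-54 * W.c₆)) (tr_addEquiv (tr_isShort_rat W))
    (tr_equivariant W) n h

end Rat

end Fermat.Agent.S51
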