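/-
Team S51, block E5-card (owner: helper35).  `#E[5] ≤ 25` for `y² = x³ + A x + B` over Qbar.

Math: `P ≠ 0`, `5P = 0`  ⟹  `y(P) ≠ 0`, `y(2P) ≠ 0`, `x(4P) = x(P)`, so `x(P)` is a root of an explicit
polynomial of degree 16 (leading coefficient `-15`); at most two points per `x`-coordinate, so
`#E[5] ≤ 33`; `E[5]` is a `ZMod 5`-module, so its cardinality is a power of 5, hence `≤ 25`.
-/
import Fermat.Agent.S51.Defs

set_option autoImplicit false

open WeierstrassCurve WeierstrassCurve.Affine Polynomial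

namespace Fermat.Agent.S51

section e5c

variable {F : Type*} [Field F] [DecidableEq F] {W : Affine F}

omit [DecidableEq F] in
/-- transport of a point along an equality of `x`-coordinates -/
theorem e5c_some_congr {x₁ x₂ y : F} (h : W.Nonsingular x₁ y) (hx : x₁ = x₂) :
    ∃ h' : W.Nonsingular x₂ y, Point.some x₁ y h = Point.some x₂ y h' := by
  subst hx
  exact ⟨h, rfl⟩

theorem e5c_two_nsmul_of_y_eq_zero (h1 : W.a₁ = 0) (h3 : W.a₃ = 0) {x y : F}
    (h : W.Nonsingular x y) (hy : y = 0) : (2 : ℕ) • (Point.some x y h) = 0 := by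
  rw [two_nsmul]
  apply Point.add_self_of_Y_eq
  simp [negY, h1, h3, hy]

omit [DecidableEq F] in
theorem e5c_eqn (h1 : W.a₁ = 0) (h2 : W.a₂ = 0) (h3 : W.a₃ = 0) {x y : F}
    (h : W.Nonsingular x y) : y ^ 2 = x ^ 3 + W.a₄ * x + W.a₆ := by
  have := (equation_iff x y).mp h.1
  simpa [h1, h2, h3] using this

theorem e5c_two_nsmul_of_y_ne_zero [CharZero F] (h1 : W.a₁ = 0) (h2 : W.a₂ = 0) (h3 : W.a₃ = 0)
    {x y : F} (h : W.Nonsingular x y) (hy : y ≠ 0) :
    ∃ (y' : F) (h' : W.Nonsingular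
        ((x ^ 4 - 2 * W.a₄ * x ^ 2 - 8 * W.a₆ * x + W.a₄ ^ 2) / (4 * (x ^ 3 + W.a₄ * x + W.a₆))) y'),
      (2 : ℕ) • (Point.some x y h) = Point.some _ y' h' := by
  have heq := e5c_eqn h1 h2 h3 h
  have hne : y ≠ W.negY x y := by
    simp only [negY, h1, h3, zero_mul, sub_zero]
    intro hcon
    have : (2 : F) * y = 0 := by linear_combination hcon
    rcases mul_eq_zero.mp this with h2' | h2'
    · exact two_ne_zero h2'
    · exact hy h2'
  rw [two_nsmul, Point.add_self_of_Y_ne hne]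
  have hx : W.addX x x (W.slope x x y y) =
      (x ^ 4 - 2 * W.a₄ * x ^ 2 - 8 * W.a₆ * x + W.a₄ ^ 2) / (4 * (x ^ 3 + W.a₄ * x + W.a₆)) := by
    rw [slope_of_Y_ne rfl hne]
    simp only [addX, negY, h1, h2, h3, zero_mul, sub_zero, mul_zero, add_zero]
    rw [← heq]
    field_simp
    linear_combination (-32 * x) * heq
  obtain ⟨h', he⟩ := e5c_some_congr (nonsingular_add h h fun hxy => hne hxy.right) hx
  exact ⟨_, h', he⟩

/-- the degree-16 polynomial vanishing at the `x`-coordinates of nonzero 5-torsion points -/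
noncomputable def e5cPoly (a b : F) : F[X] :=
  (X ^ 4 - C (2 * a) * X ^ 2 - C (8 * b) * X + C (a ^ 2)) ^ 4
    - C (32 * a) * (X ^ 4 - C (2 * a) * X ^ 2 - C (8 * b) * X + C (a ^ 2)) ^ 2
        * (X ^ 3 + C a * X + C b) ^ 2
    - C (512 * b) * (X ^ 4 - C (2 * a) * X ^ 2 - C (8 * b) * X + C (a ^ 2))
        * (X ^ 3 + C a * X + C b) ^ 3
    + C (256 * a ^ 2) * (X ^ 3 + C a * X + C b) ^ 4
    - C 16 * X * (X ^ 4 - C (2 * a) * X ^ 2 - C (8 * b) * X + C (a ^ 2)) ^ 3
        * (X ^ 3 + C a * X + C b)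
    - C (256 * a) * X * (X ^ 4 - C (2 * a) * X ^ 2 - C (8 * b) * X + C (a ^ 2))
        * (X ^ 3 + C a * X + C b) ^ 3
    - C (1024 * b) * X * (X ^ 3 + C a * X + C b) ^ 4

omit [DecidableEq F] in
theorem e5cPoly_natDegree_le (a b : F) : (e5cPoly a b).natDegree ≤ 16 := by
  unfold e5cPoly
  compute_degree!

omit [DecidableEq F] in
theorem e5cPoly_coeff [CharZero F] (a b : F) : (e5cPoly a b).coeff 16 = -15 := by
  unfold e5cPoly
  compute_degree!

omit [DecidableEq F] in
theorem e5cPoly_ne_zero [CharZero F] (a b : F) : e5cPoly a b ≠ 0 := by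
  intro h
  have := e5cPoly_coeff a b
  rw [h, coeff_zero] at this
  norm_num at this

omit [DecidableEq F] in
theorem e5cPoly_eval (a b x : F) : (e5cPoly a b).eval x =
    (x ^ 4 - 2 * a * x ^ 2 - 8 * b * x + a ^ 2) ^ 4
    - 32 * a * (x ^ 4 - 2 * a * x ^ 2 - 8 * b * x + a ^ 2) ^ 2 * (x ^ 3 + a * x + b) ^ 2
    - 512 * b * (x ^ 4 - 2 * a * x ^ 2 - 8 * b * x + a ^ 2) * (x ^ 3 + a * x + b) ^ 3
    + 256 * a ^ 2 * (x ^ 3 + a * x + b) ^ 4
    - 16 * x * (x ^ 4 - 2 * a * x ^ 2 - 8 * b * x + a ^ 2) ^ 3 * (x ^ 3 + a * x + b)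
    - 256 * a * x * (x ^ 4 - 2 * a * x ^ 2 - 8 * b * x + a ^ 2) * (x ^ 3 + a * x + b) ^ 3
    - 1024 * b * x * (x ^ 3 + a * x + b) ^ 4 := by
  unfold e5cPoly
  simp only [eval_sub, eval_add, eval_mul, eval_pow, eval_X, eval_C]

omit [DecidableEq F] in
/-- pure algebra: `x₂ = D(x)` and `x = D(x₂)` force `e5cPoly(x) = 0` -/
theorem e5c_algebra {a b x x₂ : F} (h4 : (4 : F) ≠ 0) (hf : x ^ 3 + a * x + b ≠ 0)
    (hx₂ : x₂ = (x ^ 4 - 2 * a * x ^ 2 - 8 * b * x + a ^ 2) / (4 * (x ^ 3 + a * x + b)))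
    (hf₂ : x₂ ^ 3 + a * x₂ + b ≠ 0)
    (hx : x = (x₂ ^ 4 - 2 * a * x₂ ^ 2 - 8 * b * x₂ + a ^ 2) / (4 * (x₂ ^ 3 + a * x₂ + b))) :
    (e5cPoly a b).eval x = 0 := by
  have hg : (4 : F) * (x ^ 3 + a * x + b) ≠ 0 := mul_ne_zero h4 hf
  have hg₂ : (4 : F) * (x₂ ^ 3 + a * x₂ + b) ≠ 0 := mul_ne_zero h4 hf₂
  have hN : x₂ * (4 * (x ^ 3 + a * x + b)) = x ^ 4 - 2 * a * x ^ 2 - 8 * b * x + a ^ 2 := by
    rw [hx₂, div_mul_cancel₀ _ hg]
  have hK : x * (4 * (x₂ ^ 3 + a * x₂ + b)) = x₂ ^ 4 - 2 * a * x₂ ^ 2 - 8 * b * x₂ + a ^ 2 :=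
    (eq_div_iff hg₂).mp hx
  rw [e5cPoly_eval, ← hN]
  linear_combination (-(4 * (x ^ 3 + a * x + b)) ^ 4) * hK

/-- the `x`-coordinate of a nonzero point killed by `5` is a root of `e5cPoly` -/
theorem e5c_isRoot [CharZero F] (h1 : W.a₁ = 0) (h2 : W.a₂ = 0) (h3 : W.a₃ = 0)
    {x y : F} (h : W.Nonsingular x y) (h5 : (5 : ℕ) • (Point.some x y h) = 0) :
    (e5cPoly W.a₄ W.a₆).eval x = 0 := by
  have hP0 : Point.some x y h ≠ 0 := Point.some_ne_zero h
  have hy : y ≠ 0 := by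
    intro hy
    have h2P := e5c_two_nsmul_of_y_eq_zero h1 h3 h hy
    apply hP0
    have : (5 : ℕ) • (Point.some x y h) = (2 : ℕ) • ((2 : ℕ) • (Point.some x y h)) + Point.some x y h := by
      rw [← mul_nsmul, ← succ_nsmul]
    rw [this, h2P, smul_zero, zero_add] at h5
    exact h5
  obtain ⟨y₂, h₂, h2P⟩ := e5c_two_nsmul_of_y_ne_zero h1 h2 h3 h hy
  have h45 : (5 : ℕ) • (Point.some x y h) = (2 : ℕ) • ((2 : ℕ) • (Point.some x y h)) + Point.some x y h := by
    rw [← mul_nsmul, ← succ_nsmul]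
  have hy₂ : y₂ ≠ 0 := by
    intro hy₂
    have h4P := e5c_two_nsmul_of_y_eq_zero h1 h3 h₂ hy₂
    apply hP0
    rw [h45, h2P, h4P, zero_add] at h5
    exact h5
  obtain ⟨y₄, h₄, h4P⟩ := e5c_two_nsmul_of_y_ne_zero h1 h2 h3 h₂ hy₂
  rw [h45, h2P, h4P] at h5
  have hneg : Point.some _ y₄ h₄ = -Point.some x y h := eq_neg_of_add_eq_zero_left h5
  rw [Point.neg_some] at hneg
  have hx4 := (Point.some.injEq _ _ _ _ _ _).mp hneg |>.1
  have hfx : x ^ 3 + W.a₄ * x + W.a₆ ≠ 0 := by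
    rw [← e5c_eqn h1 h2 h3 h]; exact pow_ne_zero 2 hy
  have hfx₂ : ((x ^ 4 - 2 * W.a₄ * x ^ 2 - 8 * W.a₆ * x + W.a₄ ^ 2) / (4 * (x ^ 3 + W.a₄ * x + W.a₆))) ^ 3
      + W.a₄ * ((x ^ 4 - 2 * W.a₄ * x ^ 2 - 8 * W.a₆ * x + W.a₄ ^ 2) / (4 * (x ^ 3 + W.a₄ * x + W.a₆)))
      + W.a₆ ≠ 0 := by
    rw [← e5c_eqn h1 h2 h3 h₂]; exact pow_ne_zero 2 hy₂
  have h4 : (4 : F) ≠ 0 := by norm_num
  exact e5c_algebra h4 hfx rfl hfx₂ hx4.symm

/-- coding of a point by its `x`-coordinate and the choice of square root -/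
def e5cCode (s : F → F) : W.Point → Option (F × Bool)
  | .zero => none
  | .some x y _ => some (x, decide (y = s x))

theorem e5cCode_injective (h1 : W.a₁ = 0) (h2 : W.a₂ = 0) (h3 : W.a₃ = 0) [CharZero F]
    (s : F → F) (hs : ∀ x : F, s x ^ 2 = x ^ 3 + W.a₄ * x + W.a₆) :
    Function.Injective (e5cCode (W := W) s) := by
  intro P Q hPQ
  cases P with
  | zero =>
    cases Q with
    | zero => rfl
    | some x y h => simp [e5cCode] at hPQ
  | some x y h =>
    cases Q with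
    | zero => simp [e5cCode] at hPQ
    | some x' y' h' =>
      simp only [e5cCode, Option.some.injEq, Prod.mk.injEq] at hPQ
      obtain ⟨hx, hd⟩ := hPQ
      subst hx
      have e := e5c_eqn h1 h2 h3 h
      have e' := e5c_eqn h1 h2 h3 h'
      have hsx := hs x
      have hyy : y = y' := by
        by_cases hy : y = s x
        · have hy' : y' = s x := by
            by_contra hcon
            rw [decide_eq_true hy, decide_eq_false hcon] at hd
            exact absurd hd (by decide)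
          rw [hy, hy']
        · have hy' : ¬ y' = s x := by
            intro hcon
            rw [decide_eq_false hy, decide_eq_true hcon] at hd
            exact absurd hd (by decide)
          have h1' : (y - s x) * (y + s x) = 0 := by linear_combination e - hsx
          have h2' : (y' - s x) * (y' + s x) = 0 := by linear_combination e' - hsx
          have h3' : y + s x = 0 := by
            rcases mul_eq_zero.mp h1' with h | h
            · exact absurd (sub_eq_zero.mp h) hy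
            · exact h
          have h4' : y' + s x = 0 := by
            rcases mul_eq_zero.mp h2' with h | h
            · exact absurd (sub_eq_zero.mp h) hy'
            · exact h
          linear_combination h3' - h4'
      subst hyy
      rfl

theorem e5c_card_le [CharZero F] [IsAlgClosed F] (h1 : W.a₁ = 0) (h2 : W.a₂ = 0) (h3 : W.a₃ = 0) :
    Finite (Submodule.torsionBy ℤ W.Point (5 : ℕ)) ∧
      Nat.card (Submodule.torsionBy ℤ W.Point (5 : ℕ)) ≤ 25 := by
  classical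
  have hsq : ∀ x : F, ∃ z : F, z ^ 2 = x ^ 3 + W.a₄ * x + W.a₆ := fun x =>
    IsAlgClosed.exists_pow_nat_eq _ (by norm_num)
  choose s hs using hsq
  have hinj := e5cCode_injective (W := W) h1 h2 h3 s hs
  set S : Finset F := (e5cPoly W.a₄ W.a₆).roots.toFinset with hS
  have hScard : S.card ≤ 16 :=
    (Multiset.toFinset_card_le _).trans
      ((Polynomial.card_roots' _).trans (e5cPoly_natDegree_le _ _))
  set T : Finset (Option (F × Bool)) := Finset.insertNone (S ×ˢ (Finset.univ : Finset Bool)) with hT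
  have hTcard : T.card ≤ 33 := by
    rw [hT, Finset.card_insertNone, Finset.card_product, Finset.card_univ, Fintype.card_bool]
    omega
  have hmem : ∀ P : Submodule.torsionBy ℤ W.Point (5 : ℕ), e5cCode s (P : W.Point) ∈ T := by
    rintro ⟨P, hP⟩
    have hP5 : (5 : ℕ) • P = 0 := by
      have := (Submodule.mem_torsionBy_iff _ _).mp hP
      rwa [Nat.cast_smul_eq_nsmul] at this
    cases P with
    | zero => simp [e5cCode, hT]
    | some x y h =>
      have hroot := e5c_isRoot h1 h2 h3 h hP5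
      simp only [e5cCode, hT, Finset.mem_insertNone, Option.mem_def, Option.some.injEq]
      intro a ha
      subst ha
      simp only [Finset.mem_product, Finset.mem_univ, and_true, hS, Multiset.mem_toFinset]
      exact (Polynomial.mem_roots (e5cPoly_ne_zero _ _)).mpr hroot
  let φ : Submodule.torsionBy ℤ W.Point (5 : ℕ) → T := fun P => ⟨e5cCode s (P : W.Point), hmem P⟩
  have hφ : Function.Injective φ := by
    intro P Q hPQ
    have : e5cCode s (P : W.Point) = e5cCode s (Q : W.Point) := congrArg Subtype.val hPQ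
    exact Subtype.ext (hinj this)
  have hfin : Finite (Submodule.torsionBy ℤ W.Point (5 : ℕ)) := Finite.of_injective φ hφ
  refine ⟨hfin, ?_⟩
  have hle33 : Nat.card (Submodule.torsionBy ℤ W.Point (5 : ℕ)) ≤ 33 := by
    have := Nat.card_le_card_of_injective φ hφ
    have hTc : Nat.card ↥T = T.card :=
      (Nat.card_eq_fintype_card (α := ↥T)).trans (Fintype.card_coe T)
    rw [hTc] at this
    exact this.trans hTcard
  -- `ZMod 5`-module structure: the cardinality is a power of `5`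
  have : Fact (Nat.Prime 5) := ⟨by norm_num⟩
  let : Module (ZMod 5) (Submodule.torsionBy ℤ W.Point (5 : ℕ)) :=
    AddCommGroup.zmodModule (by
      intro x
      rw [← Nat.cast_smul_eq_nsmul ℤ 5 x]
      exact Submodule.smul_torsionBy _ x)
  have hpow := Module.natCard_eq_pow_finrank (K := ZMod 5) (V := Submodule.torsionBy ℤ W.Point (5 : ℕ))
  rw [Nat.card_zmod] at hpow
  rw [hpow] at hle33 ⊢
  have hk : Module.finrank (ZMod 5) (Submodule.torsionBy ℤ W.Point (5 : ℕ)) ≤ 2 := by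
    by_contra hcon
    have h3le : 3 ≤ Module.finrank (ZMod 5) (Submodule.torsionBy ℤ W.Point (5 : ℕ)) := by omega
    have : 5 ^ 3 ≤ 5 ^ Module.finrank (ZMod 5) (Submodule.torsionBy ℤ W.Point (5 : ℕ)) :=
      Nat.pow_le_pow_right (by norm_num) h3le
    omega
  calc 5 ^ Module.finrank (ZMod 5) (Submodule.torsionBy ℤ W.Point (5 : ℕ)) ≤ 5 ^ 2 :=
        Nat.pow_le_pow_right (by norm_num) hk
    _ = 25 := by norm_num

end e5c

/-- `#E[5] ≤ 25` for a short Weierstrass curve over `Qbar` -/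
theorem five_torsion_card_le (A B : ℚ) (hΔ : 4 * A ^ 3 + 27 * B ^ 2 ≠ 0) :
    Finite (Submodule.torsionBy ℤ ((shortW A B)⁄(AlgebraicClosure ℚ)).Point (5 : ℕ)) ∧
    Nat.card (Submodule.torsionBy ℤ ((shortW A B)⁄(AlgebraicClosure ℚ)).Point (5 : ℕ)) ≤ 25 := by
  have _ := hΔ
  exact e5c_card_le (W := (shortW A B)⁄(AlgebraicClosure ℚ)) (by simp [shortW]) (by simp [shortW])
    (by simp [shortW])

end Fermat.Agent.S51
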