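/-
Team S51, block E5a (owner: helper86).  Existence of a point of exact order 5 on `y² = x³ + A x + B` over an
algebraically closed field of characteristic zero (in particular Qbar).

Math: with `f = x³+ax+b`, `ψ₃ = 3x⁴+6ax²+12bx-a²`, `g₄ = x⁶+5ax⁴+20bx³-5a²x²-4abx-8b²-a³`
(so `ψ₄ = 4 y g₄`), `ψ₅ = 32 g₄ f² - ψ₃³` (degree 12, leading coefficient 5).
Take a root `x` of `ψ₅` and `y² = f(x)`.  Then `y ≠ 0`, `y(2P) = g₄(x)/(8y³) ≠ 0`,
`x(4P) - x(P) = -ψ₃ψ₅/(16 y² g₄²) = 0`, so `4P = ±P`, and `4P = P` is excluded, hence `5P = 0`, `P ≠ 0`.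

Exports (general field `K`, pure algebra, prefix `e5p_`):
* `e5p_dbl_x : 4 * y^2 * e5p_dblX a x y = x^4 - 2*a*x^2 - 8*b*x + a^2`
* `e5p_dbl_y : 8 * y^3 * e5p_dblY a x y = e5p_g4 a b x`
* `e5p_quad_x : (x(4P) - x) * (16 * y^2 * g₄^2) = -(ψ₃ * ψ₅)`
* `e5p_exists_five_torsion`, `five_torsion_nontrivial`.
(`five_torsion_card_le` lives in `E5Card.lean`, owner helper35.)
-/
import Fermat.Agent.S51.Dbl

set_option autoImplicit false

open WeierstrassCurve WeierstrassCurve.Affine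

namespace Fermat.Agent.S51

section algebra
variable {K : Type*} [Field K]

/-- `f(x) = x³ + a x + b`. -/
def e5p_f (a b x : K) : K := x ^ 3 + a * x + b

/-- The 3-division polynomial. -/
def e5p_psi3 (a b x : K) : K := 3 * x ^ 4 + 6 * a * x ^ 2 + 12 * b * x - a ^ 2

/-- `ψ₄ = 4 y g₄`. -/
def e5p_g4 (a b x : K) : K :=
  x ^ 6 + 5 * a * x ^ 4 + 20 * b * x ^ 3 - 5 * a ^ 2 * x ^ 2 - 4 * a * b * x - 8 * b ^ 2 - a ^ 3

/-- The 5-division polynomial. -/
def e5p_psi5 (a b x : K) : K := 32 * e5p_g4 a b x * e5p_f a b x ^ 2 - e5p_psi3 a b x ^ 3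

/-- `x`-coordinate of `2 (x, y)`. -/
def e5p_dblX (a x y : K) : K := ((3 * x ^ 2 + a) / (2 * y)) ^ 2 - 2 * x

/-- `y`-coordinate of `2 (x, y)`. -/
def e5p_dblY (a x y : K) : K := -y - (3 * x ^ 2 + a) / (2 * y) * (e5p_dblX a x y - x)

lemma e5p_dbl_x (a b x y : K) (h2 : (2 : K) ≠ 0) (hy : y ≠ 0) (hE : y ^ 2 = x ^ 3 + a * x + b) :
    4 * y ^ 2 * e5p_dblX a x y = x ^ 4 - 2 * a * x ^ 2 - 8 * b * x + a ^ 2 := by
  have hb : b = y ^ 2 - x ^ 3 - a * x := by linear_combination -hE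
  subst hb
  unfold e5p_dblX
  field_simp
  ring

lemma e5p_dbl_y (a b x y : K) (h2 : (2 : K) ≠ 0) (hy : y ≠ 0) (hE : y ^ 2 = x ^ 3 + a * x + b) :
    8 * y ^ 3 * e5p_dblY a x y = e5p_g4 a b x := by
  have hb : b = y ^ 2 - x ^ 3 - a * x := by linear_combination -hE
  subst hb
  unfold e5p_dblY e5p_dblX e5p_g4
  field_simp
  ring

lemma e5p_quad_x_aux (x y m G : K) (h2 : (2 : K) ≠ 0) (hy : y ≠ 0)
    (hGdef : G = -8 * y ^ 4 + 12 * x * m * y ^ 2 - m ^ 3) (hg : G ≠ 0) :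
    (((3 * ((m ^ 2 - 8 * x * y ^ 2) / (4 * y ^ 2)) ^ 2 + (m - 3 * x ^ 2)) /
        (2 * (G / (8 * y ^ 3)))) ^ 2 -
        2 * ((m ^ 2 - 8 * x * y ^ 2) / (4 * y ^ 2)) - x) *
      (16 * y ^ 2 * G ^ 2) =
      -((12 * x * y ^ 2 - m ^ 2) *
        (32 * G * (y ^ 2) ^ 2 - (12 * x * y ^ 2 - m ^ 2) ^ 3)) := by
  have h4 : (4 : K) ≠ 0 := by
    have : (4 : K) = 2 * 2 := by norm_num
    rw [this]; exact mul_ne_zero h2 h2
  have h8 : (8 : K) ≠ 0 := by
    have : (8 : K) = 2 * 4 := by norm_num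
    rw [this]; exact mul_ne_zero h2 h4
  field_simp
  subst hGdef
  ring

/-- `x(4P) - x(P) = -ψ₃ ψ₅ / ψ₄²`, cleared of denominators. -/
lemma e5p_quad_x (a b x y : K) (h2 : (2 : K) ≠ 0) (hy : y ≠ 0) (hE : y ^ 2 = x ^ 3 + a * x + b)
    (hg : e5p_g4 a b x ≠ 0) :
    (e5p_dblX a (e5p_dblX a x y) (e5p_dblY a x y) - x) * (16 * y ^ 2 * e5p_g4 a b x ^ 2) =
      -(e5p_psi3 a b x * e5p_psi5 a b x) := by
  have h4 : (4 : K) ≠ 0 := by
    have : (4 : K) = 2 * 2 := by norm_num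
    rw [this]; exact mul_ne_zero h2 h2
  have h8 : (8 : K) ≠ 0 := by
    have : (8 : K) = 2 * 4 := by norm_num
    rw [this]; exact mul_ne_zero h2 h4
  have hb : b = y ^ 2 - x ^ 3 - a * x := by linear_combination -hE
  have hN : x ^ 4 - 2 * a * x ^ 2 - 8 * b * x + a ^ 2 = (3 * x ^ 2 + a) ^ 2 - 8 * x * y ^ 2 := by
    rw [hb]; ring
  have hG : e5p_g4 a b x = -8 * y ^ 4 + 12 * x * (3 * x ^ 2 + a) * y ^ 2 - (3 * x ^ 2 + a) ^ 3 := by
    rw [hb]; unfold e5p_g4; ring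
  have hx2 : e5p_dblX a x y = ((3 * x ^ 2 + a) ^ 2 - 8 * x * y ^ 2) / (4 * y ^ 2) := by
    rw [eq_div_iff (mul_ne_zero h4 (pow_ne_zero _ hy)), ← hN, ← e5p_dbl_x a b x y h2 hy hE]; ring
  have hy2 : e5p_dblY a x y = e5p_g4 a b x / (8 * y ^ 3) := by
    rw [eq_div_iff (mul_ne_zero h8 (pow_ne_zero _ hy)), ← e5p_dbl_y a b x y h2 hy hE]; ring
  have hP3 : e5p_psi3 a b x = 12 * x * y ^ 2 - (3 * x ^ 2 + a) ^ 2 := by
    rw [hb]; unfold e5p_psi3; ring
  have hF : e5p_f a b x = y ^ 2 := by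
    unfold e5p_f; rw [hE]
  rw [hy2, hx2]
  unfold e5p_psi5
  rw [hP3, hF]
  have key := e5p_quad_x_aux x y (3 * x ^ 2 + a) (e5p_g4 a b x) h2 hy hG hg
  unfold e5p_dblX
  rw [← key]
  have ha : (3 * x ^ 2 + a) - 3 * x ^ 2 = a := by ring
  rw [ha]

/-- `ψ₃ = 12 x f - f'²`. -/
lemma e5p_psi3_eq (a b x : K) :
    e5p_psi3 a b x = 12 * x * e5p_f a b x - (3 * x ^ 2 + a) ^ 2 := by
  unfold e5p_psi3 e5p_f; ring

/-- Bezout identity for `f` and `f'`. -/
lemma e5p_disc_eq (a b x : K) :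
    4 * a ^ 3 + 27 * b ^ 2 =
      4 * a ^ 2 * (3 * x ^ 2 + a) -
        (6 * a * x - 9 * b) * (3 * e5p_f a b x - x * (3 * x ^ 2 + a)) := by
  unfold e5p_f; ring

open Polynomial in
/-- `ψ₅` has a root in an algebraically closed field of characteristic zero. -/
lemma e5p_exists_root [IsAlgClosed K] [CharZero K] (a b : K) : ∃ x : K, e5p_psi5 a b x = 0 := by
  set P : K[X] := 32 * (X ^ 6 + 5 * C a * X ^ 4 + 20 * C b * X ^ 3 - 5 * C a ^ 2 * X ^ 2
      - 4 * C a * C b * X - 8 * C b ^ 2 - C a ^ 3) * (X ^ 3 + C a * X + C b) ^ 2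
      - (3 * X ^ 4 + 6 * C a * X ^ 2 + 12 * C b * X - C a ^ 2) ^ 3 with hP
  have hdeg : P.natDegree = 12 := by
    rw [hP]
    compute_degree!
  have hdeg' : P.degree ≠ 0 := by
    have hpos : 0 < P.degree := natDegree_pos_iff_degree_pos.mp (by omega)
    exact hpos.ne'
  obtain ⟨x, hx⟩ := IsAlgClosed.exists_root P hdeg'
  refine ⟨x, ?_⟩
  have hx' : P.eval x = 0 := hx
  rw [hP] at hx'
  simp only [eval_sub, eval_mul, eval_pow, eval_add, eval_X, eval_C, eval_ofNat] at hx'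
  unfold e5p_psi5 e5p_g4 e5p_f e5p_psi3
  linear_combination hx'

end algebra

section points
variable {K : Type*} [Field K] [Algebra ℚ K] [DecidableEq K]

/-- `dbl_add_self` stated with `e5p_dblX`, `e5p_dblY`. -/
lemma e5p_add_self (A B : ℚ) {x y : K} (h : ((shortW A B)⁄K).Nonsingular x y) (hy : y ≠ 0) :
    ∃ h' : ((shortW A B)⁄K).Nonsingular (e5p_dblX (algebraMap ℚ K A) x y)
        (e5p_dblY (algebraMap ℚ K A) x y),
      (Point.some x y h : ((shortW A B)⁄K).Point) + Point.some x y h =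
        Point.some (e5p_dblX (algebraMap ℚ K A) x y) (e5p_dblY (algebraMap ℚ K A) x y) h' :=
  dbl_add_self A B h hy

variable [IsAlgClosed K]

/-- A point of exact order 5 exists. -/
theorem e5p_exists_five_torsion (A B : ℚ) (hΔ : 4 * A ^ 3 + 27 * B ^ 2 ≠ 0) :
    ∃ P : ((shortW A B)⁄K).Point, P ≠ 0 ∧ (5 : ℤ) • P = 0 := by
  have hchar : CharZero K := algebraRat.charZero K
  have h2 : (2 : K) ≠ 0 := two_ne_zero
  set a : K := algebraMap ℚ K A with ha
  set b : K := algebraMap ℚ K B with hb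
  have hΔK : 4 * a ^ 3 + 27 * b ^ 2 ≠ 0 := by
    intro h
    apply hΔ
    apply (algebraMap ℚ K).injective
    rw [map_zero]
    simpa [ha, hb] using h
  obtain ⟨x, hx⟩ := e5p_exists_root a b
  obtain ⟨y, hyE⟩ := IsAlgClosed.exists_pow_nat_eq (x ^ 3 + a * x + b) (n := 2) (by norm_num)
  have hF : e5p_f a b x = y ^ 2 := by unfold e5p_f; rw [hyE]
  -- `y ≠ 0`
  have hy : y ≠ 0 := by
    intro hy0
    have hf0 : e5p_f a b x = 0 := by rw [hF, hy0]; ring
    have h3 : e5p_psi3 a b x ^ 3 = 0 := by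
      have := hx
      unfold e5p_psi5 at this
      rw [hf0] at this
      linear_combination -this
    have h3' : e5p_psi3 a b x = 0 := pow_eq_zero_iff (by norm_num) |>.mp h3
    have hd : (3 * x ^ 2 + a) ^ 2 = 0 := by
      have := e5p_psi3_eq a b x
      rw [h3', hf0] at this
      linear_combination this
    have hd' : 3 * x ^ 2 + a = 0 := pow_eq_zero_iff (by norm_num) |>.mp hd
    apply hΔK
    rw [e5p_disc_eq a b x, hf0, hd']
    ring
  have hns : ((shortW A B)⁄K).Nonsingular x y :=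
    (dbl_nonsingular_iff A B x y).mpr ⟨hyE, Or.inl hy⟩
  obtain ⟨hns2, hd⟩ := e5p_add_self A B hns hy
  have hX2 := e5p_dbl_x a b x y h2 hy hyE
  have hY2 := e5p_dbl_y a b x y h2 hy hyE
  -- `x(2P) - x = -ψ₃ / (4y²)`
  have hX2' : 4 * y ^ 2 * (e5p_dblX a x y - x) = -e5p_psi3 a b x := by
    rw [e5p_psi3_eq, hF]
    linear_combination hX2 + 8 * x * hyE
  have hP0 : (Point.some x y hns : ((shortW A B)⁄K).Point) ≠ 0 := Point.some_ne_zero _
  -- `g₄(x) ≠ 0`
  have hg : e5p_g4 a b x ≠ 0 := by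
    intro hg0
    have h3 : e5p_psi3 a b x ^ 3 = 0 := by
      have := hx
      unfold e5p_psi5 at this
      rw [hg0] at this
      linear_combination -this
    have h3' : e5p_psi3 a b x = 0 := pow_eq_zero_iff (by norm_num) |>.mp h3
    have hxx : e5p_dblX a x y = x := by
      rw [h3'] at hX2'
      have h4y : (4 : K) * y ^ 2 ≠ 0 := mul_ne_zero (by norm_num) (pow_ne_zero _ hy)
      have := (mul_eq_zero.mp (by linear_combination hX2' :
        4 * y ^ 2 * (e5p_dblX a x y - x) = 0)).resolve_left h4y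
      linear_combination this
    have hy20 : e5p_dblY a x y = 0 := by
      rw [hg0] at hY2
      have h8y : (8 : K) * y ^ 3 ≠ 0 := mul_ne_zero (by norm_num) (pow_ne_zero _ hy)
      exact (mul_eq_zero.mp hY2).resolve_left h8y
    rcases (Point.X_eq_iff (h₁ := hns2) (h₂ := hns)).mp hxx with h | h
    · rw [← hd] at h
      exact hP0 (add_eq_left.mp h)
    · obtain ⟨hn, hneg⟩ := dbl_neg_some A B hns
      rw [hneg] at h
      have hyy : e5p_dblY a x y = -y := by injection h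
      rw [hy20] at hyy
      exact hy (by linear_combination hyy)
  have hy2 : e5p_dblY a x y ≠ 0 := by
    intro h0
    rw [h0] at hY2
    exact hg (by rw [← hY2]; ring)
  obtain ⟨hns4, hdd⟩ := e5p_add_self A B hns2 hy2
  have hquad := e5p_quad_x a b x y h2 hy hyE hg
  have hx4 : e5p_dblX a (e5p_dblX a x y) (e5p_dblY a x y) = x := by
    rw [hx, mul_zero, neg_zero] at hquad
    have hne : (16 : K) * y ^ 2 * e5p_g4 a b x ^ 2 ≠ 0 :=
      mul_ne_zero (mul_ne_zero (by norm_num) (pow_ne_zero _ hy)) (pow_ne_zero _ hg)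
    have := (mul_eq_zero.mp hquad).resolve_right hne
    linear_combination this
  refine ⟨Point.some x y hns, hP0, ?_⟩
  set P : ((shortW A B)⁄K).Point := Point.some x y hns with hPdef
  have h5 : (5 : ℤ) • P = (P + P) + (P + P) + P := by abel
  rcases (Point.X_eq_iff (h₁ := hns4) (h₂ := hns)).mp hx4 with h | h
  · -- `4P = P`: then `3P = 0`, so `x(2P) = x(P)`, so `ψ₃ = 0`, contradiction
    exfalso
    rw [← hdd, ← hd] at h
    have h3 : P + P = -P := by
      have h' : (P + P) + (P + P) = P := h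
      have : (P + P) + P = 0 := by
        have e : (P + P) + (P + P) - P = (P + P) + P := by abel
        rw [← e, h']; abel
      exact eq_neg_of_add_eq_zero_left this
    rw [hd] at h3
    have hxx : e5p_dblX a x y = x := (Point.X_eq_iff (h₁ := hns2) (h₂ := hns)).mpr (Or.inr h3)
    have h30 : e5p_psi3 a b x = 0 := by
      rw [hxx] at hX2'
      linear_combination hX2'
    have : 32 * e5p_g4 a b x * (y ^ 2) ^ 2 = 0 := by
      have := hx
      unfold e5p_psi5 at this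
      rw [h30, hF] at this
      linear_combination this
    have hne : (32 : K) * e5p_g4 a b x * (y ^ 2) ^ 2 ≠ 0 :=
      mul_ne_zero (mul_ne_zero (by norm_num) hg) (pow_ne_zero _ (pow_ne_zero _ hy))
    exact hne this
  · rw [← hdd, ← hd] at h
    have h' : (P + P) + (P + P) = -P := h
    rw [h5, h']
    abel

end points

theorem five_torsion_nontrivial (A B : ℚ) (hΔ : 4 * A ^ 3 + 27 * B ^ 2 ≠ 0) :
    Nontrivial (Submodule.torsionBy ℤ ((shortW A B)⁄(AlgebraicClosure ℚ)).Point (5 : ℕ)) := by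
  obtain ⟨P, hP0, hP5⟩ := e5p_exists_five_torsion (K := AlgebraicClosure ℚ) A B hΔ
  have hmem : P ∈ Submodule.torsionBy ℤ ((shortW A B)⁄(AlgebraicClosure ℚ)).Point (5 : ℕ) := by
    rw [Submodule.mem_torsionBy_iff]
    exact_mod_cast hP5
  refine ⟨⟨⟨P, hmem⟩, 0, ?_⟩⟩
  intro h
  apply hP0
  exact congrArg Subtype.val h

end Fermat.Agent.S51
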