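/-
Team S51, block E5c (owner: helper58).  Relations satisfied by a point of exact order 5 on
`y² = x³ + a x + b` (`a = algebraMap ℚ K A`, `b = algebraMap ℚ K B`) over a field `K ⊇ ℚ`.

If `P = (x₁, y₁) ≠ 0` and `5 • P = 0`, then `2 • P = (x₂, y₂)`, `x₁ ≠ x₂`, and with `u = x₁ + x₂`, `v = x₁ x₂`:
  `a² + 2 (u² - v) a - u⁴ + 5 u² v + 5 v² = 0`   and   `4 b = u (u² - 6 v - 2 a)`.
(Both duplication relations `x₂ = D(x₁)`, `x₁ = D(x₂)`, subtracted / added, divided by `x₁ - x₂`.)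
-/
import Fermat.Agent.S51.Dbl

set_option autoImplicit false

open WeierstrassCurve WeierstrassCurve.Affine

namespace Fermat.Agent.S51

section
variable {K : Type*} [Field K] [Algebra ℚ K] [DecidableEq K] (A B : ℚ)

omit [DecidableEq K] in
/-- pure algebra: the two duplication relations give the `(u, v)`-relations. -/
lemma e5r_algebra {a b x₁ x₂ : K} (hne : x₁ ≠ x₂)
    (R₁ : 4 * x₂ * (x₁ ^ 3 + a * x₁ + b) = x₁ ^ 4 - 2 * a * x₁ ^ 2 - 8 * b * x₁ + a ^ 2)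
    (R₂ : 4 * x₁ * (x₂ ^ 3 + a * x₂ + b) = x₂ ^ 4 - 2 * a * x₂ ^ 2 - 8 * b * x₂ + a ^ 2) :
    a ^ 2 + 2 * ((x₁ + x₂) ^ 2 - x₁ * x₂) * a - (x₁ + x₂) ^ 4 + 5 * (x₁ + x₂) ^ 2 * (x₁ * x₂)
        + 5 * (x₁ * x₂) ^ 2 = 0 ∧
      4 * b = (x₁ + x₂) * ((x₁ + x₂) ^ 2 - 6 * (x₁ * x₂) - 2 * a) := by
  have h2 : (2 : K) ≠ 0 := dbl_two_ne_zero
  have hsub : x₁ - x₂ ≠ 0 := sub_ne_zero.2 hne
  have rel2 : 4 * b = (x₁ + x₂) * ((x₁ + x₂) ^ 2 - 6 * (x₁ * x₂) - 2 * a) := by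
    apply mul_left_cancel₀ hsub
    linear_combination R₁ - R₂
  refine ⟨?_, rel2⟩
  apply mul_left_cancel₀ h2
  linear_combination 3 * (x₁ + x₂) * rel2 - R₁ - R₂

/-- A point of exact order 5: coordinates of `P` and `2 • P` and the relations between them. -/
theorem five_torsion_relations (P : ((shortW A B)⁄K).Point) (hP0 : P ≠ 0)
    (h5 : (5 : ℤ) • P = 0) :
    ∃ (x₁ y₁ x₂ y₂ : K) (h₁ : ((shortW A B)⁄K).Nonsingular x₁ y₁)
      (h₂ : ((shortW A B)⁄K).Nonsingular x₂ y₂),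
      P = Point.some x₁ y₁ h₁ ∧ (2 : ℕ) • P = Point.some x₂ y₂ h₂ ∧ x₁ ≠ x₂ ∧ y₁ ≠ 0 ∧ y₂ ≠ 0 ∧
      algebraMap ℚ K A ^ 2 + 2 * ((x₁ + x₂) ^ 2 - x₁ * x₂) * algebraMap ℚ K A - (x₁ + x₂) ^ 4
          + 5 * (x₁ + x₂) ^ 2 * (x₁ * x₂) + 5 * (x₁ * x₂) ^ 2 = 0 ∧
      4 * algebraMap ℚ K B = (x₁ + x₂) * ((x₁ + x₂) ^ 2 - 6 * (x₁ * x₂) - 2 * algebraMap ℚ K A) := by
  -- P is affine
  rcases P with _ | ⟨x₁, y₁, h₁⟩
  · exact absurd rfl hP0
  set P : ((shortW A B)⁄K).Point := Point.some x₁ y₁ h₁ with hP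
  -- 2P ≠ 0
  have h2P : P + P ≠ 0 := by
    intro h0
    apply hP0
    have : (5 : ℤ) • P = P + P + (P + P) + P := by
      have : (5 : ℤ) • P = (5 : ℕ) • P := by norm_cast
      rw [this]; abel
    rw [this, h0, zero_add, zero_add] at h5
    exact h5
  -- coordinates of 2P
  obtain ⟨x₂, y₂, h₂, hQ⟩ : ∃ x₂ y₂, ∃ h₂ : ((shortW A B)⁄K).Nonsingular x₂ y₂,
      P + P = Point.some x₂ y₂ h₂ := by
    rcases hPP : P + P with _ | ⟨x₂, y₂, h₂⟩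
    · exact absurd hPP h2P
    · exact ⟨x₂, y₂, h₂, rfl⟩
  obtain ⟨hy₁, R₁⟩ := dbl_x_of_add_self A B hQ
  -- 4P = -P
  obtain ⟨h₁', hneg⟩ := dbl_neg_some A B h₁
  have h4 : (Point.some x₂ y₂ h₂ : ((shortW A B)⁄K).Point) + Point.some x₂ y₂ h₂ =
      Point.some x₁ (-y₁) h₁' := by
    rw [← hneg, ← hQ]
    have : (5 : ℤ) • P = P + P + (P + P) + P := by
      have : (5 : ℤ) • P = (5 : ℕ) • P := by norm_cast
      rw [this]; abel
    rw [this] at h5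
    exact eq_neg_of_add_eq_zero_left h5
  obtain ⟨hy₂, R₂⟩ := dbl_x_of_add_self A B h4
  -- x₁ ≠ x₂
  have hne : x₁ ≠ x₂ := by
    intro hx
    subst hx
    have h5' : P + P + (P + P) + P = 0 := by
      have : (5 : ℤ) • P = P + P + (P + P) + P := by
        have : (5 : ℤ) • P = (5 : ℕ) • P := by norm_cast
        rw [this]; abel
      rw [← this]; exact h5
    rcases dbl_some_eq_or_neg A B h₁ h₂ with h | h
    · -- 2P = P, so P = 0
      rw [← hQ] at h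
      apply hP0
      have : P + P = P + 0 := by rw [add_zero]; exact h
      exact add_left_cancel this
    · -- 2P = -P, so 3P = 0, so P = 0
      rw [← hQ] at h
      apply hP0
      have h6 : -P + -P + P = 0 := by rw [h] at h5'; exact h5'
      have h7 : -P = 0 := by rw [← h6]; abel
      exact neg_eq_zero.mp h7
  obtain ⟨rel1, rel2⟩ := e5r_algebra hne R₁ R₂
  refine ⟨x₁, y₁, x₂, y₂, h₁, h₂, rfl, ?_, hne, hy₁, hy₂, rel1, rel2⟩
  rw [two_nsmul]; exact hQ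

end

end Fermat.Agent.S51
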