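/-
Team S51, block E5 assembly (owner: helper36).
5-torsion of a short Weierstrass curve over `ℚ`: rational `(u, v)` data from reducibility.

Math (K = Qbar, E : y² = x³ + A x + B):
* nonzero `P` with `5 • P = 0`: `P = (x₁, y₁)`, `2P = (x₂, y₂)`, `x₁ ≠ x₂`, and with `u = x₁ + x₂`, `v = x₁ x₂`:
    `4 B = u (u² - 6 v - 2 A)`   and   `A² + 2 (u² - v) A - u⁴ + 5 u² v + 5 v² = 0`  (see `E5Rel.lean`).
* `E[5]` is nontrivial and has at most 25 elements (see `E5Points.lean`, `E5Card.lean`), so a Galois-stable `N ≠ ⊥, ⊤`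
  is a line `{0, ±P, ±2P}`; `σ P ∈ {±P, ±2P}` so `σ` fixes or swaps `x₁, x₂`: `u, v` are Galois-fixed, hence rational.
-/
import Fermat.Agent.S51.Defs
import Fermat.Agent.S51.Dbl
import Fermat.Agent.S51.E5Rel
import Fermat.Agent.S51.E5Points
import Fermat.Agent.S51.E5Card
import Fermat.Agent.S51.GaloisBasics

set_option autoImplicit false

open WeierstrassCurve WeierstrassCurve.Affine

namespace Fermat.Agent.S51

section
variable {K : Type*} [Field K] [Algebra ℚ K] [DecidableEq K] (A B : ℚ)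

/-- Multiples of a point `R` of order 5 have the `x`-coordinate of `R` or of `2 • R`. -/
lemma e5_nsmul_cases (R : ((shortW A B)⁄K).Point) (h5 : (5 : ℕ) • R = 0)
    {x y x' y' : K} {h : ((shortW A B)⁄K).Nonsingular x y}
    {h' : ((shortW A B)⁄K).Nonsingular x' y'}
    (hR : R = Point.some x y h) (h2R : (2 : ℕ) • R = Point.some x' y' h') (k : ℕ) :
    k • R = 0 ∨
      (∃ (y'' : K) (h'' : ((shortW A B)⁄K).Nonsingular x y''), k • R = Point.some x y'' h'') ∨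
      (∃ (y'' : K) (h'' : ((shortW A B)⁄K).Nonsingular x' y''), k • R = Point.some x' y'' h'') := by
  have hk : k • R = (k % 5) • R := by
    conv_lhs => rw [← Nat.div_add_mod' k 5]
    rw [add_smul, mul_smul, h5, smul_zero, zero_add]
  rw [hk]
  have hlt : k % 5 < 5 := Nat.mod_lt _ (by norm_num)
  have h3 : (3 : ℕ) • R = -((2 : ℕ) • R) := by
    rw [eq_neg_iff_add_eq_zero, ← add_smul]
    exact h5
  have h4 : (4 : ℕ) • R = -R := by
    rw [eq_neg_iff_add_eq_zero]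
    have : (4 : ℕ) • R + R = (5 : ℕ) • R := by
      rw [show (5 : ℕ) = 4 + 1 from rfl, add_smul, one_smul]
    rw [this, h5]
  interval_cases (k % 5)
  · left; exact zero_smul _ _
  · right; left
    exact ⟨y, h, by rw [one_smul, hR]⟩
  · right; right
    exact ⟨y', h', h2R⟩
  · right; right
    obtain ⟨hn, hneg⟩ := dbl_neg_some A B h'
    exact ⟨-y', hn, by rw [h3, h2R, hneg]⟩
  · right; left
    obtain ⟨hn, hneg⟩ := dbl_neg_some A B h
    refine ⟨-y, hn, ?_⟩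
    rw [h4]
    rw [← hneg, ← hR]

/-- If `σ • R` is a multiple of `R` (a point of order 5), then `σ` maps `x(R)` to `x(R)` or `x(2R)`. -/
lemma e5_sigma_x (R : ((shortW A B)⁄K).Point) (h5 : (5 : ℕ) • R = 0)
    {x y x' y' : K} {h : ((shortW A B)⁄K).Nonsingular x y}
    {h' : ((shortW A B)⁄K).Nonsingular x' y'}
    (hR : R = Point.some x y h) (h2R : (2 : ℕ) • R = Point.some x' y' h')
    (σ : K ≃ₐ[ℚ] K) (k : ℕ) (hσ : σ • R = k • R) :
    σ x = x ∨ σ x = x' := by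
  obtain ⟨hs, hmap⟩ := dbl_map_some A B σ h
  rw [hR] at hσ
  rw [hmap, ← hR] at hσ
  rcases e5_nsmul_cases A B R h5 hR h2R k with h0 | ⟨y'', h'', h1⟩ | ⟨y'', h'', h1⟩
  · rw [h0] at hσ
    exact absurd hσ (Point.some_ne_zero _)
  · rw [h1] at hσ
    left
    injection hσ
  · rw [h1] at hσ
    right
    injection hσ

end

theorem exists_rat_five_data (A B : ℚ) (hΔ : 4 * A ^ 3 + 27 * B ^ 2 ≠ 0)
    (h : ¬ Irr (shortW A B) 5) :
    ∃ u v : ℚ, u ^ 2 - 4 * v ≠ 0 ∧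
      A ^ 2 + 2 * (u ^ 2 - v) * A - u ^ 4 + 5 * u ^ 2 * v + 5 * v ^ 2 = 0 ∧
      4 * B = u * (u ^ 2 - 6 * v - 2 * A) := by
  classical
  have hnt := five_torsion_nontrivial A B hΔ
  obtain ⟨hfin, hcard⟩ := five_torsion_card_le A B hΔ
  have : Fact (Nat.Prime 5) := ⟨by norm_num⟩
  -- a stable proper nonzero submodule
  obtain ⟨N, hN, hbot, htop⟩ : ∃ N : Submodule (ZMod 5)
      (Submodule.torsionBy ℤ ((shortW A B)⁄(AlgebraicClosure ℚ)).Point (5 : ℕ)),
      Point.IsGaloisStable ℚ N ∧ N ≠ ⊥ ∧ N ≠ ⊤ := by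
    by_contra hcon
    apply h
    refine ⟨hnt, fun N hN => ?_⟩
    by_contra hN'
    rw [not_or] at hN'
    exact hcon ⟨N, hN, hN'.1, hN'.2⟩
  -- it is a line
  obtain ⟨P₀, hP₀, hP₀N, hgen⟩ :=
    exists_generator_of_card_le (p := 5) (by norm_num; exact hcard) N hbot htop
  set P : ((shortW A B)⁄(AlgebraicClosure ℚ)).Point := P₀.1 with hPdef
  have hPne : P ≠ 0 := fun h0 => hP₀ (Subtype.ext h0)
  have h5z : ((5 : ℕ) : ℤ) • P = 0 := (Submodule.mem_torsionBy_iff _ _).1 P₀.2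
  have h5 : (5 : ℕ) • P = 0 := by
    rw [← Nat.cast_smul_eq_nsmul ℤ]
    exact h5z
  obtain ⟨x₁, y₁, x₂, y₂, h₁, h₂, hP, h2P, hne, -, -, rel1, rel2⟩ :=
    five_torsion_relations A B P hPne (by exact_mod_cast h5z)
  -- the point `2 • P` also has order 5, and its double is `-P`
  have h5Q : (5 : ℕ) • ((2 : ℕ) • P) = 0 := by
    rw [smul_comm, h5, nsmul_zero]
  obtain ⟨hn₁, hneg₁⟩ := dbl_neg_some A B h₁
  have h2Q : (2 : ℕ) • ((2 : ℕ) • P) = Point.some x₁ (-y₁) hn₁ := by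
    rw [← hneg₁, ← hP, eq_neg_iff_add_eq_zero, ← mul_smul]
    have : (2 * 2 : ℕ) • P + P = (5 : ℕ) • P := by
      rw [show (5 : ℕ) = 2 * 2 + 1 from rfl, add_smul, one_smul]
    rw [this, h5]
  -- every automorphism fixes or swaps `x₁`, `x₂`
  have key : ∀ σ : AlgebraicClosure ℚ ≃ₐ[ℚ] AlgebraicClosure ℚ,
      (σ x₁ = x₁ ∨ σ x₁ = x₂) ∧ (σ x₂ = x₂ ∨ σ x₂ = x₁) := by
    intro σ
    obtain ⟨k, hk⟩ := hgen (σ • P₀) (hN σ P₀ hP₀N)
    have hk' : σ • P = k • P := by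
      have := congrArg Subtype.val hk
      rw [AddSubmonoidClass.coe_nsmul] at this
      exact this
    refine ⟨e5_sigma_x A B P h5 hP h2P σ k hk', e5_sigma_x A B _ h5Q h2P h2Q σ k ?_⟩
    rw [smul_comm k 2 P, ← hk']
    exact map_nsmul (Point.map σ.toAlgHom) 2 P
  have hu : ∀ σ : AlgebraicClosure ℚ ≃ₐ[ℚ] AlgebraicClosure ℚ, σ (x₁ + x₂) = x₁ + x₂ := by
    intro σ
    rcases key σ with ⟨h1 | h1, h2 | h2⟩
    · rw [map_add, h1, h2]
    · exact absurd (σ.injective (h1.trans h2.symm)) hne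
    · exact absurd (σ.injective (h1.trans h2.symm)) hne
    · rw [map_add, h1, h2, add_comm]
  have hv : ∀ σ : AlgebraicClosure ℚ ≃ₐ[ℚ] AlgebraicClosure ℚ, σ (x₁ * x₂) = x₁ * x₂ := by
    intro σ
    rcases key σ with ⟨h1 | h1, h2 | h2⟩
    · rw [map_mul, h1, h2]
    · exact absurd (σ.injective (h1.trans h2.symm)) hne
    · exact absurd (σ.injective (h1.trans h2.symm)) hne
    · rw [map_mul, h1, h2, mul_comm]
  obtain ⟨u, hu'⟩ := rat_of_fixed _ hu
  obtain ⟨v, hv'⟩ := rat_of_fixed _ hv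
  have hinj := (algebraMap ℚ (AlgebraicClosure ℚ)).injective
  refine ⟨u, v, ?_, ?_, ?_⟩
  · intro h0
    have h0' := congrArg (algebraMap ℚ (AlgebraicClosure ℚ)) h0
    simp only [map_sub, map_mul, map_pow, map_ofNat, map_zero, hu', hv'] at h0'
    have hsq : (x₁ - x₂) ^ 2 = 0 := by linear_combination h0'
    exact hne (sub_eq_zero.1 (pow_eq_zero_iff two_ne_zero |>.1 hsq))
  · apply hinj
    simp only [map_add, map_sub, map_mul, map_pow, map_ofNat, map_zero, hu', hv']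
    exact rel1
  · apply hinj
    simp only [map_sub, map_mul, map_pow, map_ofNat, hu', hv']
    exact rel2

end Fermat.Agent.S51
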