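/-
Team S51, block SL (owner: helper60).  A reducible mod-`p` representation with at most `p²`
torsion points has a Galois-stable line, generated by a point `P` with `σ P ∈ ℕ • P`.
-/
import Fermat.Agent.S51.Defs
import Fermat.Agent.S51.GaloisBasics

set_option autoImplicit false

open scoped WeierstrassCurve.Affine

namespace Fermat.Agent.S51

theorem exists_stable_generator (W : WeierstrassCurve ℚ) (p : ℕ) [Fact p.Prime]
    (hnt : Nontrivial (Submodule.torsionBy ℤ (W⁄(AlgebraicClosure ℚ)).Point p))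
    (hfin : Finite (Submodule.torsionBy ℤ (W⁄(AlgebraicClosure ℚ)).Point p))
    (hcard : Nat.card (Submodule.torsionBy ℤ (W⁄(AlgebraicClosure ℚ)).Point p) ≤ p ^ 2)
    (h : ¬ Irr W p) :
    ∃ P : (W⁄(AlgebraicClosure ℚ)).Point, P ≠ 0 ∧ p • P = 0 ∧
      ∀ σ : AlgebraicClosure ℚ ≃ₐ[ℚ] AlgebraicClosure ℚ, ∃ k : ℕ, σ • P = k • P := by
  -- a proper nonzero Galois-stable submodule
  have hN : ∃ N : Submodule (ZMod p) (Submodule.torsionBy ℤ (W⁄(AlgebraicClosure ℚ)).Point p),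
      WeierstrassCurve.Affine.Point.IsGaloisStable ℚ N ∧ N ≠ ⊥ ∧ N ≠ ⊤ := by
    by_contra hcon
    apply h
    refine ⟨hnt, fun N hN => ?_⟩
    by_contra hne
    push Not at hne
    exact hcon ⟨N, hN, hne.1, hne.2⟩
  obtain ⟨N, hstable, hbot, htop⟩ := hN
  obtain ⟨P, hP0, hPN, hgen⟩ := exists_generator_of_card_le hcard N hbot htop
  refine ⟨(P : (W⁄(AlgebraicClosure ℚ)).Point), ?_, ?_, ?_⟩
  · intro h0
    exact hP0 (Subtype.ext h0)
  · have := P.2
    rw [Submodule.mem_torsionBy_iff] at this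
    rw [← natCast_zsmul]
    exact this
  · intro σ
    obtain ⟨k, hk⟩ := hgen (σ • P) (hstable σ P hPN)
    refine ⟨k, ?_⟩
    have h1 : ((σ • P : Submodule.torsionBy ℤ (W⁄(AlgebraicClosure ℚ)).Point p) :
        (W⁄(AlgebraicClosure ℚ)).Point) = σ • (P : (W⁄(AlgebraicClosure ℚ)).Point) := rfl
    rw [← h1, hk]
    simp

end Fermat.Agent.S51
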