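/-
Team S51, block TorsCount (owner: helper86).  Generic count of torsion points by abscissae:
if the `x`-coordinate of every affine `n`-torsion point is a root of a nonzero polynomial `Q`, then there are
at most `2 * deg Q + 1` torsion points (at most two points per abscissa, plus the point at infinity).

Exports (namespace `Fermat.Agent.S51`, prefix `tc_`):
* `tc_card_le` : any field `F`, any `W : Affine F`, any subset-like predicate given by `torsionBy ℤ _ (n : ℕ)`.
* `torsion_card_le_of_roots` : the `Qbar` version requested by the captain.
-/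
import Fermat.Agent.S51.Defs

set_option autoImplicit false

open WeierstrassCurve WeierstrassCurve.Affine

namespace Fermat.Agent.S51

section tc
variable {F : Type*} [Field F] {W : Affine F}

/-- Coding of a point by its abscissa and one bit (whether its ordinate is the chosen one). -/
noncomputable def tcCode (s : F → F) : W.Point → Option (F × Bool)
  | .zero => none
  | .some x y _ => some (x, @decide (y = s x) (Classical.propDecidable _))

theorem tcCode_injective (s : F → F) (hs : ∀ x y : F, W.Equation x y → W.Equation x (s x)) :
    Function.Injective (tcCode (W := W) s) := by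
  classical
  intro P Q hPQ
  cases P with
  | zero =>
    cases Q with
    | zero => rfl
    | some x y h => simp [tcCode] at hPQ
  | some x y h =>
    cases Q with
    | zero => simp [tcCode] at hPQ
    | some x' y' h' =>
      simp only [tcCode, Option.some.injEq, Prod.mk.injEq] at hPQ
      obtain ⟨hx, hd⟩ := hPQ
      subst hx
      have hsx := hs x y h.1
      have hyy : y = y' := by
        by_cases hy : y = s x
        · have hy' : y' = s x := by
            by_contra hcon
            simp [hy, hcon] at hd
          rw [hy, hy']
        · have hy' : ¬ y' = s x := by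
            intro hcon
            simp [hy, hcon] at hd
          have e1 := (Y_eq_of_X_eq h.1 hsx rfl).resolve_left hy
          have e2 := (Y_eq_of_X_eq h'.1 hsx rfl).resolve_left hy'
          rw [e1, e2]
      subst hyy
      rfl

variable [DecidableEq F]

/-- Generic bound: `#E[n] ≤ 2 deg Q + 1` when abscissae of affine `n`-torsion points are roots of `Q ≠ 0`. -/
theorem tc_card_le (n : ℕ) (Q : Polynomial F) (hQ : Q ≠ 0)
    (h : ∀ (x y : F) (hxy : W.Nonsingular x y),
      (n : ℤ) • (Point.some x y hxy : W.Point) = 0 → Q.eval x = 0) :
    Finite (Submodule.torsionBy ℤ W.Point (n : ℕ)) ∧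
      Nat.card (Submodule.torsionBy ℤ W.Point (n : ℕ)) ≤ 2 * Q.natDegree + 1 := by
  classical
  have hex : ∀ x : F, ∃ z : F, (∃ y, W.Equation x y) → W.Equation x z := by
    intro x
    by_cases hx : ∃ y, W.Equation x y
    · obtain ⟨y, hy⟩ := hx
      exact ⟨y, fun _ => hy⟩
    · exact ⟨0, fun h => absurd h hx⟩
  choose s hs' using hex
  have hs : ∀ x y : F, W.Equation x y → W.Equation x (s x) := fun x y hxy => hs' x ⟨y, hxy⟩
  have hinj := tcCode_injective (W := W) s hs
  set S : Finset F := Q.roots.toFinset with hS
  have hScard : S.card ≤ Q.natDegree :=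
    (Multiset.toFinset_card_le _).trans (Polynomial.card_roots' _)
  set T : Finset (Option (F × Bool)) := Finset.insertNone (S ×ˢ (Finset.univ : Finset Bool)) with hT
  have hTcard : T.card ≤ 2 * Q.natDegree + 1 := by
    rw [hT, Finset.card_insertNone, Finset.card_product, Finset.card_univ, Fintype.card_bool]
    omega
  have hmem : ∀ P : Submodule.torsionBy ℤ W.Point (n : ℕ), tcCode s (P : W.Point) ∈ T := by
    rintro ⟨P, hP⟩
    have hPn : (n : ℤ) • P = 0 := (Submodule.mem_torsionBy_iff _ _).mp hP
    cases P with
    | zero => simp [tcCode, hT]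
    | some x y hxy =>
      have hroot := h x y hxy hPn
      simp only [tcCode, hT, Finset.mem_insertNone, Option.mem_def, Option.some.injEq]
      intro a ha
      subst ha
      simp only [Finset.mem_product, Finset.mem_univ, and_true, hS, Multiset.mem_toFinset]
      exact (Polynomial.mem_roots hQ).mpr hroot
  let φ : Submodule.torsionBy ℤ W.Point (n : ℕ) → T := fun P => ⟨tcCode s (P : W.Point), hmem P⟩
  have hφ : Function.Injective φ := by
    intro P Q' hPQ
    have : tcCode s (P : W.Point) = tcCode s (Q' : W.Point) := congrArg Subtype.val hPQ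
    exact Subtype.ext (hinj this)
  have hfin : Finite (Submodule.torsionBy ℤ W.Point (n : ℕ)) := Finite.of_injective φ hφ
  refine ⟨hfin, ?_⟩
  have := Nat.card_le_card_of_injective φ hφ
  have hTc : Nat.card ↥T = T.card :=
    (Nat.card_eq_fintype_card (α := ↥T)).trans (Fintype.card_coe T)
  rw [hTc] at this
  exact this.trans hTcard

end tc

/-- At most `2 deg Q + 1` points of `n`-torsion when abscissae of affine `n`-torsion points are roots of `Q`. -/
theorem torsion_card_le_of_roots (W : WeierstrassCurve ℚ) (n : ℕ)
    (Q : Polynomial (AlgebraicClosure ℚ)) (hQ : Q ≠ 0)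
    (h : ∀ (x y : AlgebraicClosure ℚ) (hxy : (W⁄(AlgebraicClosure ℚ)).Nonsingular x y),
      (n : ℤ) • (Point.some x y hxy : (W⁄(AlgebraicClosure ℚ)).Point) = 0 → Q.eval x = 0) :
    Finite (Submodule.torsionBy ℤ (W⁄(AlgebraicClosure ℚ)).Point (n : ℕ)) ∧
      Nat.card (Submodule.torsionBy ℤ (W⁄(AlgebraicClosure ℚ)).Point (n : ℕ)) ≤
        2 * Q.natDegree + 1 :=
  tc_card_le n Q hQ h

end Fermat.Agent.S51
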